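import Mathlib
import Fermat.Agent.LT.J.EisField
import Fermat.Agent.LT.H.Local

/-!
# LT piece H5: multiplicativity of the restriction to `ℤ` of a Hecke function on `ℤ[ω]`
-/

set_option autoImplicit false

open Fermat.Agent.LT.H.Local (U)

noncomputable section

namespace Fermat.Agent.LT.H5

open Fermat.LT Fermat.Agent.LT.J

/-! ### Primes of `ℤ[ω]` -/

theorem isUnit_or_of_nm {π x y : EO} {p : ℕ} (hp : p.Prime) (hπ : QE.nm π = (p : ℤ))
    (h : π = x * y) : IsUnit x ∨ IsUnit y := by
  have h1 : QE.nm x * QE.nm y = (p : ℤ) := by rw [← QE.nm_mul, ← h, hπ]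
  have hx := J.nm_nonneg x
  have hy := J.nm_nonneg y
  obtain ⟨a, ha⟩ := Int.eq_ofNat_of_zero_le hx
  obtain ⟨b, hb⟩ := Int.eq_ofNat_of_zero_le hy
  rw [ha, hb] at h1
  have h2 : a * b = p := by exact_mod_cast h1
  rcases (Nat.dvd_prime hp).1 (Dvd.intro _ h2) with h3 | h3
  · left
    rw [isUnit_iff_nm, ha, h3]; rfl
  · right
    rw [isUnit_iff_nm, hb]
    rw [h3] at h2
    have h4 : b = 1 := Nat.eq_of_mul_eq_mul_left hp.pos (by rw [h2, mul_one])
    rw [h4]; rfl

theorem prime_of_nm {π : EO} {p : ℕ} (hp : p.Prime) (hπ : QE.nm π = (p : ℤ)) : Prime π := by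
  rw [← irreducible_iff_prime]
  refine ⟨?_, fun x y h => isUnit_or_of_nm hp hπ h⟩
  intro hu
  rw [isUnit_iff_nm, hπ] at hu
  have : p = 1 := by exact_mod_cast hu
  exact hp.one_lt.ne' this

theorem nm_natCast (n : ℕ) : QE.nm ((n : ℕ) : EO) = (n : ℤ) ^ 2 := by
  have h1 : ((n : ℕ) : EO).re = (n : ℤ) := by simp
  have h2 : ((n : ℕ) : EO).im = 0 := by simp
  rw [QE.nm, h1, h2]
  ring

theorem mul_star_natCast {π : EO} {p : ℕ} (hπ : QE.nm π = (p : ℤ)) : π * star π = (p : EO) := by
  rw [QE.mul_star_eq, hπ]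
  rfl

/-- inert primes -/
theorem prime_of_mod_two {p : ℕ} (hp : p.Prime) (h2 : p % 3 = 2) : Prime ((p : ℕ) : EO) := by
  rw [← irreducible_iff_prime]
  refine ⟨?_, ?_⟩
  · intro hu
    rw [isUnit_iff_nm, nm_natCast] at hu
    have h3 : (p : ℤ) ^ 2 = 1 := hu
    have h4 : p ^ 2 = 1 := by exact_mod_cast h3
    have := hp.one_lt
    nlinarith
  · intro x y h
    have h1 : QE.nm x * QE.nm y = (p : ℤ) ^ 2 := by rw [← QE.nm_mul, ← h, nm_natCast]
    have hx := J.nm_nonneg x
    have hy := J.nm_nonneg y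
    obtain ⟨a, ha⟩ := Int.eq_ofNat_of_zero_le hx
    obtain ⟨b, hb⟩ := Int.eq_ofNat_of_zero_le hy
    rw [ha, hb] at h1
    have h3 : a * b = p ^ 2 := by exact_mod_cast h1
    obtain ⟨k, hk, hak⟩ := (Nat.dvd_prime_pow hp).1 (Dvd.intro _ h3)
    have hmod : (a : ℤ) % 3 ≠ 2 := by
      rw [show (a : ℤ) = QE.nm x from ha.symm, QE.nm]
      have h4 : (x.re ^ 2 - x.re * x.im + x.im ^ 2) = (x.re + x.im) ^ 2 - 3 * (x.re * x.im) := by
        ring
      rw [h4]
      have h5 : (x.re + x.im) % 3 = 0 ∨ (x.re + x.im) % 3 = 1 ∨ (x.re + x.im) % 3 = 2 := by omega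
      rcases h5 with h5 | h5 | h5 <;>
      · rw [Int.sub_emod, Int.mul_emod_right, pow_two, Int.mul_emod, h5]
        norm_num
    interval_cases k
    · left
      rw [isUnit_iff_nm, ha, hak, pow_zero]; rfl
    · exfalso
      rw [pow_one] at hak
      apply hmod
      rw [hak]
      omega
    · right
      rw [isUnit_iff_nm, hb]
      rw [hak] at h3
      have hpp : 0 < p ^ 2 := pow_pos hp.pos 2
      have h4 : b = 1 := Nat.eq_of_mul_eq_mul_left hpp (by rw [h3, mul_one])
      rw [h4]; rfl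

theorem nm_th : QE.nm (QE.th : EO) = ((3 : ℕ) : ℤ) := by
  rw [QE.nm, QE.th_re, QE.th_im]; norm_num

theorem prime_th : Prime (QE.th : EO) := prime_of_nm Nat.prime_three nm_th

/-- split primes -/
theorem exists_nm_eq {p : ℕ} (hp : p.Prime) (h1 : p % 3 = 1) : ∃ π : EO, QE.nm π = (p : ℤ) := by
  have : Fact p.Prime := ⟨hp⟩
  -- a primitive cube root of unity modulo `p`
  have h3 : 3 ∣ p - 1 := by have := hp.one_lt; omega
  obtain ⟨g, hg⟩ : ∃ g : (ZMod p)ˣ, orderOf g = 3 := by
    have hc : Fintype.card (ZMod p)ˣ = p - 1 := ZMod.card_units p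
    have : Fact (Nat.Prime 3) := ⟨Nat.prime_three⟩
    exact exists_prime_orderOf_dvd_card 3 (by rw [hc]; exact h3)
  have hg3 : ((g : ZMod p)) ^ 3 = 1 := by
    rw [← Units.val_pow_eq_pow_val, ← hg, pow_orderOf_eq_one, Units.val_one]
  have hg1 : (g : ZMod p) ≠ 1 := by
    intro h
    have : g = 1 := Units.ext h
    rw [this, orderOf_one] at hg
    norm_num at hg
  have hgq : (g : ZMod p) ^ 2 + g + 1 = 0 := by
    have : ((g : ZMod p) - 1) * ((g : ZMod p) ^ 2 + g + 1) = 0 := by
      linear_combination hg3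
    rcases mul_eq_zero.1 this with h | h
    · exact absurd (sub_eq_zero.1 h) hg1
    · exact h
  set x : ℤ := ((g : ZMod p).val : ℤ) with hx
  have hxc : ((x : ℤ) : ZMod p) = g := by
    rw [hx]; simp
  -- `p ∣ N(x - ω)`
  have hdvd : (p : ℤ) ∣ x ^ 2 + x + 1 := by
    rw [← ZMod.intCast_zmod_eq_zero_iff_dvd]
    push_cast
    rw [hxc]
    exact hgq
  set z : EO := ⟨x, -1⟩ with hz
  have hnz : QE.nm z = x ^ 2 + x + 1 := by
    rw [QE.nm, hz]; ring
  have hnot : ¬ Prime ((p : ℕ) : EO) := by
    intro hP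
    have h2 : ((p : ℕ) : EO) ∣ z * star z := by
      rw [QE.mul_star_eq, hnz]
      obtain ⟨c, hc⟩ := hdvd
      rw [hc]
      refine ⟨(c : EO), ?_⟩
      have : QuadraticAlgebra.C ((p : ℤ) * c) = (((p : ℤ) * c : ℤ) : EO) := rfl
      rw [this]; push_cast; rfl
    have him : ∀ y : EO, ((p : ℕ) : EO) ∣ y → (p : ℤ) ∣ y.im := by
      rintro y ⟨c, rfl⟩
      refine ⟨c.im, ?_⟩
      rw [QE.mul_im]; simp
    have hp1 : ¬ (p : ℤ) ∣ 1 := by
      intro h
      have := Int.natAbs_dvd_natAbs.2 h
      simp at this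
      exact hp.one_lt.ne' this
    rcases hP.dvd_or_dvd h2 with h | h
    · have := him _ h
      rw [hz] at this
      exact hp1 ((dvd_neg).1 this)
    · have := him _ h
      rw [QE.star_im, hz] at this
      simp at this
      exact hp1 (by simpa using this)
  rw [← irreducible_iff_prime] at hnot
  have hnu : ¬ IsUnit ((p : ℕ) : EO) := by
    intro hu
    rw [isUnit_iff_nm, nm_natCast] at hu
    have h4 : p ^ 2 = 1 := by exact_mod_cast hu
    have := hp.one_lt
    nlinarith
  rw [irreducible_iff] at hnot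
  push Not at hnot
  obtain ⟨a, b, hab, ha, hb⟩ := hnot hnu
  refine ⟨a, ?_⟩
  have h5 : QE.nm a * QE.nm b = (p : ℤ) ^ 2 := by rw [← QE.nm_mul, ← hab, nm_natCast]
  obtain ⟨m, hm⟩ := Int.eq_ofNat_of_zero_le (J.nm_nonneg a)
  obtain ⟨n, hn⟩ := Int.eq_ofNat_of_zero_le (J.nm_nonneg b)
  rw [hm, hn] at h5
  have h6 : m * n = p ^ 2 := by exact_mod_cast h5
  obtain ⟨k, hk, hmk⟩ := (Nat.dvd_prime_pow hp).1 (Dvd.intro _ h6)
  rw [isUnit_iff_nm, hm] at ha
  rw [isUnit_iff_nm, hn] at hb
  interval_cases k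
  · rw [pow_zero] at hmk
    rw [hmk] at ha
    exact absurd rfl ha
  · rw [hm, hmk, pow_one]
  · exfalso
    apply hb
    rw [hmk] at h6
    have hpp : 0 < p ^ 2 := pow_pos hp.pos 2
    have h4 : n = 1 := Nat.eq_of_mul_eq_mul_left hpp (by rw [h6, mul_one])
    rw [h4]; rfl

/-! ### Multiplicativity -/

section mult

variable {M : ℕ} {A : EO → ℂ} {lam : EO → ℝ}

/-- the values at `π^k m` -/
theorem A_pow_mul
    (h1 : ∀ π : EO, Prime π → ¬ π ∣ (M : EO) → ∀ m : EO, m ≠ 0 → IsCoprime m (M : EO) →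
      ¬ π ∣ m → A (π * m) = lam π * A m)
    (h2 : ∀ π : EO, Prime π → ¬ π ∣ (M : EO) → ∀ m : EO, m ≠ 0 → IsCoprime m (M : EO) →
      A (π * (π * m)) + A m = lam π * A (π * m))
    {π : EO} (hπ : Prime π) (hM : ¬ π ∣ (M : EO)) {m : EO} (hm : m ≠ 0)
    (hmM : IsCoprime m (M : EO)) (hd : ¬ π ∣ m) (k : ℕ) : A (π ^ k * m) = U (lam π) k * A m := by
  have hcop : IsCoprime π (M : EO) := hπ.irreducible.coprime_iff_not_dvd.2 hM
  induction k using Nat.twoStepInduction with
  | zero => simp
  | one => rw [pow_one, h1 π hπ hM m hm hmM hd, H.Local.U_one]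
  | more k ih1 ih2 =>
    have h3 := h2 π hπ hM (π ^ k * m) (mul_ne_zero (pow_ne_zero _ hπ.ne_zero) hm)
      (hcop.pow_left.mul_left hmM)
    have e1 : π * (π ^ k * m) = π ^ (k + 1) * m := by ring
    have e2 : π * (π ^ (k + 1) * m) = π ^ (k + 2) * m := by ring
    rw [e1, e2, ih1, ih2] at h3
    rw [H.Local.U_add_two]
    push_cast
    linear_combination h3

/-- the local values -/
def fl (M : ℕ) (lam : EO → ℝ) (ϖ : ℕ → EO) (p k : ℕ) : ℝ :=
  if k = 0 then 1 else if p ∣ M then 0 else
  if p % 3 = 1 then U (lam (ϖ p)) k * U (lam (star (ϖ p))) k else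
  if p % 3 = 2 then U (lam (p : EO)) k else U (lam QE.th) (2 * k)

/-- the multiplicative function -/
def am (M : ℕ) (lam : EO → ℝ) (ϖ : ℕ → EO) (n : ℕ) : ℝ :=
  if n = 0 then 0 else n.factorization.prod (fl M lam ϖ)

variable {ϖ : ℕ → EO}

theorem fl_zero (p : ℕ) : fl M lam ϖ p 0 = 1 := if_pos rfl

theorem am_zero : am M lam ϖ 0 = 0 := if_pos rfl

theorem am_one : am M lam ϖ 1 = 1 := by
  rw [am, if_neg one_ne_zero, Nat.factorization_one, Finsupp.prod_zero_index]

theorem am_prime_pow {p : ℕ} (hp : p.Prime) (k : ℕ) : am M lam ϖ (p ^ k) = fl M lam ϖ p k := by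
  rw [am, if_neg (pow_ne_zero _ hp.ne_zero), hp.factorization_pow,
    Finsupp.prod_single_index (fl_zero p)]

theorem am_mul {m n : ℕ} (h : Nat.Coprime m n) : am M lam ϖ (m * n) = am M lam ϖ m * am M lam ϖ n := by
  rcases eq_or_ne m 0 with rfl | hm
  · rw [zero_mul, am_zero, zero_mul]
  rcases eq_or_ne n 0 with rfl | hn
  · rw [mul_zero, am_zero, mul_zero]
  rw [am, am, am, if_neg (mul_ne_zero hm hn), if_neg hm, if_neg hn,
    Nat.factorization_mul_of_coprime h]
  refine Finsupp.prod_add_index_of_disjoint ?_ _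
  exact h.disjoint_primeFactors

theorem isCoprime_natCast {a b : ℕ} (h : Nat.Coprime a b) : IsCoprime (a : EO) (b : EO) := by
  have h1 := (Nat.isCoprime_iff_coprime.2 h).map (Int.castRingHom EO)
  simpa using h1

theorem not_dvd_of_isCoprime {π x y : EO} (hπ : Prime π) (h : IsCoprime x y) (hd : π ∣ y) :
    ¬ π ∣ x := fun hx => hπ.not_isUnit (h.isUnit_of_dvd' hx hd)

/-- **The restriction to `ℤ` is multiplicative.** -/
theorem exists_mult {M : ℕ} (A : EO → ℂ) (lam : EO → ℝ) (hneg : ∀ m, A (-m) = A m)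
    (h1 : ∀ π : EO, Prime π → ¬ π ∣ (M : EO) → ∀ m : EO, m ≠ 0 → IsCoprime m (M : EO) →
      ¬ π ∣ m → A (π * m) = lam π * A m)
    (h2 : ∀ π : EO, Prime π → ¬ π ∣ (M : EO) → ∀ m : EO, m ≠ 0 → IsCoprime m (M : EO) →
      A (π * (π * m)) + A m = lam π * A (π * m))
    (ϖ : ℕ → EO) (hϖ : ∀ p : ℕ, p.Prime → p % 3 = 1 → QE.nm (ϖ p) = p) :
    ∃ a : ℕ → ℝ, a 0 = 0 ∧ a 1 = 1 ∧ (∀ m n, Nat.Coprime m n → a (m * n) = a m * a n) ∧
      (∀ p, p.Prime → p ∣ M → ∀ k, a (p ^ (k + 1)) = 0) ∧
      (∀ p, p.Prime → ¬ p ∣ M → p % 3 = 1 → ∀ k,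
        a (p ^ k) = U (lam (ϖ p)) k * U (lam (star (ϖ p))) k) ∧
      (∀ p, p.Prime → ¬ p ∣ M → p % 3 = 2 → ∀ k, a (p ^ k) = U (lam (p : EO)) k) ∧
      (¬ 3 ∣ M → ∀ k, a (3 ^ k) = U (lam (⟨1, 2⟩ : EO)) (2 * k)) ∧
      ∀ n : ℕ, n ≠ 0 → Nat.Coprime n M → A (n : EO) = A 1 * a n := by
  have hsplit : ∀ p, p.Prime → ¬ p ∣ M → p % 3 = 1 → ∀ k,
      fl M lam ϖ p k = U (lam (ϖ p)) k * U (lam (star (ϖ p))) k := by
    intro p hp hpM h3 k
    rcases eq_or_ne k 0 with rfl | hk
    · rw [fl_zero]; simp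
    · rw [fl, if_neg hk, if_neg hpM, if_pos h3]
  have hinert : ∀ p, p.Prime → ¬ p ∣ M → p % 3 = 2 → ∀ k,
      fl M lam ϖ p k = U (lam (p : EO)) k := by
    intro p hp hpM h3 k
    rcases eq_or_ne k 0 with rfl | hk
    · rw [fl_zero]; simp
    · rw [fl, if_neg hk, if_neg hpM, if_neg (by omega), if_pos h3]
  have hthree : ¬ 3 ∣ M → ∀ k, fl M lam ϖ 3 k = U (lam QE.th) (2 * k) := by
    intro hpM k
    rcases eq_or_ne k 0 with rfl | hk
    · rw [fl_zero]; simp
    · rw [fl, if_neg hk, if_neg hpM, if_neg (by norm_num), if_neg (by norm_num)]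
  refine ⟨am M lam ϖ, am_zero, am_one, fun m n h => am_mul h, ?_, ?_, ?_, ?_, ?_⟩
  · intro p hp hpM k
    rw [am_prime_pow hp, fl, if_neg k.succ_ne_zero, if_pos hpM]
  · intro p hp hpM h3 k
    rw [am_prime_pow hp, hsplit p hp hpM h3]
  · intro p hp hpM h3 k
    rw [am_prime_pow hp, hinert p hp hpM h3]
  · intro hpM k
    rw [am_prime_pow Nat.prime_three, hthree hpM]
    rfl
  · have key : ∀ n : ℕ, n ≠ 0 → Nat.Coprime n M → ∀ m : EO, m ≠ 0 → IsCoprime m (M : EO) →
        IsCoprime m (n : EO) → A ((n : EO) * m) = am M lam ϖ n * A m := by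
      intro n
      induction n using Nat.recOnPosPrimePosCoprime with
      | prime_pow p k hp hk =>
        intro _ hcop m hm hmM hmn
        have hpM : ¬ p ∣ M := by
          intro h
          have h3 := (Nat.Coprime.coprime_dvd_left (dvd_pow_self p hk.ne') hcop)
          exact (Nat.Prime.coprime_iff_not_dvd hp).1 h3 h
        have hpMc : IsCoprime ((p : ℕ) : EO) (M : EO) :=
          isCoprime_natCast ((Nat.Prime.coprime_iff_not_dvd hp).2 hpM)
        have hmp : IsCoprime m ((p : ℕ) : EO) := by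
          rw [Nat.cast_pow] at hmn
          exact (IsCoprime.pow_right_iff hk).1 hmn
        rw [am_prime_pow hp, Nat.cast_pow]
        have hmod : p % 3 = 0 ∨ p % 3 = 1 ∨ p % 3 = 2 := by omega
        rcases hmod with h3 | h3 | h3
        · have hp3 : p = 3 := by
            have : 3 ∣ p := Nat.dvd_of_mod_eq_zero h3
            exact ((Nat.prime_dvd_prime_iff_eq Nat.prime_three hp).1 this).symm
          subst hp3
          rw [hthree hpM]
          have e1 : (((3 : ℕ) : EO) ^ k * m) = (-1) ^ k * (QE.th ^ (2 * k) * m) := by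
            have : ((3 : ℕ) : EO) = -1 * (QE.th * QE.th) := by
              rw [QE.th_sq]; push_cast; ring
            rw [this]
            ring
          have e2 : ∀ x : EO, A ((-1) ^ k * x) = A x := by
            intro x
            rcases neg_one_pow_eq_or EO k with h | h
            · rw [h, one_mul]
            · rw [h, neg_one_mul, hneg]
          have hd3 : (QE.th : EO) ∣ ((3 : ℕ) : EO) := by
            refine ⟨-QE.th, ?_⟩
            rw [mul_neg, QE.th_sq]; push_cast; ring
          rw [e1, e2, A_pow_mul h1 h2 prime_th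
            (not_dvd_of_isCoprime prime_th hpMc.symm hd3) hm hmM
            (not_dvd_of_isCoprime prime_th hmp hd3)]
        · rw [hsplit p hp hpM h3]
          have hn := hϖ p hp h3
          have hns : QE.nm (star (ϖ p)) = (p : ℤ) := by rw [QE.nm_star, hn]
          have hpr := prime_of_nm hp hn
          have hprs := prime_of_nm hp hns
          have hd1 : ϖ p ∣ ((p : ℕ) : EO) := ⟨star (ϖ p), (mul_star_natCast hn).symm⟩
          have hd2 : star (ϖ p) ∣ ((p : ℕ) : EO) :=
            ⟨ϖ p, by rw [mul_comm]; exact (mul_star_natCast hn).symm⟩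
          have hnd : ¬ ϖ p ∣ star (ϖ p) := by
            intro hdv
            -- then `ϖ ∣ ϖ + star ϖ` and `p ∣ tr²`
            obtain ⟨c, hc⟩ := hdv
            have hnc : QE.nm c = 1 := by
              have := congrArg QE.nm hc
              rw [QE.nm_mul, hns, hn] at this
              have hp0 : (p : ℤ) ≠ 0 := by exact_mod_cast hp.ne_zero
              exact mul_left_cancel₀ hp0 (by rw [mul_one]; exact this.symm)
            set x := (ϖ p).re with hx
            set y := (ϖ p).im with hy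
            have e1 : x - y = x * c.re - y * c.im := by
              have := congrArg QuadraticAlgebra.re hc
              rw [QE.star_re, QE.mul_re] at this
              exact this
            have e2 : -y = x * c.im + y * c.re - y * c.im := by
              have := congrArg QuadraticAlgebra.im hc
              rw [QE.star_im, QE.mul_im] at this
              exact this
            have e3 : x ^ 2 - x * y + y ^ 2 = (p : ℤ) := hn
            have e4 : c.re ^ 2 - c.re * c.im + c.im ^ 2 = 1 := hnc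
            -- the units
            have hcb : c.im ^ 2 ≤ 1 := by nlinarith [sq_nonneg (2 * c.re - c.im)]
            have hcb2 : c.re ^ 2 ≤ 1 := by nlinarith [sq_nonneg (2 * c.im - c.re)]
            have hi1 : -1 ≤ c.im := by nlinarith
            have hi2 : c.im ≤ 1 := by nlinarith
            have hr1 : -1 ≤ c.re := by nlinarith
            have hr2 : c.re ≤ 1 := by nlinarith
            have hnotsq : ∀ z : ℤ, (p : ℤ) ≠ z ^ 2 := by
              intro z hz
              have h5 : p = z.natAbs ^ 2 := by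
                have := congrArg Int.natAbs hz
                rw [Int.natAbs_pow] at this
                simpa using this
              exact Nat.Prime.not_prime_pow (by norm_num) (h5 ▸ hp)
            have hnot3 : ∀ z : ℤ, (p : ℤ) ≠ 3 * z ^ 2 := by
              intro z hz
              omega
            have hh : x = 0 ∨ y = 0 ∨ x = y ∨ y = 2 * x ∨ x = 2 * y ∨ x = -y := by
              generalize c.re = u at *
              generalize c.im = v at *
              interval_cases u <;> interval_cases v <;> norm_num at e4 <;> omega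
            rcases hh with h | h | h | h | h | h
            · exact hnotsq y (by rw [← e3, h]; ring)
            · exact hnotsq x (by rw [← e3, h]; ring)
            · exact hnotsq y (by rw [← e3, h]; ring)
            · exact hnot3 x (by rw [← e3, h]; ring)
            · exact hnot3 y (by rw [← e3, h]; ring)
            · exact hnot3 y (by rw [← e3, h]; ring)
          have e1 : (((p : ℕ) : EO) ^ k * m) = (ϖ p) ^ k * ((star (ϖ p)) ^ k * m) := by
            rw [← mul_star_natCast hn]; ring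
          have hcs : IsCoprime (star (ϖ p)) (M : EO) :=
            IsCoprime.of_isCoprime_of_dvd_left hpMc hd2
          rw [e1, A_pow_mul h1 h2 hpr (not_dvd_of_isCoprime hpr hpMc.symm hd1)
            (mul_ne_zero (pow_ne_zero _ hprs.ne_zero) hm) (hcs.pow_left.mul_left hmM)
            (fun hdv => (hpr.dvd_or_dvd hdv).elim (fun h => hnd (hpr.dvd_of_dvd_pow h))
              (fun h => not_dvd_of_isCoprime hpr hmp hd1 h)),
            A_pow_mul h1 h2 hprs (not_dvd_of_isCoprime hprs hpMc.symm hd2) hm hmM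
              (not_dvd_of_isCoprime hprs hmp hd2)]
          push_cast
          ring
        · rw [hinert p hp hpM h3]
          have hpr := prime_of_mod_two hp h3
          exact A_pow_mul h1 h2 hpr (not_dvd_of_isCoprime hpr hpMc.symm dvd_rfl) hm hmM
            (not_dvd_of_isCoprime hpr hmp dvd_rfl) k
      | zero => intro h; exact absurd rfl h
      | one =>
        intro _ _ m _ _ _
        rw [am_one]; simp
      | coprime a b ha hb hab iha ihb =>
        intro _ hcop m hm hmM hmn
        rw [Nat.cast_mul] at hmn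
        have hcb : Nat.Coprime b M := Nat.Coprime.coprime_dvd_left (Dvd.intro_left a rfl) hcop
        have hca : Nat.Coprime a M := Nat.Coprime.coprime_dvd_left (Dvd.intro b rfl) hcop
        have hb0 : (b : EO) ≠ 0 := by
          intro h
          have := congrArg QuadraticAlgebra.re h
          simp at this
          omega
        rw [am_mul hab, Nat.cast_mul, mul_assoc, iha (by omega) hca (b * m)
          (mul_ne_zero hb0 hm) ((isCoprime_natCast hcb).mul_left hmM)
          ((isCoprime_natCast hab.symm).mul_left (IsCoprime.of_mul_right_left hmn)),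
          ihb (by omega) hcb m hm hmM (IsCoprime.of_mul_right_right hmn)]
        push_cast
        ring
    intro n hn hcop
    have := key n hn hcop 1 one_ne_zero isCoprime_one_left isCoprime_one_left
    rw [mul_one] at this
    rw [this, mul_comm]

end mult

end Fermat.Agent.LT.H5
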