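import Fermat.Agent.LT.H5.Final
import Fermat.Agent.LT.H5.AsaiDens

/-!
LT piece H5 (helper74): **non-vanishing of the Asai period**, `periodNe (R : Octa) : PeriodNe R`,
hence `thetaJ (R : Octa) : ThetaJ R`.
-/

set_option autoImplicit false

open Matrix MeasureTheory Set NumberField Filter Topology

noncomputable section

namespace Fermat.Agent.LT.H5

open Fermat.LT Fermat.Agent.LT.J Fermat.Agent.LT.K Fermat.Agent.LT.D

theorem asaiIn (R : Octa) : AsaiIn R := by
  intro D M hM0 lam Φ hlev hΦ hcomp E lamE hlamE ϖ hϖ T₀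
  let l : ℕ → ℝ := fun p => if p % 3 = 1 then lamE (ϖ p) else lamE (p : EO)
  have l1 : ∀ p : ℕ, p % 3 = 1 → l p = lamE (ϖ p) := fun p h => if_pos h
  have l2 : ∀ p : ℕ, p % 3 = 2 → l p = lamE (p : EO) := fun p h => if_neg (by omega)
  obtain ⟨T, A1, A2, h1, h2, h3, h4, h5, h6, h7⟩ :=
    asai_dens_inputs R E hcomp (NeZero.ne M) hlev hϖ hlamE (l := l)
      (l' := fun p => lamE (star (ϖ p))) (fun p _ h => l1 p h) (fun p _ h => l2 p h)
      (fun p _ _ => rfl) T₀
  refine ⟨T, A1, A2, h1, h2, fun p hp => ?_, fun p hp => ?_, fun p a b c d => ?_, h6, h7⟩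
  · obtain ⟨a, b, c, d, e⟩ := h3 p hp
    rw [l1 p b] at d e
    exact ⟨a, b, c, d, e⟩
  · obtain ⟨a, b, c, d⟩ := h4 p hp
    rw [l2 p b] at d
    exact ⟨a, b, c, d⟩
  · have := h5 p a b c d
    rwa [l2 p b] at this

/-- **Non-vanishing of the Asai period.** -/
theorem periodNe (R : Octa) : Top.PeriodNe R := periodNe_of (asaiIn R)

/-- **Theta lift.** -/
theorem thetaJ (R : Octa) : Top.ThetaJ R := Top.thetaJ_of R (periodNe R)

end Fermat.Agent.LT.H5
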