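import Fermat.Agent.LT.H5.Series

/-!
LT piece H5 (helper74): if all the periods vanish, the series `∑ A(n) n^{-s}` is bounded near `1`.
-/

set_option autoImplicit false

open Matrix MeasureTheory Set
open UpperHalfPlane hiding I
open scoped MatrixGroups ENNReal Modular

noncomputable section

namespace Fermat.Agent.LT.H5

open Fermat.LT Fermat.Agent.LT.J Fermat.Agent.LT.B Fermat.Agent.LT.H.Bessel

variable {M : ℕ} [NeZero M] {P : PhiSys M} {α : ℤ → GM M → ℂ}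

/-- the integrand in coordinates -/
def fxy (P : PhiSys M) (s : GM M) (x y : ℝ) : ℂ :=
  if h : 0 < y then ∑ δ : (ZMod M)ˣ, P.Φ (H3.mk x y h) (gdg (uM M δ) * s) else 0

theorem psiF_one_eq (P : PhiSys M) (s : GM M) :
    psiF P s 1 = fun τ : ℍ => fxy P s τ.re τ.im := by
  funext τ
  unfold psiF fxy
  rw [dif_pos τ.im_pos, map_one, inv_one]
  refine Finset.sum_congr rfl fun δ _ => ?_
  rw [one_mul]
  congr 1
  exact H3.ext (emb_zero_z τ) (emb_zero_t τ)

/-- total coefficient -/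
def totC (α : ℤ → GM M → ℂ) (s : GM M) (n : ℤ) : ℂ := ∑ δ : (ZMod M)ˣ, α n (gdg (uM M δ) * s)

theorem FCData.summable_fc (hF : FCData P α) {y : ℝ} (hy : 0 < y) (s : GM M) :
    Summable fun n : ℤ => fc M (fun z => P.Φ (H3.mk z y hy) s) (n : EO) := by
  obtain ⟨C, -, hC⟩ := hF.growth
  simp_rw [hF.eq]
  exact summable_Wh (fun n => hC n s) (cM_pos M) hy

theorem FCData.integral_fxy (hF : FCData P α) (s : GM M) {y : ℝ} (hy : 0 < y) :
    ∫ x in Ico (0 : ℝ) M, fxy P s x y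
      = M * ∑' n : ℤ, totC α s n * (Wh (cM M * |(n : ℝ)|) y : ℂ) := by
  obtain ⟨C, hC0, hC⟩ := hF.growth
  simp only [fxy, dif_pos hy]
  have hcont : ∀ s : GM M, Continuous fun x : ℝ => P.Φ (H3.mk x y hy) s := fun s =>
    (Phi_mk_continuous P hy s).comp Complex.continuous_ofReal
  rw [integral_finsetSum]
  · have h1 : ∀ δ : (ZMod M)ˣ, ∫ x in Ico (0 : ℝ) M, P.Φ (H3.mk x y hy) (gdg (uM M δ) * s)
        = M * ∑' n : ℤ, α n (gdg (uM M δ) * s) * (Wh (cM M * |(n : ℝ)|) y : ℂ) := by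
      intro δ
      have h2 := integral_horizontal (M := M)
        (H := fun z => P.Φ (H3.mk z y hy) (gdg (uM M δ) * s)) (Phi_mk_continuous P hy _)
        (fun z β => Phi_periodic P hy _ z β) (hF.summable_fc hy _)
      simp only [hF.eq] at h2
      exact h2
    rw [Finset.sum_congr rfl fun δ _ => h1 δ, ← Finset.mul_sum]
    congr 1
    rw [← Summable.tsum_finsetSum (fun δ _ => summable_Wh (fun n => hC n _) (cM_pos M) hy)]
    refine tsum_congr fun n => ?_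
    rw [totC, Finset.sum_mul]
  · intro δ _
    exact ((hcont _).continuousOn.integrableOn_Icc).mono_set Ico_subset_Icc_self

theorem wb_val (b : ZMod M) : wb b = wb (((b.val : ℤ)) : ZMod M) := by simp

/-- the unipotent relation for residues -/
theorem FCData.un' (hF : FCData P α) (n : ℤ) (b : ZMod M) (s : GM M) :
    α n (gun (wb b) * s) = ZMod.stdAddChar (-((n : ZMod M) * b)) * α n s := by
  rw [wb_val, hF.un]
  congr 1
  have h : -((n : ZMod M) * b) = ((-(n * (b.val : ℤ)) : ℤ) : ZMod M) := by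
    push_cast
    simp
  rw [h, ZMod.stdAddChar_coe]
  congr 1
  push_cast
  ring

/-- the isolated coefficient -/
def isoC (α : ℤ → GM M → ℂ) (s₀ : GM M) (n : ℤ) : ℂ :=
  ∑ δ : (ZMod M)ˣ, if (n : ZMod M) * δ = 1 then α n (gdg (uM M δ) * s₀) else 0

theorem FCData.isolate (hF : FCData P α) (s₀ : GM M) (n : ℤ) :
    ∑ b : ZMod M, ZMod.stdAddChar b * totC α (gun (wb b) * s₀) n = M * isoC α s₀ n := by
  classical
  have h1 : ∀ (b : ZMod M) (δ : (ZMod M)ˣ), α n (gdg (uM M δ) * (gun (wb b) * s₀))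
      = ZMod.stdAddChar (-((n : ZMod M) * ((δ : ZMod M) * b))) * α n (gdg (uM M δ) * s₀) := by
    intro b δ
    have e : (uM M δ : QE (ZMod M)) * wb b = wb ((δ : ZMod M) * b) := by
      rw [uM_val]
      ext
      · simp [wb]
      · simp [wb]
    rw [← mul_assoc, gdg_mul_gun, e, mul_assoc, hF.un']
  unfold totC isoC
  simp_rw [h1, Finset.mul_sum]
  rw [Finset.sum_comm]
  refine Finset.sum_congr rfl fun δ _ => ?_
  have h2 : ∀ b : ZMod M, ZMod.stdAddChar b * (ZMod.stdAddChar (-((n : ZMod M) * ((δ : ZMod M) * b))) *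
      α n (gdg (uM M δ) * s₀))
      = ZMod.stdAddChar (b * (1 - (n : ZMod M) * (δ : ZMod M))) * α n (gdg (uM M δ) * s₀) := by
    intro b
    rw [← mul_assoc, ← AddChar.map_add_eq_mul]
    congr 2
    ring
  rw [Finset.sum_congr rfl fun b _ => h2 b, ← Finset.sum_mul,
    AddChar.sum_mulShift _ (ZMod.isPrimitive_stdAddChar M), ZMod.card]
  by_cases h3 : (n : ZMod M) * δ = 1
  · rw [if_pos h3, if_pos (by rw [h3, sub_self])]
  · rw [if_neg h3, if_neg (fun h4 => h3 (sub_eq_zero.1 h4).symm)]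
    simp

theorem FCData.isoC_neg (hF : FCData P α) (s₀ : GM M) (n : ℤ) :
    isoC α s₀ (-n) = isoC α s₀ n := by
  unfold isoC
  rw [← Equiv.sum_comp (Equiv.mulLeft (-1 : (ZMod M)ˣ)) (fun δ : (ZMod M)ˣ =>
    if ((-n : ℤ) : ZMod M) * δ = 1 then α (-n) (gdg (uM M δ) * s₀) else 0)]
  refine Finset.sum_congr rfl fun δ _ => ?_
  have e1 : ((-n : ℤ) : ZMod M) * ((Equiv.mulLeft (-1 : (ZMod M)ˣ) δ : (ZMod M)ˣ) : ZMod M)
      = (n : ZMod M) * δ := by
    simp
  rw [e1]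
  split_ifs
  · rw [Equiv.coe_mulLeft, map_mul, map_mul, mul_assoc]
    have e2 : uM M (-1 : (ZMod M)ˣ) = -1 := by
      apply Units.ext
      simp [uM_val]
    rw [e2, hF.neg]
  · rfl

theorem FCData.isoC_zero (hF : FCData P α) (s₀ : GM M) : isoC α s₀ 0 = 0 := by
  unfold isoC
  refine Finset.sum_eq_zero fun δ _ => ?_
  split_ifs
  · exact hF.zero _
  · rfl

theorem FCData.isoC_growth (hF : FCData P α) : ∃ C : ℝ, 0 ≤ C ∧ ∀ (n : ℤ) (s₀ : GM M),
    ‖isoC α s₀ n‖ ≤ C * |(n : ℝ)| := by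
  obtain ⟨C, hC0, hC⟩ := hF.growth
  refine ⟨∑ _δ : (ZMod M)ˣ, C, Finset.sum_nonneg fun _ _ => hC0, fun n s₀ => ?_⟩
  unfold isoC
  rw [Finset.sum_mul]
  refine (norm_sum_le _ _).trans (Finset.sum_le_sum fun δ _ => ?_)
  split_ifs
  · exact hC _ _
  · rw [norm_zero]
    positivity

theorem FCData.tsum_int (hF : FCData P α) (s₀ : GM M) {y : ℝ} (hy : 0 < y) :
    ∑' n : ℤ, isoC α s₀ n * (Wh (cM M * |(n : ℝ)|) y : ℂ)
      = 2 * ∑' n : ℕ, isoC α s₀ n * (Wh (cM M * n) y : ℂ) := by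
  obtain ⟨C, hC0, hC⟩ := hF.isoC_growth
  have hs := summable_Wh (fun n => hC n s₀) (cM_pos M) hy
  have h1 : Summable fun n : ℕ => isoC α s₀ (n : ℤ) * (Wh (cM M * |((n : ℤ) : ℝ)|) y : ℂ) :=
    hs.comp_injective Nat.cast_injective
  have hinj : Function.Injective fun n : ℕ => (-(n + 1 : ℤ)) := by
    intro a b hab
    simp only at hab
    omega
  have h2 : Summable fun n : ℕ => isoC α s₀ (-(n + 1 : ℤ)) *
      (Wh (cM M * |((-(n + 1 : ℤ) : ℤ) : ℝ)|) y : ℂ) := hs.comp_injective hinj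
  rw [tsum_of_nat_of_neg_add_one (f := fun n : ℤ => isoC α s₀ n *
    (Wh (cM M * |(n : ℝ)|) y : ℂ)) h1 h2]
  have e1 : ∀ n : ℕ, isoC α s₀ (n : ℤ) * (Wh (cM M * |((n : ℤ) : ℝ)|) y : ℂ)
      = isoC α s₀ (n : ℤ) * (Wh (cM M * n) y : ℂ) := by
    intro n
    simp
  have e2 : ∀ n : ℕ, isoC α s₀ (-(n + 1 : ℤ)) * (Wh (cM M * |((-(n + 1 : ℤ) : ℤ) : ℝ)|) y : ℂ)
      = isoC α s₀ ((n + 1 : ℕ) : ℤ) * (Wh (cM M * ((n + 1 : ℕ) : ℝ)) y : ℂ) := by
    intro n
    rw [hF.isoC_neg s₀ (n + 1 : ℤ)]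
    have : |((-(n + 1 : ℤ) : ℤ) : ℝ)| = ((n + 1 : ℕ) : ℝ) := by
      push_cast
      rw [abs_neg, abs_of_nonneg (by positivity)]
    rw [this]
    push_cast
    rfl
  simp_rw [e1, e2]
  have h3 : Summable fun n : ℕ => isoC α s₀ (n : ℤ) * (Wh (cM M * n) y : ℂ) := by
    refine h1.congr fun n => ?_
    rw [e1]
  have h4 := h3.tsum_eq_zero_add
  simp only [Nat.cast_zero, hF.isoC_zero, zero_mul, zero_add] at h4
  rw [h4]
  push_cast
  ring

/-- **Main bound.** -/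
theorem FCData.series_bounded [Fintype (GL (Fin 2) (ZMod M))] (hF : FCData P α)
    (hdec : ∃ B, ∀ (w : H3) (s : GM M), ‖P.Φ w s‖ * w.t ^ 3 ≤ B)
    (hper : ∀ s : GM M, ∫ τ : ℍ, ((wD τ).toReal : ℂ) *
      ∑ k : GL (Fin 2) (ZMod M), P.Φ (emb (τ, 0)) (zG M k * s) = 0) (s₀ : GM M) :
    ∃ C : ℝ, ∀ σ : ℝ, 1 < σ → σ ≤ 2 →
      Summable (fun n : ℕ => ‖isoC α s₀ n‖ * (n : ℝ) ^ (-σ)) →
      ‖∑' n : ℕ, isoC α s₀ n * (((n : ℝ) ^ (-σ) : ℝ) : ℂ)‖ ≤ C := by
  have hM : (0 : ℝ) < M := by exact_mod_cast Nat.pos_of_ne_zero (NeZero.ne M)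
  have hb := fun b : ZMod M => psiF_bound P (gun (wb b) * s₀) hdec (hper _)
  choose C hC using hb
  obtain ⟨κ, hκ, hκ'⟩ := kap_lower
  have hc := cM_pos M
  -- lower bound for `c ^ (-σ)`
  have hcs : ∀ σ : ℝ, 1 < σ → σ ≤ 2 → min 1 (cM M ^ (-2 : ℝ)) ≤ cM M ^ (-σ) := by
    intro σ h1 h2
    rcases le_total (cM M) 1 with h | h
    · refine (min_le_left _ _).trans ?_
      exact Real.one_le_rpow_of_pos_of_le_one_of_nonpos hc h (by linarith)
    · refine (min_le_right _ _).trans ?_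
      exact Real.rpow_le_rpow_of_exponent_le h (by linarith)
  set m := min 1 (cM M ^ (-2 : ℝ)) with hm
  have hm0 : 0 < m := lt_min one_pos (Real.rpow_pos_of_pos hc _)
  refine ⟨(∑ b, C b) / (2 * M ^ 2 * (m * κ)), fun σ h1 h2 hsum => ?_⟩
  -- the total function
  let Ft : ℝ → ℝ → ℂ := fun x y => ∑ b : ZMod M, ZMod.stdAddChar b * fxy P (gun (wb b) * s₀) x y
  have hint : ∀ b : ZMod M, Integrable
      (stripF M σ (fun τ : ℍ => fxy P (gun (wb b) * s₀) τ.re τ.im)) := by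
    intro b
    have h3 := (hC b σ h1 h2).1
    rwa [psiF_one_eq] at h3
  have hCb : ∀ b : ZMod M,
      ‖∫ τ : ℍ, stripF M σ (fun τ : ℍ => fxy P (gun (wb b) * s₀) τ.re τ.im) τ‖ ≤ C b := by
    intro b
    have h3 := (hC b σ h1 h2).2
    rwa [psiF_one_eq] at h3
  have e1 : stripF M σ (fun τ : ℍ => Ft τ.re τ.im) = fun τ => ∑ b : ZMod M, ZMod.stdAddChar b *
      stripF M σ (fun τ : ℍ => fxy P (gun (wb b) * s₀) τ.re τ.im) τ := by
    funext τ
    unfold stripF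
    by_cases hW : Win M τ
    · simp only [if_pos hW, Ft, Finset.mul_sum]
      refine Finset.sum_congr rfl fun b _ => ?_
      ring
    · simp only [if_neg hW, mul_zero, Finset.sum_const_zero]
  have hFt : Integrable (stripF M σ (fun τ : ℍ => Ft τ.re τ.im)) := by
    rw [e1]
    exact integrable_finsetSum _ fun b _ => (hint b).const_mul _
  have e2 : ∫ τ : ℍ, stripF M σ (fun τ : ℍ => Ft τ.re τ.im) τ = ∑ b : ZMod M, ZMod.stdAddChar b *
      ∫ τ : ℍ, stripF M σ (fun τ : ℍ => fxy P (gun (wb b) * s₀) τ.re τ.im) τ := by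
    rw [e1, integral_finsetSum _ fun b _ => (hint b).const_mul _]
    refine Finset.sum_congr rfl fun b _ => ?_
    rw [integral_const_mul]
  have hbound : ‖∫ τ : ℍ, stripF M σ (fun τ : ℍ => Ft τ.re τ.im) τ‖ ≤ ∑ b, C b := by
    rw [e2]
    refine (norm_sum_le _ _).trans (Finset.sum_le_sum fun b _ => ?_)
    rw [norm_mul, AddChar.norm_apply, one_mul]
    exact hCb b
  -- the inner integral
  have hinner : ∀ y ∈ Ioi (0 : ℝ), ((y ^ (σ - 2) : ℝ) : ℂ) * ∫ x in Ico (0 : ℝ) M, Ft x y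
      = (2 * (M : ℂ) ^ 2) * (((y ^ (σ - 2) : ℝ) : ℂ) *
        ∑' n : ℕ, isoC α s₀ n * (Wh (cM M * n) y : ℂ)) := by
    intro y hy
    have hy0 : 0 < y := hy
    obtain ⟨Cg, -, hCg⟩ := hF.growth
    have h4 : ∫ x in Ico (0 : ℝ) M, Ft x y
        = ∑ b : ZMod M, ZMod.stdAddChar b * ∫ x in Ico (0 : ℝ) M, fxy P (gun (wb b) * s₀) x y := by
      simp only [Ft]
      rw [integral_finsetSum]
      · refine Finset.sum_congr rfl fun b _ => ?_
        rw [integral_const_mul]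
      · intro b _
        have hcont : Continuous fun x : ℝ => fxy P (gun (wb b) * s₀) x y := by
          simp only [fxy, dif_pos hy0]
          exact continuous_finsetSum _ fun δ _ =>
            (Phi_mk_continuous P hy0 _).comp Complex.continuous_ofReal
        exact ((hcont.const_mul _).continuousOn.integrableOn_Icc).mono_set Ico_subset_Icc_self
    have h5 : ∑ b : ZMod M, ZMod.stdAddChar b *
        ∫ x in Ico (0 : ℝ) M, fxy P (gun (wb b) * s₀) x y
        = M * ∑' n : ℤ, (M * isoC α s₀ n) * (Wh (cM M * |(n : ℝ)|) y : ℂ) := by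
      have h6 : ∀ b : ZMod M, Summable fun n : ℤ => ZMod.stdAddChar b *
          (totC α (gun (wb b) * s₀) n * (Wh (cM M * |(n : ℝ)|) y : ℂ)) := by
        intro b
        refine Summable.mul_left _ ?_
        unfold totC
        simp_rw [Finset.sum_mul]
        exact summable_sum fun δ _ => summable_Wh (fun n => hCg n _) (cM_pos M) hy0
      simp_rw [hF.integral_fxy _ hy0, ← hF.isolate, Finset.sum_mul]
      rw [Summable.tsum_finsetSum (fun b _ => by
        refine (h6 b).congr fun n => ?_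
        ring), Finset.mul_sum]
      refine Finset.sum_congr rfl fun b _ => ?_
      rw [mul_left_comm, ← tsum_mul_left]
      congr 1
      refine tsum_congr fun n => ?_
      ring
    have h7 : ∑' n : ℤ, (M * isoC α s₀ n) * (Wh (cM M * |(n : ℝ)|) y : ℂ)
        = M * (2 * ∑' n : ℕ, isoC α s₀ n * (Wh (cM M * n) y : ℂ)) := by
      rw [← hF.tsum_int s₀ hy0, ← tsum_mul_left]
      refine tsum_congr fun n => ?_
      ring
    rw [h4, h5, h7]
    ring
  rw [integral_strip hFt, setIntegral_congr_fun measurableSet_Ioi hinner, integral_const_mul,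
    mellin_series (γ := fun n : ℕ => isoC α s₀ n) h1 hc (hF.isoC_zero s₀) hsum,
    norm_mul (2 * (M : ℂ) ^ 2), norm_mul ((cM M ^ (-σ) * kap σ : ℝ) : ℂ),
    Complex.norm_real, Real.norm_of_nonneg (mul_nonneg (Real.rpow_nonneg hc.le _)
      (hκ.le.trans (hκ' σ h1)))] at hbound
  have hn2 : ‖(2 * (M : ℂ) ^ 2)‖ = 2 * M ^ 2 := by simp
  rw [hn2] at hbound
  rw [le_div_iff₀ (by positivity)]
  set X := ‖∑' n : ℕ, isoC α s₀ n * (((n : ℝ) ^ (-σ) : ℝ) : ℂ)‖ with hX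
  have hX0 : 0 ≤ X := norm_nonneg _
  have h8 : m * κ ≤ cM M ^ (-σ) * kap σ := mul_le_mul (hcs σ h1 h2) (hκ' σ h1) hκ.le
    (Real.rpow_nonneg hc.le _)
  calc X * (2 * M ^ 2 * (m * κ)) = 2 * M ^ 2 * ((m * κ) * X) := by ring
    _ ≤ 2 * M ^ 2 * ((cM M ^ (-σ) * kap σ) * X) := by gcongr
    _ ≤ ∑ b, C b := hbound

end Fermat.Agent.LT.H5
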