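import Fermat.Agent.LT.H5.FC
import Fermat.Agent.LT.H.WhitEigen

/-!
LT piece H5 (helper70 for helper74): Fourier coefficients along `M ℤ[ω]` of a joint eigenfunction of
the archimedean operators are Whittaker functions (classical form).
-/

set_option autoImplicit false

open Matrix MeasureTheory
open scoped ComplexConjugate Real

noncomputable section

namespace Fermat.Agent.LT.H5

open Fermat.LT Fermat.Agent.LT.J Fermat.Agent.LT.J.QE Fermat.Agent.LT.CArch Fermat.Agent.LT.H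
  Fermat.Agent.LT.H.Bessel

namespace FCWh

/-- average along the direction `w` against the weight `χ` -/
def avW (χ : ℝ → ℂ) (w : ℂ) (ψ : H3 → ℂ) (P : H3) : ℂ :=
  ∫ a in (0 : ℝ)..1, χ a * ψ (B.shift ((a : ℂ) * w) P)

theorem continuous_shift_mul (w : ℂ) :
    Continuous fun p : H3 × ℝ => B.shift ((p.2 : ℂ) * w) p.1 := by
  refine H3.continuous_iff.mpr ⟨?_, ?_⟩
  · change Continuous fun p : H3 × ℝ => p.1.z + (p.2 : ℂ) * w
    exact (H3.continuous_z.comp continuous_fst).add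
      ((Complex.continuous_ofReal.comp continuous_snd).mul continuous_const)
  · change Continuous fun p : H3 × ℝ => p.1.t
    exact H3.continuous_t.comp continuous_fst

theorem continuous_avW {χ : ℝ → ℂ} (hχ : Continuous χ) (w : ℂ) {ψ : H3 → ℂ} (hψ : Continuous ψ) :
    Continuous (avW χ w ψ) := by
  refine intervalIntegral.continuous_parametric_intervalIntegral_of_continuous' ?_ _ _
  exact (hχ.comp continuous_snd).mul (hψ.comp (continuous_shift_mul w))

theorem norm_avW_le {χ : ℝ → ℂ} (hχ : ∀ a, ‖χ a‖ = 1) (w : ℂ) {ψ : H3 → ℂ} {C : ℝ}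
    (hψ : ∀ P, ‖ψ P‖ ≤ C) (P : H3) : ‖avW χ w ψ P‖ ≤ C := by
  have := intervalIntegral.norm_integral_le_of_norm_le_const (a := (0 : ℝ)) (b := 1) (C := C)
    (f := fun a : ℝ => χ a * ψ (B.shift ((a : ℂ) * w) P)) (fun a _ => by
      rw [norm_mul, hχ, one_mul]; exact hψ _)
  rw [sub_zero, abs_one, mul_one] at this
  exact this

theorem avW_shift (χ : ℝ → ℂ) (w v : ℂ) (ψ : H3 → ℂ) (P : H3) :
    avW χ w ψ (B.shift v P) = avW χ w (fun R => ψ (B.shift v R)) P := by
  unfold avW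
  refine intervalIntegral.integral_congr fun a _ => ?_
  simp only [B.shift_shift]
  rw [add_comm]

/-- phase in the direction `w` -/
theorem avW_shift_self {χ : ℝ → ℂ} (hmul : ∀ a b, χ (a + b) = χ a * χ b) (h0 : ∀ a, χ a ≠ 0)
    (h1 : χ 1 = 1) {w : ℂ} {ψ : H3 → ℂ} (hψ : ∀ P, ψ (B.shift w P) = ψ P) (x : ℝ) (P : H3) :
    avW χ w ψ (B.shift ((x : ℂ) * w) P) = (χ x)⁻¹ * avW χ w ψ P := by
  set f : ℝ → ℂ := fun a => χ a * ψ (B.shift ((a : ℂ) * w) P) with hf
  have hper : Function.Periodic f 1 := by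
    intro a
    simp only [hf]
    rw [hmul, h1, mul_one]
    congr 1
    have : ((a + 1 : ℝ) : ℂ) * w = w + (a : ℂ) * w := by push_cast; ring
    rw [this, ← B.shift_shift, hψ]
  have e1 : ∀ a : ℝ, χ a * ψ (B.shift ((a : ℂ) * w) (B.shift ((x : ℂ) * w) P)) =
      (χ x)⁻¹ * f (a + x) := by
    intro a
    simp only [hf]
    rw [hmul, B.shift_shift]
    have : ((a + x : ℝ) : ℂ) * w = (a : ℂ) * w + (x : ℂ) * w := by push_cast; ring
    rw [this]
    have := h0 x
    field_simp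
  unfold avW
  rw [intervalIntegral.integral_congr fun a _ => e1 a, intervalIntegral.integral_const_mul,
    intervalIntegral.integral_comp_add_right f x]
  congr 1
  have := hper.intervalIntegral_add_eq x 0
  rw [zero_add] at this
  rw [zero_add, add_comm (1 : ℝ) x, this]

theorem kopH_smul (γ : GL (Fin 2) ℂ) (g : ℝ → ℂ) (f : H3 → ℂ) (P : H3) :
    kopH g (fun R => f (γ • R)) P = kopH g f (γ • P) := by
  unfold kopH
  rw [← (H3.measurePreserving_smul' γ).integral_comp (H3.smulHomeo γ).measurableEmbedding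
    (fun R : H3 => kfun g (H3.ch (γ • P) R) * f R)]
  simp only [H3.ch_smul]

/-- averages commute with the archimedean operators -/
theorem kopH_avW {χ : ℝ → ℂ} (hχ : Continuous χ) (hχ1 : ∀ a, ‖χ a‖ = 1) (w : ℂ) {ψ : H3 → ℂ}
    (hψ : Continuous ψ) {C : ℝ} (hb : ∀ P, ‖ψ P‖ ≤ C) {g : ℝ → ℂ} (hg : IsTest g) {α : ℂ}
    (h : ∀ P, kopH g ψ P = α * ψ P) (P : H3) :
    kopH g (avW χ w ψ) P = α * avW χ w ψ P := by
  have hi1 : Integrable fun R' : H3 => kfun g (H3.ch P R') := by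
    have := integrable_kopH hg (φ := fun _ => 1) continuous_const P
    simpa using this
  have hcont : Continuous fun p : H3 × ℝ => χ p.2 * ψ (B.shift ((p.2 : ℂ) * w) p.1) :=
    (hχ.comp continuous_snd).mul (hψ.comp (continuous_shift_mul w))
  have hfin : IsFiniteMeasure (volume.restrict (Set.Ioc (0 : ℝ) 1)) :=
    ⟨by rw [Measure.restrict_apply_univ]; simp⟩
  have hbig : Integrable (Function.uncurry fun (R' : H3) (a : ℝ) =>
      kfun g (H3.ch P R') * (χ a * ψ (B.shift ((a : ℂ) * w) R')))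
      ((volume : Measure H3).prod (volume.restrict (Set.Ioc (0 : ℝ) 1))) := by
    have h1 : Integrable (fun p : H3 × ℝ => kfun g (H3.ch P p.1) * (1 : ℂ))
        ((volume : Measure H3).prod (volume.restrict (Set.Ioc (0 : ℝ) 1))) :=
      hi1.mul_prod (integrable_const _)
    have h3 := h1.mul_bdd (c := C) (g := fun p : H3 × ℝ =>
        χ p.2 * ψ (B.shift ((p.2 : ℂ) * w) p.1))
        hcont.aestronglyMeasurable (Filter.Eventually.of_forall fun p => by
          rw [norm_mul, hχ1, one_mul]; exact hb _)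
    refine h3.congr (Filter.Eventually.of_forall fun p => ?_)
    simp only [mul_one]
    rfl
  have e0 : ∀ R, avW χ w ψ R = ∫ a in Set.Ioc (0 : ℝ) 1, χ a * ψ (B.shift ((a : ℂ) * w) R) :=
    fun R => intervalIntegral.integral_of_le zero_le_one
  unfold kopH
  have e1 : ∀ R : H3, kfun g (H3.ch P R) * avW χ w ψ R = ∫ a in Set.Ioc (0 : ℝ) 1,
      kfun g (H3.ch P R) * (χ a * ψ (B.shift ((a : ℂ) * w) R)) := by
    intro R
    rw [e0, integral_const_mul]
  simp only [e1]
  rw [integral_integral_swap hbig, e0, ← integral_const_mul]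
  refine integral_congr_ae (Filter.Eventually.of_forall fun a => ?_)
  simp only
  have e2 := kopH_shift g ψ ((a : ℂ) * w) P
  rw [h] at e2
  unfold kopH at e2
  have e3 : ∀ R : H3, kfun g (H3.ch P R) * (χ a * ψ (B.shift ((a : ℂ) * w) R)) =
      χ a * (kfun g (H3.ch P R) * ψ (B.shift ((a : ℂ) * w) R)) := fun R => by ring
  simp only [e3]
  rw [integral_const_mul, e2]
  ring

end FCWh

open FCWh

theorem nu_ne_zero {M : ℕ} [NeZero M] {μ : EO} (hμ : μ ≠ 0) : nu M μ ≠ 0 := by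
  unfold nu
  have h1 : toC μ ≠ 0 := (map_ne_zero_iff toC toC_injective).2 hμ
  have h2 : (M : ℂ) ≠ 0 := by exact_mod_cast NeZero.ne M
  have h3 : ((Real.sqrt 3 : ℝ) : ℂ) ≠ 0 := by exact_mod_cast sqrt3_pos.ne'
  exact div_ne_zero h1 (mul_ne_zero h2 (mul_ne_zero h3 Complex.I_ne_zero))

theorem ech_zero (M : ℕ) (μ : EO) : ech M μ 0 = 1 := by
  unfold ech
  simp

theorem continuous_ech (M : ℕ) (μ : EO) : Continuous (ech M μ) := by
  unfold ech
  fun_prop

/-- **Fourier coefficients of archimedean eigenfunctions are Whittaker functions.** -/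
theorem fc_eq_Wh {M : ℕ} [NeZero M] {Φ : H3 → ℂ} (hc : Continuous Φ) (hb : ∃ C : ℝ, ∀ P, ‖Φ P‖ ≤ C)
    (hper : ∀ (b : EO) (z : ℂ) (t : ℝ) (ht : 0 < t),
      Φ (H3.mk (z + M * toC b) t ht) = Φ (H3.mk z t ht))
    (h : ∀ g, IsTest g → ∀ P, kopH g Φ P = hat g 0 * Φ P) {μ : EO} (hμ : μ ≠ 0) :
    ∃ a : ℂ, ∀ t (ht : 0 < t), fc M (fun z => Φ (H3.mk z t ht)) μ =
      a * Wh (4 * π * ‖nu M μ‖) t := by
  obtain ⟨C, hC⟩ := hb
  have hM : (M : ℂ) ≠ 0 := by exact_mod_cast NeZero.ne M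
  have hper' : ∀ (b : EO) (P : H3), Φ (B.shift (M * toC b) P) = Φ P := fun b P =>
    hper b P.z P.t P.t_pos
  -- the characters
  set χ1 : ℝ → ℂ := fun a => (ech M μ ((a : ℂ) * M))⁻¹ with hχ1
  set χ2 : ℝ → ℂ := fun b => (ech M μ ((b : ℂ) * (M * om)))⁻¹ with hχ2
  have hc1 : Continuous χ1 := ((continuous_ech M μ).comp
    (Complex.continuous_ofReal.mul continuous_const)).inv₀ fun a => ech_ne_zero _ _ _
  have hc2 : Continuous χ2 := ((continuous_ech M μ).comp
    (Complex.continuous_ofReal.mul continuous_const)).inv₀ fun a => ech_ne_zero _ _ _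
  have hn1 : ∀ a, ‖χ1 a‖ = 1 := fun a => by rw [hχ1]; simp only [norm_inv, norm_ech, inv_one]
  have hn2 : ∀ a, ‖χ2 a‖ = 1 := fun a => by rw [hχ2]; simp only [norm_inv, norm_ech, inv_one]
  have hm1 : ∀ a b, χ1 (a + b) = χ1 a * χ1 b := fun a b => by
    simp only [hχ1]
    rw [← mul_inv, ← ech_add]
    congr 2
    push_cast; ring
  have hm2 : ∀ a b, χ2 (a + b) = χ2 a * χ2 b := fun a b => by
    simp only [hχ2]
    rw [← mul_inv, ← ech_add]
    congr 2
    push_cast; ring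
  have hz1 : ∀ a, χ1 a ≠ 0 := fun a => inv_ne_zero (ech_ne_zero _ _ _)
  have hz2 : ∀ a, χ2 a ≠ 0 := fun a => inv_ne_zero (ech_ne_zero _ _ _)
  have ho1 : χ1 1 = 1 := by
    simp only [hχ1]
    have := ech_M_mul M μ 1
    rw [map_one, mul_one] at this
    rw [Complex.ofReal_one, one_mul, this, inv_one]
  have hom : toC (⟨0, 1⟩ : EO) = om := by rw [toC_apply]; simp
  have ho2 : χ2 1 = 1 := by
    simp only [hχ2]
    have := ech_M_mul M μ ⟨0, 1⟩
    rw [hom] at this
    rw [Complex.ofReal_one, one_mul, this, inv_one]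
  -- the two averages
  set ψ1 : H3 → ℂ := avW χ1 M Φ with hψ1
  set ψ0 : H3 → ℂ := avW χ2 (M * om) ψ1 with hψ0
  have hψ1c : Continuous ψ1 := continuous_avW hc1 _ hc
  have hψ0c : Continuous ψ0 := continuous_avW hc2 _ hψ1c
  have hψ1b : ∀ P, ‖ψ1 P‖ ≤ C := norm_avW_le hn1 _ hC
  have hψ0b : ∀ P, ‖ψ0 P‖ ≤ C := norm_avW_le hn2 _ hψ1b
  have hk1 : ∀ g, IsTest g → ∀ P, kopH g ψ1 P = hat g 0 * ψ1 P := fun g hg P =>
    kopH_avW hc1 hn1 _ hc hC hg (h g hg) P
  have hk0 : ∀ g, IsTest g → ∀ P, kopH g ψ0 P = hat g 0 * ψ0 P := fun g hg P =>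
    kopH_avW hc2 hn2 _ hψ1c hψ1b hg (hk1 g hg) P
  -- phases
  have hs1 : ∀ (x : ℝ) (P : H3), ψ1 (B.shift ((x : ℂ) * M) P) = (χ1 x)⁻¹ * ψ1 P := fun x P =>
    avW_shift_self hm1 hz1 ho1 (fun P => by
      have := hper' 1 P
      rwa [map_one, mul_one] at this) x P
  have hs1' : ∀ P : H3, ψ1 (B.shift (M * om) P) = ψ1 P := fun P => by
    rw [hψ1, avW_shift]
    congr 1
    funext R
    rw [← hom]
    exact hper' _ R
  have hs2 : ∀ (x : ℝ) (P : H3), ψ0 (B.shift ((x : ℂ) * (M * om)) P) = (χ2 x)⁻¹ * ψ0 P :=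
    fun x P => avW_shift_self hm2 hz2 ho2 hs1' x P
  have hs3 : ∀ (x : ℝ) (P : H3), ψ0 (B.shift ((x : ℂ) * M) P) = (χ1 x)⁻¹ * ψ0 P := fun x P => by
    rw [hψ0, avW_shift]
    have : (fun R => ψ1 (B.shift ((x : ℂ) * M) R)) = fun R => (χ1 x)⁻¹ * ψ1 R :=
      funext fun R => hs1 x R
    rw [this]
    unfold avW
    rw [← intervalIntegral.integral_const_mul]
    refine intervalIntegral.integral_congr fun a _ => ?_
    simp only
    ring
  have hs : ∀ (v : ℂ) (P : H3), ψ0 (B.shift v P) = ech M μ v * ψ0 P := by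
    intro v P
    have h3 := sqrt3_pos
    have hMr : (M : ℝ) ≠ 0 := by exact_mod_cast NeZero.ne M
    have hv : v = ((v.re / M + v.im / (M * Real.sqrt 3) : ℝ) : ℂ) * M +
        ((2 * v.im / (M * Real.sqrt 3) : ℝ) : ℂ) * (M * om) := by
      apply Complex.ext
      · simp only [Complex.add_re, Complex.mul_re, Complex.ofReal_re, Complex.ofReal_im,
          Complex.natCast_re, Complex.natCast_im, om_re, om_im]
        field_simp
        ring
      · simp only [Complex.add_im, Complex.mul_im, Complex.mul_re, Complex.ofReal_re,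
          Complex.ofReal_im, Complex.natCast_re, Complex.natCast_im, om_re, om_im]
        field_simp
        ring
    set x : ℝ := v.re / M + v.im / (M * Real.sqrt 3)
    set y : ℝ := 2 * v.im / (M * Real.sqrt 3)
    rw [hv, ← B.shift_shift, hs3, hs2, ech_add]
    simp only [hχ1, hχ2, inv_inv]
    ring
  -- the value at `(0, t)`
  have hval : ∀ t (ht : 0 < t), ψ0 (H3.mk 0 t ht) = fc M (fun z => Φ (H3.mk z t ht)) μ := by
    intro t ht
    rw [fc_eq, hψ0, hψ1]
    unfold avW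
    refine intervalIntegral.integral_congr fun b _ => ?_
    change χ2 b * ∫ a in (0 : ℝ)..1, χ1 a * Φ (B.shift ((a : ℂ) * M)
      (B.shift ((b : ℂ) * (M * om)) (H3.mk 0 t ht))) = _
    rw [← intervalIntegral.integral_const_mul]
    refine intervalIntegral.integral_congr fun a _ => ?_
    simp only [hχ1, hχ2]
    have e1 : (M : ℂ) * (a + b * om) = (b : ℂ) * (M * om) + (a : ℂ) * M := by ring
    have e2 : B.shift ((a : ℂ) * M) (B.shift ((b : ℂ) * (M * om)) (H3.mk 0 t ht)) =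
        H3.mk (M * (a + b * om)) t ht := by
      refine H3.ext ?_ rfl
      change 0 + (b : ℂ) * (M * om) + (a : ℂ) * M = M * (a + b * om)
      rw [e1, zero_add]
    rw [e2, e1, ech_add, mul_inv]
    ring
  -- rotation
  have hν := nu_ne_zero (M := M) hμ
  have hνn : (‖nu M μ‖ : ℂ) ≠ 0 := by
    exact_mod_cast norm_ne_zero_iff.mpr hν
  set u : ℂ := conj (nu M μ) / ‖nu M μ‖ with hu
  have hu1 : ‖u‖ = 1 := by
    rw [hu, norm_div, Complex.norm_conj, Complex.norm_real, norm_norm,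
      div_self (norm_ne_zero_iff.mpr hν)]
  have hu0 : u ≠ 0 := by
    intro h0; rw [h0, norm_zero] at hu1; exact zero_ne_one hu1
  have hνu : nu M μ * u = ‖nu M μ‖ := by
    rw [hu, ← mul_div_assoc, Complex.mul_conj, Complex.normSq_eq_norm_sq]
    push_cast
    field_simp
  let γ : GL (Fin 2) ℂ := Matrix.GeneralLinearGroup.mkOfDetNeZero !![u, 0; 0, 1] (by simpa using hu0)
  have e : ∀ a b, γ a b = (!![u, 0; 0, 1] : Matrix (Fin 2) (Fin 2) ℂ) a b := fun a b => rfl
  have h10 : γ 1 0 = 0 := by rw [e]; simp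
  have hγz : ∀ P : H3, (γ • P).z = u * P.z := fun P => by
    rw [H3.smul_z_of_upper γ h10, e, e, e]; simp
  have hγt : ∀ P : H3, (γ • P).t = P.t := fun P => by
    rw [H3.smul_t_of_upper γ h10, e, e]; simp [hu1]
  have hγs : ∀ (w : ℂ) (P : H3), γ • (B.shift w P) = B.shift (u * w) (γ • P) := fun w P => by
    refine H3.ext ?_ ?_
    · rw [hγz, B.shift_z, B.shift_z, hγz]; ring
    · rw [hγt, B.shift_t, B.shift_t, hγt]
  obtain ⟨a, ha⟩ := IsWh.eq (c := 4 * π * ‖nu M μ‖) (W := fun t => if ht : 0 < t then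
      ψ0 (H3.mk 0 t ht) else 0) (by have := norm_pos_iff.mpr hν; positivity) (by
    refine isWh_of_kopH (ψ := fun P => ψ0 (γ • P)) (hψ0c.comp (H3.smulHomeo γ).continuous)
      ⟨C, fun P => hψ0b _⟩ (fun g hg P => ?_) (fun w P => ?_) fun t ht => ?_
    · rw [kopH_smul, hk0 g hg]
    · rw [hγs, hs]
      congr 1
      unfold ech phW
      rw [← mul_assoc (nu M μ), hνu, Complex.re_ofReal_mul]
      congr 1
      push_cast
      ring
    · rw [dif_pos ht]
      congr 1
      refine H3.ext ?_ ?_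
      · rw [hγz]; change (0 : ℂ) = u * 0; rw [mul_zero]
      · rw [hγt])
  refine ⟨a, fun t ht => ?_⟩
  have h4 := ha t ht
  rw [dif_pos ht] at h4
  rw [← hval, h4]

end Fermat.Agent.LT.H5
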