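import Fermat.Agent.LT.H5.FCHecke
import Fermat.Agent.LT.H5.FCWh
import Fermat.Agent.LT.H5.Bounded

/-!
LT piece H5 (helper74): the Fourier coefficients `α μ s` of a `PhiSys`, and the twisted coefficients
`A m = α m (diag(m⁻¹, 1) s₀)` for `m` prime to `M`, with their Hecke recursion.
-/

set_option autoImplicit false

open Matrix MeasureTheory Set

noncomputable section

namespace Fermat.Agent.LT.H5

open Fermat.LT Fermat.Agent.LT.J Fermat.Agent.LT.J.QE Fermat.Agent.LT.H.Bessel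

variable {M : ℕ} [NeZero M] {P : PhiSys M}

/-- all Fourier coefficients of `P` -/
structure AData (P : PhiSys M) (α : EO → GM M → ℂ) : Prop where
  zero : ∀ s, α 0 s = 0
  eq : ∀ (μ : EO) (s : GM M) (t : ℝ) (ht : 0 < t),
    fc M (fun z => P.Φ (H3.mk z t ht) s) μ = α μ s * (Wh (4 * Real.pi * ‖nu M μ‖) t : ℝ)

theorem exists_aData (P : PhiSys M)
    (hcusp : ∀ (t : ℝ) (ht : 0 < t) (s : GM M), fc M (fun z => P.Φ (H3.mk z t ht) s) 0 = 0) :
    ∃ α, AData P α := by
  classical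
  obtain ⟨B, hB⟩ := P.bdd
  have h : ∀ (μ : EO) (s : GM M), ∃ a : ℂ, (μ = 0 → a = 0) ∧ ∀ (t : ℝ) (ht : 0 < t),
      fc M (fun z => P.Φ (H3.mk z t ht) s) μ = a * (Wh (4 * Real.pi * ‖nu M μ‖) t : ℝ) := by
    intro μ s
    by_cases hμ : μ = 0
    · subst hμ
      exact ⟨0, fun _ => rfl, fun t ht => by rw [hcusp, zero_mul]⟩
    · obtain ⟨a, ha⟩ := fc_eq_Wh (M := M) (Φ := fun w => P.Φ w s) (P.cont s) ⟨B, fun w => hB w s⟩
        (fun b z t ht => Phi_periodic P ht s z b) (fun g hg w => P.mean g hg s w) hμ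
      exact ⟨a, fun h0 => absurd h0 hμ, ha⟩
  choose α h0 hα using h
  exact ⟨α, fun s => h0 0 s rfl, hα⟩

variable {α : EO → GM M → ℂ}

theorem Wh_ne {μ : EO} (hμ : μ ≠ 0) : ((Wh (4 * Real.pi * ‖nu M μ‖) 1 : ℝ) : ℂ) ≠ 0 := by
  have := Wh_pos (c := 4 * Real.pi * ‖nu M μ‖) (t := 1)
    (mul_pos (by positivity) (norm_nu_pos M hμ)) one_pos
  exact_mod_cast this.ne'

theorem AData.gun (h : AData P α) (μ b : EO) (s : GM M) :
    α μ (H5.gun (rE M b) * s) =
      Complex.exp (-(2 * Real.pi * Complex.I * (((μ * b).im : ℂ) / M))) * α μ s := by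
  by_cases hμ : μ = 0
  · rw [hμ, h.zero, h.zero, mul_zero]
  · have h1 := fcPhi_gun P.cont P.inv μ b s 1 one_pos
    unfold fcPhi at h1
    rw [h.eq, h.eq, ← mul_assoc] at h1
    exact mul_right_cancel₀ (Wh_ne hμ) h1

theorem norm_nu_neg (μ : EO) : ‖nu M (-μ)‖ = ‖nu M μ‖ := by
  unfold nu
  rw [map_neg, neg_div, norm_neg]

theorem AData.neg (h : AData P α) (μ : EO) (s : GM M) :
    α (-μ) (gdg (-1) * s) = α μ s := by
  by_cases hμ : μ = 0
  · rw [hμ, neg_zero, h.zero, h.zero]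
  · have h1 := fcPhi_neg P.cont P.inv μ s 1 one_pos
    unfold fcPhi at h1
    rw [h.eq, h.eq, norm_nu_neg] at h1
    exact mul_right_cancel₀ (Wh_ne hμ) h1

theorem gsc_comm {A : Type*} [CommRing A] (u : Aˣ) (g : GL (Fin 2) A) : gsc u * g = g * gsc u := by
  apply Units.ext
  rw [Units.val_mul, Units.val_mul, gsc_val]
  ext i j
  fin_cases i <;> fin_cases j <;> simp [Matrix.mul_apply, Fin.sum_univ_two, mul_comm]

theorem gsc_eq_scalar {A : Type*} [CommRing A] (u : Aˣ) :
    gsc u = Matrix.GeneralLinearGroup.scalar (Fin 2) u := by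
  apply Units.ext
  rw [gsc_val]
  ext i j
  fin_cases i <;> fin_cases j <;> simp

theorem AData.cent (h : AData P α) (μ : EO) (u : (QE (ZMod M))ˣ) (s : GM M) :
    α μ (gsc u * s) = α μ s := by
  by_cases hμ : μ = 0
  · rw [hμ, h.zero, h.zero]
  · have h1 : fc M (fun z => P.Φ (H3.mk z 1 one_pos) (gsc u * s)) μ
        = fc M (fun z => P.Φ (H3.mk z 1 one_pos) s) μ := by
      congr 1
      funext z
      rw [gsc_comm, gsc_eq_scalar, P.cent]
    rw [h.eq, h.eq] at h1
    exact mul_right_cancel₀ (Wh_ne hμ) h1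

theorem norm_nu_int (n : ℤ) : 4 * Real.pi * ‖nu M (n : EO)‖ = cM M * |(n : ℝ)| := by
  unfold nu cM
  have h3 := sqrt3_pos
  rw [map_intCast, norm_div, norm_mul, norm_mul, Complex.norm_I, Complex.norm_natCast,
    Complex.norm_real, Real.norm_of_nonneg h3.le, Complex.norm_intCast]
  ring

/-- the coefficients at the integral frequencies -/
theorem AData.fcData (h : AData P α) : FCData P (fun (n : ℤ) s => α (n : EO) s) where
  zero s := by
    change α ((0 : ℤ) : EO) s = 0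
    rw [Int.cast_zero, h.zero]
  eq n s t ht := by
    rw [h.eq, norm_nu_int]
  un n b s := by
    have h1 : (wb (b : ZMod M) : QE (ZMod M)) = rE M (⟨0, b⟩ : EO) := by
      ext
      · simp [wb, rE]
      · simp [wb, rE]
    rw [h1, h.gun]
    congr 2
    have h2 : (((n : EO) * (⟨0, b⟩ : EO)).im : ℤ) = n * b := by
      rw [QE.mul_im]
      simp
    rw [h2]
    push_cast
    ring
  neg n s := by
    have := h.neg (n : EO) s
    push_cast
    exact this

end Fermat.Agent.LT.H5
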