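import Mathlib

/-!
# Euler products: summability and lower bound from local data (LT, piece H5, helper52)
-/

set_option autoImplicit false

open Filter Topology

noncomputable section

namespace Fermat.Agent.LT.H5.Asai

theorem summable_of_local {g : ℕ → ℝ} (g1 : g 1 = 1) (g0 : g 0 = 0)
    (hmul : ∀ m n, Nat.Coprime m n → g (m * n) = g m * g n) (hnn : ∀ n, 0 ≤ g n)
    (hloc : ∀ p : ℕ, p.Prime → Summable fun k : ℕ => g (p ^ k)) {E : ℕ → ℝ}
    (hE : ∀ p : ℕ, p.Prime → ∑' k : ℕ, g (p ^ k) ≤ 1 + E p) (hE0 : ∀ p, 0 ≤ E p)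
    (hEs : Summable E) : Summable g := by
  refine summable_of_sum_range_le (c := Real.exp (∑' p, E p)) hnn fun N => ?_
  have h1 := EulerProduct.summable_and_hasSum_smoothNumbers_prod_primesBelow_tsum g1
    (fun {m n} h => hmul m n h)
    (fun {p} hp => (hloc p hp).congr fun k => (Real.norm_of_nonneg (hnn _)).symm) N
  have hs : Summable ((N.smoothNumbers).indicator g) := by
    rw [← summable_subtype_iff_indicator]
    exact h1.2.summable
  have e1 : ∑ n ∈ Finset.range N, g n = ∑ n ∈ Finset.range N, (N.smoothNumbers).indicator g n := by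
    refine Finset.sum_congr rfl fun n hn => ?_
    rcases Nat.eq_zero_or_pos n with rfl | h0
    · rw [g0]
      by_cases h : (0 : ℕ) ∈ N.smoothNumbers
      · rw [Set.indicator_of_mem h, g0]
      · rw [Set.indicator_of_notMem h]
    · rw [Set.indicator_of_mem (Nat.mem_smoothNumbers_of_lt h0 (Finset.mem_range.1 hn))]
  rw [e1]
  have hnn' : ∀ n, 0 ≤ (N.smoothNumbers).indicator g n := fun n =>
    Set.indicator_nonneg (fun n _ => hnn n) n
  refine (hs.sum_le_tsum _ fun n _ => hnn' n).trans ?_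
  rw [← tsum_subtype, h1.2.tsum_eq]
  calc ∏ p ∈ N.primesBelow, ∑' n : ℕ, g (p ^ n) ≤ ∏ p ∈ N.primesBelow, Real.exp (E p) := by
        refine Finset.prod_le_prod (fun p _ => tsum_nonneg fun k => hnn _) fun p hp => ?_
        have := Real.add_one_le_exp (E p)
        linarith [hE p (Nat.prime_of_mem_primesBelow hp)]
    _ = Real.exp (∑ p ∈ N.primesBelow, E p) := (Real.exp_sum _ _).symm
    _ ≤ Real.exp (∑' p, E p) := Real.exp_le_exp.2 (hEs.sum_le_tsum _ fun p _ => hE0 p)

theorem exp_le_tsum_of_local {f : ℕ → ℝ} (f1 : f 1 = 1) (f0 : f 0 = 0)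
    (hmul : ∀ m n, Nat.Coprime m n → f (m * n) = f m * f n) (hsum : Summable fun n => ‖f n‖)
    {g : ℕ → ℝ} (hg : Summable g) (hle : ∀ p : ℕ, p.Prime → Real.exp (g p) ≤ ∑' k : ℕ, f (p ^ k))
    (hg0 : ∀ n : ℕ, ¬ n.Prime → g n = 0) : Real.exp (∑' n, g n) ≤ ∑' n, f n := by
  have h1 := EulerProduct.eulerProduct_hasProd_mulIndicator f1 (fun {m n} h => hmul m n h) hsum f0
  have h2 := hg.hasSum.rexp
  refine le_of_tendsto_of_tendsto' h2 h1 fun s => ?_
  refine Finset.prod_le_prod (fun n _ => (Real.exp_pos _).le) fun n _ => ?_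
  simp only [Function.comp_apply]
  by_cases hn : n.Prime
  · rw [Set.mulIndicator_of_mem (show n ∈ {p | Nat.Prime p} from hn)]
    exact hle n hn
  · rw [Set.mulIndicator_of_notMem (show n ∉ {p | Nat.Prime p} from hn), hg0 n hn, Real.exp_zero]

end Fermat.Agent.LT.H5.Asai
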