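import Mathlib
import Fermat.Agent.LT.H.Local

/-!
# Local factors of the Asai series (LT, piece H5, helper52)
-/

set_option autoImplicit false

open Filter Topology

noncomputable section

namespace Fermat.Agent.LT.H5.Asai

open Fermat.Agent.LT.H.Local

/-! ### Inert factors -/

section inert

variable {l b X : ℝ}

theorem summable_U1 (hb : 1 ≤ b) (hl : |l| ≤ b + b⁻¹) (hX0 : 0 ≤ X) (hX : b * X < 1) :
    Summable fun k : ℕ => |U l k| * X ^ k := by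
  have h1 : Summable fun k : ℕ => ((k : ℝ) + 1) * (b * X) ^ k := by
    have h0 : ‖b * X‖ < 1 := by rwa [Real.norm_of_nonneg (by positivity)]
    have h2 := (summable_pow_mul_geometric_of_norm_lt_one 1 h0)
    have h3 := (summable_geometric_of_norm_lt_one h0)
    refine (h2.add h3).congr fun k => ?_
    ring
  refine Summable.of_nonneg_of_le (fun k => by positivity) (fun k => ?_) h1
  calc |U l k| * X ^ k ≤ (((k : ℝ) + 1) * b ^ k) * X ^ k :=
        mul_le_mul_of_nonneg_right (abs_U_le hb hl k) (pow_nonneg hX0 k)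
    _ = _ := by rw [mul_pow]; ring

theorem tsum_U1 (hb : 1 ≤ b) (hl : |l| ≤ b + b⁻¹) (hX0 : 0 ≤ X) (hX : b * X < 1) :
    (∑' k : ℕ, U l k * X ^ k) * (1 - l * X + X ^ 2) = 1 := by
  have hs : Summable fun k : ℕ => U l k * X ^ k := by
    refine Summable.of_norm ?_
    refine (summable_U1 hb hl hX0 hX).congr fun k => ?_
    rw [norm_mul, Real.norm_eq_abs, norm_pow, Real.norm_of_nonneg hX0]
  have hsh : ∀ j, Summable fun k : ℕ ↦ U l (k + j) * X ^ (k + j) := fun j ↦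
    (summable_nat_add_iff (f := fun k : ℕ ↦ U l k * X ^ k) j).2 hs
  set Z := ∑' k : ℕ, U l k * X ^ k with hZ
  have s1 : Z = 1 + ∑' k : ℕ, U l (k + 1) * X ^ (k + 1) := by
    rw [hZ, hs.tsum_eq_zero_add]; simp
  have s2 : Z = 1 + l * X + ∑' k : ℕ, U l (k + 2) * X ^ (k + 2) := by
    rw [s1, (hsh 1).tsum_eq_zero_add]; simp [add_assoc]
  have key : ∑' k : ℕ, U l (k + 2) * X ^ (k + 2) =
      l * X * (∑' k : ℕ, U l (k + 1) * X ^ (k + 1)) - X ^ 2 * Z := by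
    rw [hZ, ← tsum_mul_left, ← tsum_mul_left, ← Summable.tsum_sub ((hsh 1).mul_left _)
      (hs.mul_left _)]
    refine tsum_congr fun k ↦ ?_
    rw [U_add_two]; ring
  linear_combination s2 + key - l * X * s1

theorem den_pos (hb : 1 ≤ b) (hl : |l| ≤ b + b⁻¹) (hX0 : 0 ≤ X) (hX : b * X < 1) :
    0 < 1 - l * X + X ^ 2 := by
  have hb0 : 0 < b := by linarith
  have h1 : l * X ≤ (b + b⁻¹) * X := mul_le_mul_of_nonneg_right ((le_abs_self l).trans hl) hX0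
  have h2 : b⁻¹ * X < 1 := by
    have h3 : b⁻¹ ≤ b := (inv_le_one_of_one_le₀ hb).trans hb
    exact lt_of_le_of_lt (mul_le_mul_of_nonneg_right h3 hX0) hX
  have h3 : 0 < (1 - b * X) * (1 - b⁻¹ * X) := mul_pos (by linarith) (by linarith)
  have h4 : (1 - b * X) * (1 - b⁻¹ * X) = 1 - (b + b⁻¹) * X + X ^ 2 := by
    field_simp
    ring
  linarith

theorem tsum_U1_eq (hb : 1 ≤ b) (hl : |l| ≤ b + b⁻¹) (hX0 : 0 ≤ X) (hX : b * X < 1) :
    ∑' k : ℕ, U l k * X ^ k = (1 - l * X + X ^ 2)⁻¹ :=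
  eq_inv_of_mul_eq_one_left (tsum_U1 hb hl hX0 hX)

theorem tsum_U1_lower (hb : 1 ≤ b) (hl : |l| ≤ b + b⁻¹) (hX0 : 0 ≤ X) (hX : b * X < 1) :
    (2 + |l|)⁻¹ ≤ ∑' k : ℕ, U l k * X ^ k := by
  rw [tsum_U1_eq hb hl hX0 hX]
  have hX1 : X ≤ 1 := by nlinarith
  refine inv_anti₀ (den_pos hb hl hX0 hX) ?_
  have h1 : -(l * X) ≤ |l| := by
    calc -(l * X) ≤ |l * X| := neg_le_abs _
      _ = |l| * X := by rw [abs_mul, abs_of_nonneg hX0]
      _ ≤ |l| * 1 := mul_le_mul_of_nonneg_left hX1 (abs_nonneg l)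
      _ = |l| := mul_one _
  nlinarith

theorem U_two (k : ℕ) : U 2 k = k + 1 := by
  have : ∀ k, U 2 k = k + 1 ∧ U 2 (k + 1) = (k + 1 : ℕ) + 1 := by
    intro k
    induction k with
    | zero => refine ⟨by simp, by simp; norm_num⟩
    | succ k ih =>
      refine ⟨ih.2, ?_⟩
      rw [U_add_two, ih.1, ih.2]; push_cast; ring
  exact (this k).1

theorem abs_U_le_of_le_two (hl : |l| ≤ 2) (k : ℕ) : |U l k| ≤ k + 1 := by
  have := abs_U_le (l := l) (b := 1) le_rfl (by rw [inv_one]; linarith) k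
  simpa using this

/-- the local sum of absolute values for small eigenvalues -/
theorem tsum_abs_U1_le (hl : |l| ≤ 2) (hX0 : 0 ≤ X) (hX : X ≤ 1 / 2) :
    ∑' k : ℕ, |U l k| * X ^ k ≤ 1 + 8 * X := by
  have hl' : |l| ≤ (1 : ℝ) + (1 : ℝ)⁻¹ := by rw [inv_one]; linarith
  have h2 : |(2 : ℝ)| ≤ (1 : ℝ) + (1 : ℝ)⁻¹ := by norm_num
  have hX1 : (1 : ℝ) * X < 1 := by linarith
  have hs := summable_U1 le_rfl hl' hX0 hX1
  have hs2 := summable_U1 le_rfl h2 hX0 hX1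
  have h3 : ∑' k : ℕ, |U l k| * X ^ k ≤ ∑' k : ℕ, |U 2 k| * X ^ k := by
    refine hs.tsum_le_tsum (fun k => ?_) hs2
    refine mul_le_mul_of_nonneg_right ?_ (pow_nonneg hX0 k)
    rw [U_two, abs_of_nonneg (show (0 : ℝ) ≤ (k : ℝ) + 1 by positivity)]
    exact abs_U_le_of_le_two hl k
  have h4 : ∑' k : ℕ, |U 2 k| * X ^ k = (1 - 2 * X + X ^ 2)⁻¹ := by
    rw [← tsum_U1_eq le_rfl h2 hX0 hX1]
    refine tsum_congr fun k => ?_
    rw [U_two, abs_of_nonneg (by positivity)]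
  refine h3.trans ?_
  rw [h4, inv_le_iff_one_le_mul₀ (by nlinarith)]
  nlinarith [mul_nonneg hX0 hX0, mul_nonneg (mul_nonneg hX0 hX0) hX0]

/-- lower bound for the inert factor with eigenvalue `2` -/
theorem exp_le_inert_two (hX0 : 0 ≤ X) (hX : X ≤ 1 / 2) :
    Real.exp (2 * X) ≤ ∑' k : ℕ, U 2 k * X ^ k := by
  have h2 : |(2 : ℝ)| ≤ (1 : ℝ) + (1 : ℝ)⁻¹ := by norm_num
  rw [tsum_U1_eq le_rfl h2 hX0 (by linarith)]
  have h1 : 0 < 1 - X := by linarith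
  have h3 : 1 - 2 * X + X ^ 2 = (1 - X) ^ 2 := by ring
  have h4 : (1 - X) ≤ Real.exp (-X) := by
    have := Real.add_one_le_exp (-X)
    linarith
  rw [h3, ← neg_neg (2 * X), Real.exp_neg]
  refine inv_anti₀ (by positivity) ?_
  calc (1 - X) ^ 2 ≤ (Real.exp (-X)) ^ 2 := pow_le_pow_left₀ h1.le h4 2
    _ = Real.exp (-(2 * X)) := by rw [← Real.exp_nat_mul]; congr 1; push_cast; ring

/-- lower bound for the inert factor with eigenvalue `0` -/
theorem exp_le_inert_zero (hX0 : 0 ≤ X) (hX : X ≤ 1 / 2) :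
    Real.exp (-X ^ 2) ≤ ∑' k : ℕ, U 0 k * X ^ k := by
  have h2 : |(0 : ℝ)| ≤ (1 : ℝ) + (1 : ℝ)⁻¹ := by norm_num
  rw [tsum_U1_eq le_rfl h2 hX0 (by linarith), zero_mul, sub_zero, Real.exp_neg]
  refine inv_anti₀ (by positivity) ?_
  have := Real.add_one_le_exp (X ^ 2)
  linarith

end inert

/-! ### The factor at `3` -/

section ramified

variable {l b X : ℝ}

theorem U_double_rec (l : ℝ) (n : ℕ) : U l (n + 4) = (l ^ 2 - 2) * U l (n + 2) - U l n := by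
  have h1 : U l (n + 4) = l * U l (n + 3) - U l (n + 2) := U_add_two l (n + 2)
  have h2 : U l (n + 3) = l * U l (n + 2) - U l (n + 1) := U_add_two l (n + 1)
  have h3 : U l (n + 2) = l * U l (n + 1) - U l n := U_add_two l n
  rw [h1, h2]
  linear_combination h3

theorem U_double (l : ℝ) (k : ℕ) :
    U l (2 * (k + 1)) = U (l ^ 2 - 2) (k + 1) + U (l ^ 2 - 2) k := by
  have : ∀ k, U l (2 * (k + 1)) = U (l ^ 2 - 2) (k + 1) + U (l ^ 2 - 2) k ∧
      U l (2 * (k + 2)) = U (l ^ 2 - 2) (k + 2) + U (l ^ 2 - 2) (k + 1) := by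
    intro k
    induction k with
    | zero =>
      constructor
      · simp [U_add_two]
        ring
      · have e : U l (2 * (0 + 2)) = (l ^ 2 - 2) * U l 2 - U l 0 := U_double_rec l 0
        rw [e]
        simp [U_add_two]
        ring
    | succ k ih =>
      refine ⟨ih.2, ?_⟩
      have e : U l (2 * (k + 1 + 2)) = (l ^ 2 - 2) * U l (2 * (k + 2)) - U l (2 * (k + 1)) := by
        have := U_double_rec l (2 * (k + 1))
        rw [show 2 * (k + 1 + 2) = 2 * (k + 1) + 4 by ring,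
          show 2 * (k + 2) = 2 * (k + 1) + 2 by ring]
        exact this
      rw [e, ih.1, ih.2, U_add_two (l ^ 2 - 2) (k + 1), U_add_two (l ^ 2 - 2) k]
      ring
  exact (this k).1

theorem abs_sq_sub_two_le (hb : 1 ≤ b) (hl : |l| ≤ b + b⁻¹) : |l ^ 2 - 2| ≤ b ^ 2 + (b ^ 2)⁻¹ := by
  have hb0 : 0 < b := by linarith
  have h1 : b * b⁻¹ = 1 := mul_inv_cancel₀ hb0.ne'
  have h2 : l ^ 2 ≤ (b + b⁻¹) ^ 2 := by
    rw [← sq_abs]
    exact pow_le_pow_left₀ (abs_nonneg l) hl 2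
  have h3 : (b + b⁻¹) ^ 2 = b ^ 2 + (b ^ 2)⁻¹ + 2 := by
    rw [← inv_pow]
    linear_combination 2 * h1
  have h4 : 2 ≤ b ^ 2 + (b ^ 2)⁻¹ := by
    have : 0 ≤ (b - b⁻¹) ^ 2 := sq_nonneg _
    have h5 : (b - b⁻¹) ^ 2 = b ^ 2 + (b ^ 2)⁻¹ - 2 := by
      rw [← inv_pow]
      linear_combination (-2) * h1
    linarith
  rw [abs_le]
  constructor <;> nlinarith [sq_nonneg l]

theorem summable_U3 (hb : 1 ≤ b) (hl : |l| ≤ b + b⁻¹) (hX0 : 0 ≤ X) (hX : b ^ 2 * X < 1) :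
    Summable fun k : ℕ => |U l (2 * k)| * X ^ k := by
  have hm := abs_sq_sub_two_le hb hl
  have h1 := summable_U1 (one_le_pow₀ hb) hm hX0 hX
  rw [← summable_nat_add_iff 1]
  have h2 := (summable_nat_add_iff (f := fun k : ℕ => |U (l ^ 2 - 2) k| * X ^ k) 1).2 h1
  refine Summable.of_nonneg_of_le (fun k => by positivity) (fun k => ?_) (h2.add (h1.mul_left X))
  rw [U_double]
  calc |U (l ^ 2 - 2) (k + 1) + U (l ^ 2 - 2) k| * X ^ (k + 1)
      ≤ (|U (l ^ 2 - 2) (k + 1)| + |U (l ^ 2 - 2) k|) * X ^ (k + 1) :=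
        mul_le_mul_of_nonneg_right (abs_add_le _ _) (pow_nonneg hX0 _)
    _ = _ := by rw [pow_succ]; ring

theorem tsum_U3_lower (hb : 1 ≤ b) (hl : |l| ≤ b + b⁻¹) (hX0 : 0 ≤ X) (hX : b ^ 2 * X < 1) :
    (2 + |l ^ 2 - 2|)⁻¹ ≤ ∑' k : ℕ, U l (2 * k) * X ^ k := by
  have hm := abs_sq_sub_two_le hb hl
  have hb2 : 1 ≤ b ^ 2 := one_le_pow₀ hb
  have hs : Summable fun k : ℕ => U (l ^ 2 - 2) k * X ^ k := by
    refine Summable.of_norm ((summable_U1 hb2 hm hX0 hX).congr fun k => ?_)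
    rw [norm_mul, Real.norm_eq_abs, norm_pow, Real.norm_of_nonneg hX0]
  have hs3 : Summable fun k : ℕ => U l (2 * k) * X ^ k := by
    refine Summable.of_norm ((summable_U3 hb hl hX0 hX).congr fun k => ?_)
    rw [norm_mul, Real.norm_eq_abs, norm_pow, Real.norm_of_nonneg hX0]
  have h1 : ∑' k : ℕ, U l (2 * k) * X ^ k = (1 + X) * ∑' k : ℕ, U (l ^ 2 - 2) k * X ^ k := by
    have e1 : ∑' k : ℕ, U l (2 * (k + 1)) * X ^ (k + 1) =
        ∑' k : ℕ, U (l ^ 2 - 2) (k + 1) * X ^ (k + 1) + X * ∑' k : ℕ, U (l ^ 2 - 2) k * X ^ k := by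
      rw [← tsum_mul_left, ← Summable.tsum_add
        ((summable_nat_add_iff (f := fun k : ℕ => U (l ^ 2 - 2) k * X ^ k) 1).2 hs)
        (hs.mul_left X)]
      refine tsum_congr fun k => ?_
      rw [U_double, pow_succ]
      ring
    have e2 := hs.tsum_eq_zero_add
    have e3 := hs3.tsum_eq_zero_add
    rw [mul_zero, U_zero, pow_zero, mul_one] at e3
    rw [U_zero, pow_zero, mul_one] at e2
    rw [e3, e1]
    linear_combination -e2
  rw [h1]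
  have h2 := tsum_U1_lower hb2 hm hX0 hX
  have h3 : 0 < (2 + |l ^ 2 - 2|)⁻¹ := by positivity
  nlinarith

end ramified

/-! ### Split factors -/

section split

variable {l m b X : ℝ}

theorem summable_U2 (hb : 1 ≤ b) (hl : |l| ≤ b + b⁻¹) (hm : |m| ≤ b + b⁻¹) (hX0 : 0 ≤ X)
    (hX : b * b * X < 1) : Summable fun k : ℕ => |U l k * U m k| * X ^ k := by
  have h1 := summable_U hb hl hb hm (X := (X : ℂ)) (by
    rwa [Complex.norm_real, Real.norm_of_nonneg hX0])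
  refine h1.congr fun k => ?_
  rw [norm_mul, Complex.norm_real, norm_pow, Complex.norm_real, Real.norm_eq_abs,
    Real.norm_of_nonneg hX0]

theorem tsum_U2 (hb : 1 ≤ b) (hl : |l| ≤ b + b⁻¹) (hm : |m| ≤ b + b⁻¹) (hX0 : 0 ≤ X)
    (hX : b * b * X < 1) :
    ∑' k : ℕ, U l k * U m k * X ^ k = Real.exp (Real.log (1 - X ^ 2) + S l m X) := by
  have h2 := R_real hb hl hb hm hX0 hX
  rw [R] at h2
  rw [← Complex.ofReal_inj, ← h2, Complex.ofReal_tsum]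
  refine tsum_congr fun k ↦ ?_
  push_cast
  ring

theorem lt_one_of_mul (hb : 1 ≤ b) (hX0 : 0 ≤ X) (hX : b * b * X < 1) : X < 1 := by
  refine lt_of_le_of_lt ?_ hX
  have : 1 ≤ b * b := one_le_mul_of_one_le_of_one_le hb hb
  nlinarith

/-- absolute sums -/
theorem tsum_abs_U2_le (hb : 1 ≤ b) (hl : |l| ≤ b + b⁻¹) (hm : |m| ≤ b + b⁻¹) (hX0 : 0 ≤ X)
    (hX : b * b * X < 1) :
    ∑' k : ℕ, |U l k * U m k| * X ^ k ≤ (Real.exp (S l l X) + Real.exp (S m m X)) / 2 := by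
  have hX1 := lt_one_of_mul hb hX0 hX
  have h1 := summable_U2 hb hl hl hX0 hX
  have h2 := summable_U2 hb hm hm hX0 hX
  have hlog : Real.log (1 - X ^ 2) ≤ 0 := Real.log_nonpos (by nlinarith) (by nlinarith)
  have e1 : ∑' k : ℕ, |U l k * U l k| * X ^ k ≤ Real.exp (S l l X) := by
    have : ∑' k : ℕ, |U l k * U l k| * X ^ k = ∑' k : ℕ, U l k * U l k * X ^ k := by
      refine tsum_congr fun k => ?_
      rw [abs_of_nonneg (mul_self_nonneg _)]
    rw [this, tsum_U2 hb hl hl hX0 hX]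
    exact Real.exp_le_exp.2 (by linarith)
  have e2 : ∑' k : ℕ, |U m k * U m k| * X ^ k ≤ Real.exp (S m m X) := by
    have : ∑' k : ℕ, |U m k * U m k| * X ^ k = ∑' k : ℕ, U m k * U m k * X ^ k := by
      refine tsum_congr fun k => ?_
      rw [abs_of_nonneg (mul_self_nonneg _)]
    rw [this, tsum_U2 hb hm hm hX0 hX]
    exact Real.exp_le_exp.2 (by linarith)
  have h3 : ∑' k : ℕ, |U l k * U m k| * X ^ k ≤
      ∑' k : ℕ, (|U l k * U l k| * X ^ k + |U m k * U m k| * X ^ k) / 2 := by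
    refine (summable_U2 hb hl hm hX0 hX).tsum_le_tsum (fun k => ?_) ((h1.add h2).div_const 2)
    rw [← add_mul, mul_div_right_comm]
    refine mul_le_mul_of_nonneg_right ?_ (pow_nonneg hX0 k)
    rw [abs_mul, abs_mul, abs_mul]
    nlinarith [sq_nonneg (|U l k| - |U m k|)]
  refine h3.trans ?_
  rw [tsum_div_const, Summable.tsum_add h1 h2]
  linarith

theorem neg_two_mul_sq_le_log (hX0 : 0 ≤ X) (hX2 : X ≤ 1 / 2) :
    -2 * X ^ 2 ≤ Real.log (1 - X ^ 2) := by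
  have hY : X ^ 2 ≤ 1 / 4 := by nlinarith
  have hY0 := sq_nonneg X
  have h3 := Real.one_sub_inv_le_log_of_pos (show 0 < 1 - X ^ 2 by linarith)
  refine le_trans ?_ h3
  rw [le_sub_iff_add_le, ← le_sub_iff_add_le', inv_le_iff_one_le_mul₀ (by linarith)]
  have : 0 ≤ X ^ 2 * (1 - 2 * X ^ 2) := mul_nonneg hY0 (by linarith)
  nlinarith

/-- lower bound -/
theorem split_lower (hb : 1 ≤ b) (hl : |l| ≤ b + b⁻¹) (hm : |m| ≤ b + b⁻¹) (hX0 : 0 ≤ X)
    (hX : b * b * X < 1) (hX2 : X ≤ 1 / 2) :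
    Real.exp (-2 * X ^ 2 - (S l l X + S m m X) / 2) ≤ ∑' k : ℕ, U l k * U m k * X ^ k := by
  rw [tsum_U2 hb hl hm hX0 hX]
  refine Real.exp_le_exp.2 ?_
  have h1 := (abs_le.1 (abs_S_le hb hl hb hm hX0 hX hX)).1
  have h2 := neg_two_mul_sq_le_log hX0 hX2
  linarith

theorem split_lower_eq (hb : 1 ≤ b) (hl : |l| ≤ b + b⁻¹) (h4 : l ^ 2 = 4) (hX0 : 0 ≤ X)
    (hX : b * b * X < 1) (hX2 : X ≤ 1 / 2) :
    Real.exp (-2 * X ^ 2 + 8 * X - (S l l X + S l l X) / 2) ≤ ∑' k : ℕ, U l k * U l k * X ^ k := by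
  rw [tsum_U2 hb hl hl hX0 hX]
  refine Real.exp_le_exp.2 ?_
  have h1 := le_S_self hb hl hX0 hX
  rw [h4] at h1
  have h2 := neg_two_mul_sq_le_log hX0 hX2
  linarith

/-- uniform lower bound for the split factor -/
theorem split_const_lower (hb : 1 ≤ b) (hl : |l| ≤ b + b⁻¹) (hm : |m| ≤ b + b⁻¹) (hX0 : 0 ≤ X)
    (hX : b * b * X < 1) (hX2 : X ≤ 1 / 2) :
    (3 / 4) / (2 + 2 * |l * m| + |l ^ 2 + m ^ 2 - 2|) ≤ ∑' k : ℕ, U l k * U m k * X ^ k := by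
  have h1 := tsum_U_mul_Q hb hl hb hm (X := (X : ℂ)) (by
    rwa [Complex.norm_real, Real.norm_of_nonneg hX0])
  have h2 : (∑' k : ℕ, U l k * U m k * X ^ k) *
      (1 - l * m * X + (l ^ 2 + m ^ 2 - 2) * X ^ 2 - l * m * X ^ 3 + X ^ 4) = 1 - X ^ 2 := by
    rw [← Complex.ofReal_inj]
    push_cast
    unfold Q at h1
    push_cast at h1
    exact h1
  have h3 : 0 < ∑' k : ℕ, U l k * U m k * X ^ k := by
    rw [tsum_U2 hb hl hm hX0 hX]
    exact Real.exp_pos _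
  set Z := ∑' k : ℕ, U l k * U m k * X ^ k with hZ
  set q := 1 - l * m * X + (l ^ 2 + m ^ 2 - 2) * X ^ 2 - l * m * X ^ 3 + X ^ 4 with hq
  have hX1 : X ≤ 1 := by linarith
  have e2 : X ^ 2 ≤ 1 := pow_le_one₀ hX0 hX1
  have e3 : X ^ 3 ≤ 1 := pow_le_one₀ hX0 hX1
  have e4 : X ^ 4 ≤ 1 := pow_le_one₀ hX0 hX1
  have f1 : -(l * m * X) ≤ |l * m| := by
    calc -(l * m * X) ≤ |l * m * X| := neg_le_abs _
      _ = |l * m| * X := by rw [abs_mul, abs_of_nonneg hX0]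
      _ ≤ |l * m| * 1 := mul_le_mul_of_nonneg_left hX1 (abs_nonneg _)
      _ = _ := mul_one _
  have f3 : -(l * m * X ^ 3) ≤ |l * m| := by
    calc -(l * m * X ^ 3) ≤ |l * m * X ^ 3| := neg_le_abs _
      _ = |l * m| * X ^ 3 := by rw [abs_mul, abs_of_nonneg (pow_nonneg hX0 3)]
      _ ≤ |l * m| * 1 := mul_le_mul_of_nonneg_left e3 (abs_nonneg _)
      _ = _ := mul_one _
  have f2 : (l ^ 2 + m ^ 2 - 2) * X ^ 2 ≤ |l ^ 2 + m ^ 2 - 2| := by
    calc (l ^ 2 + m ^ 2 - 2) * X ^ 2 ≤ |(l ^ 2 + m ^ 2 - 2) * X ^ 2| := le_abs_self _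
      _ = |l ^ 2 + m ^ 2 - 2| * X ^ 2 := by rw [abs_mul, abs_of_nonneg (pow_nonneg hX0 2)]
      _ ≤ |l ^ 2 + m ^ 2 - 2| * 1 := mul_le_mul_of_nonneg_left e2 (abs_nonneg _)
      _ = _ := mul_one _
  have hqle : q ≤ 2 + 2 * |l * m| + |l ^ 2 + m ^ 2 - 2| := by
    rw [hq]
    linarith
  have hK : 0 < 2 + 2 * |l * m| + |l ^ 2 + m ^ 2 - 2| := by positivity
  rw [div_le_iff₀ hK]
  have h5 : Z * q ≤ Z * (2 + 2 * |l * m| + |l ^ 2 + m ^ 2 - 2|) :=
    mul_le_mul_of_nonneg_left hqle h3.le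
  have hY : X ^ 2 ≤ 1 / 4 := by nlinarith
  linarith

end split

end Fermat.Agent.LT.H5.Asai
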