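import Mathlib
import Fermat.Agent.LT.H5.AsaiLoc
import Fermat.Agent.LT.H5.AsaiEuler
import Fermat.Agent.LT.H.Unique

/-!
# The Asai series is absolutely convergent for `s > 1` and unbounded near `1`
(LT, piece H5/E2, helper52)
-/

set_option autoImplicit false

open Filter Topology

noncomputable section

namespace Fermat.Agent.LT.H5.Asai

open Fermat.Agent.LT.H.Local

/-- the hypotheses -/
structure AsaiHyp (M : ℕ) (a l l' : ℕ → ℝ) (T : Finset ℕ) (A1 A2 : Set ℕ) : Prop where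
  a0 : a 0 = 0
  a1 : a 1 = 1
  mul : ∀ m n, Nat.Coprime m n → a (m * n) = a m * a n
  bad : ∀ p : ℕ, p.Prime → p ∣ M → ∀ k : ℕ, a (p ^ (k + 1)) = 0
  split : ∀ p : ℕ, p.Prime → ¬ p ∣ M → p % 3 = 1 → ∀ k : ℕ, a (p ^ k) = U (l p) k * U (l' p) k
  inert : ∀ p : ℕ, p.Prime → ¬ p ∣ M → p % 3 = 2 → ∀ k : ℕ, a (p ^ k) = U (l p) k
  three : ¬ 3 ∣ M → ∀ k : ℕ, a (3 ^ k) = U (l 3) (2 * k)
  bd1 : ∀ p : ℕ, p.Prime → ¬ p ∣ M → p % 3 = 1 →
    |l p| ≤ √(p : ℝ) + (√(p : ℝ))⁻¹ ∧ |l' p| ≤ √(p : ℝ) + (√(p : ℝ))⁻¹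
  bd2 : ∀ p : ℕ, p.Prime → ¬ p ∣ M → p % 3 = 2 → |l p| ≤ p + (p : ℝ)⁻¹
  bd3 : ¬ 3 ∣ M → |l 3| ≤ √3 + (√3)⁻¹
  hT : ∀ p : ℕ, p.Prime → p ∣ M → p ∈ T
  hA1 : ∀ p ∈ A1, p.Prime ∧ p % 3 = 1 ∧ p ∉ T ∧ l p = l' p ∧ l p ^ 2 = 4
  hA2 : ∀ p ∈ A2, p.Prime ∧ p % 3 = 2 ∧ p ∉ T ∧ l p = 2
  hA3 : ∀ p : ℕ, p.Prime → p % 3 = 2 → p ∉ T → p ∉ A2 → l p = 0

/-- the split good primes -/
def spl (T : Finset ℕ) : Set ℕ := {p : ℕ | p.Prime ∧ p % 3 = 1 ∧ p ∉ T}

/-- the local mass -/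
def mass (l l' : ℕ → ℝ) (s : ℝ) (p : ℕ) : ℝ :=
  S (l p) (l p) ((p : ℝ) ^ (-s)) + S (l' p) (l' p) ((p : ℝ) ^ (-s))

theorem mass_nonneg (l l' : ℕ → ℝ) (s : ℝ) (p : ℕ) : 0 ≤ mass l l' s p := by
  have h : 0 ≤ (p : ℝ) ^ (-s) := Real.rpow_nonneg (Nat.cast_nonneg p) _
  exact add_nonneg (S_self_nonneg _ h) (S_self_nonneg _ h)

section prime

variable {p : ℕ} {s : ℝ}

theorem X_pos (hp : p.Prime) : 0 < (p : ℝ) ^ (-s) :=
  Real.rpow_pos_of_pos (by exact_mod_cast hp.pos) _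

theorem X_le (hp : p.Prime) (hs : 1 < s) : (p : ℝ) ^ (-s) ≤ 1 / 2 := by
  have h2 : (2 : ℝ) ≤ p := by exact_mod_cast hp.two_le
  have h1 : (p : ℝ) ^ (-s) ≤ (p : ℝ) ^ (-1 : ℝ) :=
    Real.rpow_le_rpow_of_exponent_le (by linarith) (by linarith)
  rw [Real.rpow_neg_one] at h1
  refine h1.trans ?_
  rw [one_div]
  exact inv_anti₀ (by norm_num) h2

theorem mul_X_lt (hp : p.Prime) (hs : 1 < s) : (p : ℝ) * (p : ℝ) ^ (-s) < 1 := by
  have h2 : (2 : ℝ) ≤ p := by exact_mod_cast hp.two_le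
  have h0 : (0 : ℝ) < p := by linarith
  nth_rewrite 1 [← Real.rpow_one (p : ℝ)]
  rw [← Real.rpow_add h0]
  exact Real.rpow_lt_one_of_one_lt_of_neg (by linarith) (by linarith)

theorem sqrt_X_lt (hp : p.Prime) (hs : 1 < s) : √(p : ℝ) * √(p : ℝ) * (p : ℝ) ^ (-s) < 1 := by
  rw [Real.mul_self_sqrt (Nat.cast_nonneg p)]
  exact mul_X_lt hp hs

theorem one_le_sqrt_p (hp : p.Prime) : 1 ≤ √(p : ℝ) := by
  rw [Real.one_le_sqrt]
  exact_mod_cast hp.one_lt.le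

theorem X_sq_le (hp : p.Prime) (hs : 1 < s) : ((p : ℝ) ^ (-s)) ^ 2 ≤ (p : ℝ) ^ (-2 : ℝ) := by
  have h2 : (1 : ℝ) ≤ p := by exact_mod_cast hp.one_lt.le
  rw [← Real.rpow_natCast, ← Real.rpow_mul (by linarith)]
  exact Real.rpow_le_rpow_of_exponent_le h2 (by push_cast; linarith)

theorem mod_three (hp : p.Prime) : p % 3 = 1 ∨ p % 3 = 2 ∨ p = 3 := by
  have h : p % 3 = 0 ∨ p % 3 = 1 ∨ p % 3 = 2 := by omega
  rcases h with h | h | h
  · right; right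
    exact ((Nat.prime_dvd_prime_iff_eq Nat.prime_three hp).1 (Nat.dvd_of_mod_eq_zero h)).symm
  · exact Or.inl h
  · exact Or.inr (Or.inl h)

end prime

namespace AsaiHyp

variable {M : ℕ} {a l l' : ℕ → ℝ} {T : Finset ℕ} {A1 A2 : Set ℕ} {s : ℝ}

section loc

variable (h : AsaiHyp M a l l' T A1 A2)

include h

theorem loc_bad {p : ℕ} (hp : p.Prime) (hM : p ∣ M) (k : ℕ) : a (p ^ k) = if k = 0 then 1 else 0 := by
  rcases k with _ | k
  · simp [h.a1]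
  · rw [h.bad p hp hM k, if_neg (Nat.succ_ne_zero k)]

/-- local summability -/
theorem loc_summable {p : ℕ} (hp : p.Prime) (hs : 1 < s) :
    Summable fun k : ℕ => |a (p ^ k)| * ((p : ℝ) ^ (-s)) ^ k := by
  have hX0 := (X_pos (s := s) hp).le
  by_cases hM : p ∣ M
  · refine summable_of_ne_finset_zero (s := {0}) fun k hk => ?_
    rw [Finset.mem_singleton] at hk
    rw [h.loc_bad hp hM, if_neg hk, abs_zero, zero_mul]
  rcases mod_three hp with h1 | h2 | h3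
  · simp_rw [h.split p hp hM h1]
    exact summable_U2 (one_le_sqrt_p hp) (h.bd1 p hp hM h1).1 (h.bd1 p hp hM h1).2 hX0
      (sqrt_X_lt hp hs)
  · simp_rw [h.inert p hp hM h2]
    exact summable_U1 (by exact_mod_cast hp.one_lt.le) (h.bd2 p hp hM h2) hX0 (mul_X_lt hp hs)
  · subst h3
    simp_rw [h.three hM]
    refine summable_U3 (b := √3) ?_ (h.bd3 hM) hX0 ?_
    · rw [Real.one_le_sqrt]; norm_num
    · rw [Real.sq_sqrt (by norm_num)]
      exact_mod_cast mul_X_lt Nat.prime_three hs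

/-- uniform lower bound of the local factors -/
theorem exists_loc_lower {p : ℕ} (hp : p.Prime) : ∃ c : ℝ, 0 < c ∧ ∀ s : ℝ, 1 < s →
    c ≤ ∑' k : ℕ, a (p ^ k) * ((p : ℝ) ^ (-s)) ^ k := by
  by_cases hM : p ∣ M
  · refine ⟨1, one_pos, fun s hs => ?_⟩
    rw [tsum_eq_single 0 (fun k hk => by rw [h.loc_bad hp hM, if_neg hk, zero_mul])]
    simp [h.a1]
  rcases mod_three hp with h1 | h2 | h3
  · refine ⟨(3 / 4) / (2 + 2 * |l p * l' p| + |l p ^ 2 + l' p ^ 2 - 2|), by positivity,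
      fun s hs => ?_⟩
    simp_rw [h.split p hp hM h1]
    exact split_const_lower (one_le_sqrt_p hp) (h.bd1 p hp hM h1).1 (h.bd1 p hp hM h1).2
      (X_pos (s := s) hp).le (sqrt_X_lt hp hs) (X_le hp hs)
  · refine ⟨(2 + |l p|)⁻¹, by positivity, fun s hs => ?_⟩
    simp_rw [h.inert p hp hM h2]
    exact tsum_U1_lower (by exact_mod_cast hp.one_lt.le) (h.bd2 p hp hM h2)
      (X_pos (s := s) hp).le (mul_X_lt hp hs)
  · subst h3
    refine ⟨(2 + |l 3 ^ 2 - 2|)⁻¹, by positivity, fun s hs => ?_⟩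
    simp_rw [h.three hM]
    refine tsum_U3_lower (b := √3) ?_ (h.bd3 hM) (X_pos (s := s) Nat.prime_three).le ?_
    · rw [Real.one_le_sqrt]; norm_num
    · rw [Real.sq_sqrt (by norm_num)]
      exact_mod_cast mul_X_lt Nat.prime_three hs

theorem l_eq {p : ℕ} (hp : p.Prime) (h2 : p % 3 = 2) (hpT : p ∉ T) :
    (p ∈ A2 ∧ l p = 2) ∨ (p ∉ A2 ∧ l p = 0) := by
  by_cases hA : p ∈ A2
  · exact Or.inl ⟨hA, (h.hA2 p hA).2.2.2⟩
  · exact Or.inr ⟨hA, h.hA3 p hp h2 hpT hA⟩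

/-- upper bound of the absolute local sums at good primes -/
theorem loc_abs_le {p : ℕ} (hp : p.Prime) (hpT : p ∉ T) (h3 : p ≠ 3) (hs : 1 < s) {B : ℝ}
    (hB : (spl T).indicator (mass l l' s) p ≤ B) :
    ∑' k : ℕ, |a (p ^ k)| * ((p : ℝ) ^ (-s)) ^ k ≤
      1 + (8 * (p : ℝ) ^ (-s) + Real.exp B * (spl T).indicator (mass l l' s) p) := by
  have hX0 := (X_pos (s := s) hp).le
  have hM : ¬ p ∣ M := fun hd => hpT (h.hT p hp hd)
  rcases mod_three hp with h1 | h2 | h3'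
  · have hmem : p ∈ spl T := ⟨hp, h1, hpT⟩
    rw [Set.indicator_of_mem hmem] at hB ⊢
    simp_rw [h.split p hp hM h1]
    refine (tsum_abs_U2_le (one_le_sqrt_p hp) (h.bd1 p hp hM h1).1 (h.bd1 p hp hM h1).2 hX0
      (sqrt_X_lt hp hs)).trans ?_
    have s1 := S_self_nonneg (l p) hX0
    have s2 := S_self_nonneg (l' p) hX0
    have key : ∀ x : ℝ, 0 ≤ x → x ≤ B → Real.exp x ≤ 1 + Real.exp B * x := by
      intro x hx hxB
      have e1 : 1 - x ≤ Real.exp (-x) := by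
        have := Real.add_one_le_exp (-x); linarith
      have e2 : Real.exp x * (1 - x) ≤ 1 := by
        calc Real.exp x * (1 - x) ≤ Real.exp x * Real.exp (-x) :=
              mul_le_mul_of_nonneg_left e1 (Real.exp_pos x).le
          _ = 1 := by rw [← Real.exp_add, add_neg_cancel, Real.exp_zero]
      have e3 : Real.exp x * x ≤ Real.exp B * x :=
        mul_le_mul_of_nonneg_right (Real.exp_le_exp.2 hxB) hx
      linarith
    unfold mass at hB ⊢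
    have k1 := key _ s1 (by linarith)
    have k2 := key _ s2 (by linarith)
    have hE := (Real.exp_pos B).le
    have m1 := mul_nonneg hE s1
    have m2 := mul_nonneg hE s2
    rw [mul_add]
    linarith
  · have hnm : p ∉ spl T := fun hc => by
      have := hc.2.1
      omega
    rw [Set.indicator_of_notMem hnm, mul_zero, add_zero]
    simp_rw [h.inert p hp hM h2]
    refine tsum_abs_U1_le ?_ hX0 (X_le hp hs)
    rcases h.l_eq hp h2 hpT with h4 | h4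
    · rw [h4.2]; norm_num
    · rw [h4.2]; norm_num
  · exact absurd h3' h3

/-- lower bound of the local factors at good primes -/
theorem loc_lower {p : ℕ} (hp : p.Prime) (hpT : p ∉ T) (h3 : p ≠ 3) (hs : 1 < s) :
    Real.exp (-2 * ((p : ℝ) ^ (-s)) ^ 2 + 8 * A1.indicator (fun p : ℕ => (p : ℝ) ^ (-s)) p +
      2 * A2.indicator (fun p : ℕ => (p : ℝ) ^ (-s)) p -
      (spl T).indicator (mass l l' s) p / 2) ≤
      ∑' k : ℕ, a (p ^ k) * ((p : ℝ) ^ (-s)) ^ k := by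
  have hX0 := (X_pos (s := s) hp).le
  have hM : ¬ p ∣ M := fun hd => hpT (h.hT p hp hd)
  rcases mod_three hp with h1 | h2 | h3'
  · have hmem : p ∈ spl T := ⟨hp, h1, hpT⟩
    have hn2 : p ∉ A2 := fun hc => by
      have := (h.hA2 p hc).2.1
      omega
    rw [Set.indicator_of_mem hmem, Set.indicator_of_notMem hn2]
    simp_rw [h.split p hp hM h1]
    by_cases hA : p ∈ A1
    · obtain ⟨-, -, -, hll, h4⟩ := h.hA1 p hA
      rw [Set.indicator_of_mem hA, mass, ← hll]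
      refine le_trans (Real.exp_le_exp.2 (le_of_eq ?_)) (split_lower_eq (one_le_sqrt_p hp)
        (h.bd1 p hp hM h1).1 h4 hX0 (sqrt_X_lt hp hs) (X_le hp hs))
      ring
    · rw [Set.indicator_of_notMem hA, mass]
      refine le_trans (Real.exp_le_exp.2 (le_of_eq ?_)) (split_lower (one_le_sqrt_p hp)
        (h.bd1 p hp hM h1).1 (h.bd1 p hp hM h1).2 hX0 (sqrt_X_lt hp hs) (X_le hp hs))
      ring
  · have hnm : p ∉ spl T := fun hc => by
      have := hc.2.1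
      omega
    have hn1 : p ∉ A1 := fun hc => by
      have := (h.hA1 p hc).2.1
      omega
    rw [Set.indicator_of_notMem hnm, Set.indicator_of_notMem hn1]
    simp_rw [h.inert p hp hM h2]
    rcases h.l_eq hp h2 hpT with ⟨hA, h4⟩ | ⟨hA, h4⟩
    · rw [h4, Set.indicator_of_mem hA]
      refine le_trans (Real.exp_le_exp.2 ?_) (exp_le_inert_two hX0 (X_le hp hs))
      nlinarith [sq_nonneg ((p : ℝ) ^ (-s))]
    · rw [h4, Set.indicator_of_notMem hA]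
      refine le_trans (Real.exp_le_exp.2 ?_) (exp_le_inert_zero hX0 (X_le hp hs))
      nlinarith [sq_nonneg ((p : ℝ) ^ (-s))]
  · exact absurd h3' h3

end loc

theorem rpow_pow_eq {p : ℕ} (k : ℕ) (s : ℝ) :
    (((p ^ k : ℕ) : ℝ)) ^ (-s) = ((p : ℝ) ^ (-s)) ^ k := by
  rw [Nat.cast_pow, ← Real.rpow_natCast, ← Real.rpow_natCast, ← Real.rpow_mul (Nat.cast_nonneg p),
    ← Real.rpow_mul (Nat.cast_nonneg p), mul_comm]

theorem summable_rpow (hs : 1 < s) : Summable fun n : ℕ => (n : ℝ) ^ (-s) :=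
  Real.summable_nat_rpow.2 (by linarith)

section glob

variable (h : AsaiHyp M a l l' T A1 A2)

include h

theorem mul' (s : ℝ) (m n : ℕ) (hc : Nat.Coprime m n) :
    a (m * n) * ((m * n : ℕ) : ℝ) ^ (-s) = (a m * (m : ℝ) ^ (-s)) * (a n * (n : ℝ) ^ (-s)) := by
  rw [h.mul m n hc, Nat.cast_mul, Real.mul_rpow (Nat.cast_nonneg m) (Nat.cast_nonneg n)]
  ring

/-- **Absolute convergence.** -/
theorem summable_series (hs : 1 < s) (hW : Summable ((spl T).indicator (mass l l' s))) :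
    Summable fun n : ℕ => ‖a n‖ * (n : ℝ) ^ (-s) := by
  classical
  set W := (spl T).indicator (mass l l' s) with hWdef
  have hW0 : ∀ p, 0 ≤ W p := fun p => Set.indicator_nonneg (fun p _ => mass_nonneg l l' s p) p
  set B := ∑' p, W p with hB
  have hWB : ∀ p, W p ≤ B := fun p => hW.le_tsum p fun q _ => hW0 q
  -- the exceptional local sums
  let c : ℕ → ℝ := fun p => if p ∈ insert 3 T then
    |∑' k : ℕ, |a (p ^ k)| * ((p : ℝ) ^ (-s)) ^ k| else 0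
  have hc0 : ∀ p, 0 ≤ c p := fun p => by
    simp only [c]
    split_ifs
    · exact abs_nonneg _
    · exact le_rfl
  have hcs : Summable c := summable_of_ne_finset_zero (s := insert 3 T) fun p hp => if_neg hp
  have hX : Summable fun n : ℕ => (n : ℝ) ^ (-s) := summable_rpow hs
  refine summable_of_local (g := fun n : ℕ => ‖a n‖ * (n : ℝ) ^ (-s))
    (E := fun p => c p + (8 * (p : ℝ) ^ (-s) + Real.exp B * W p)) ?_ ?_ ?_ ?_ ?_ ?_ ?_ ?_
  · simp [h.a1]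
  · simp [h.a0]
  · intro m n hmn
    rw [h.mul m n hmn, norm_mul, Nat.cast_mul, Real.mul_rpow (Nat.cast_nonneg m)
      (Nat.cast_nonneg n)]
    ring
  · intro n
    exact mul_nonneg (norm_nonneg _) (Real.rpow_nonneg (Nat.cast_nonneg n) _)
  · intro p hp
    refine (h.loc_summable hp hs).congr fun k => ?_
    rw [rpow_pow_eq, Real.norm_eq_abs]
  · intro p hp
    have e : ∑' k : ℕ, ‖a (p ^ k)‖ * (((p ^ k : ℕ) : ℝ)) ^ (-s) =
        ∑' k : ℕ, |a (p ^ k)| * ((p : ℝ) ^ (-s)) ^ k := by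
      refine tsum_congr fun k => ?_
      rw [rpow_pow_eq, Real.norm_eq_abs]
    rw [e]
    have hE0 : 0 ≤ 8 * (p : ℝ) ^ (-s) + Real.exp B * W p :=
      add_nonneg (mul_nonneg (by norm_num) (X_pos hp).le) (mul_nonneg (Real.exp_pos B).le (hW0 p))
    by_cases hpT : p ∈ insert 3 T
    · simp only [c, if_pos hpT]
      have := le_abs_self (∑' k : ℕ, |a (p ^ k)| * ((p : ℝ) ^ (-s)) ^ k)
      linarith
    · have hpT' : p ∉ T := fun hc => hpT (Finset.mem_insert_of_mem hc)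
      have hp3 : p ≠ 3 := fun hc => hpT (hc ▸ Finset.mem_insert_self _ _)
      have := h.loc_abs_le hp hpT' hp3 hs (hWB p)
      linarith [hc0 p]
  · intro p
    exact add_nonneg (hc0 p) (add_nonneg (mul_nonneg (by norm_num)
      (Real.rpow_nonneg (Nat.cast_nonneg p) _)) (mul_nonneg (Real.exp_pos B).le (hW0 p)))
  · exact hcs.add ((hX.mul_left 8).add (hW.mul_left _))

/-- **Lower bound of the series.** -/
theorem exists_lower : ∃ K : ℝ, ∀ s : ℝ, 1 < s → Summable ((spl T).indicator (mass l l' s)) →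
    Real.exp (K + 8 * (∑' p, A1.indicator (fun p : ℕ => (p : ℝ) ^ (-s)) p) +
      2 * (∑' p, A2.indicator (fun p : ℕ => (p : ℝ) ^ (-s)) p) -
      (∑' p, (spl T).indicator (mass l l' s) p) / 2) ≤ ∑' n : ℕ, a n * (n : ℝ) ^ (-s) := by
  classical
  have hex : ∀ p : ℕ, ∃ c : ℝ, p.Prime → 0 < c ∧ ∀ s : ℝ, 1 < s →
      c ≤ ∑' k : ℕ, a (p ^ k) * ((p : ℝ) ^ (-s)) ^ k := by
    intro p
    by_cases hp : p.Prime
    · obtain ⟨c, hc⟩ := h.exists_loc_lower hp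
      exact ⟨c, fun _ => hc⟩
    · exact ⟨0, fun hp' => absurd hp' hp⟩
  choose c hc using hex
  let κ : ℕ → ℝ := fun p => if p ∈ insert 3 T ∧ p.Prime then -|Real.log (c p)| else 0
  have hκs : Summable κ := summable_of_ne_finset_zero (s := insert 3 T) fun p hp =>
    if_neg fun hcc => hp hcc.1
  have h2s : Summable fun n : ℕ => (n : ℝ) ^ (-2 : ℝ) := summable_rpow (by norm_num)
  refine ⟨∑' p, κ p - 2 * ∑' n : ℕ, (n : ℝ) ^ (-2 : ℝ), fun s hs hW => ?_⟩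
  have hX : Summable fun n : ℕ => (n : ℝ) ^ (-s) := summable_rpow hs
  have hXnn : ∀ n : ℕ, 0 ≤ (n : ℝ) ^ (-s) := fun n => Real.rpow_nonneg (Nat.cast_nonneg n) _
  have h1s : Summable (A1.indicator (fun p : ℕ => (p : ℝ) ^ (-s))) := hX.indicator _
  have h2s' : Summable (A2.indicator (fun p : ℕ => (p : ℝ) ^ (-s))) := hX.indicator _
  set W := (spl T).indicator (mass l l' s) with hWdef
  have hW0 : ∀ p, 0 ≤ W p := fun p => Set.indicator_nonneg (fun p _ => mass_nonneg l l' s p) p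
  let P2 : ℕ → ℝ := {p : ℕ | p.Prime}.indicator fun p : ℕ => (p : ℝ) ^ (-2 : ℝ)
  have hP2 : Summable P2 := h2s.indicator _
  have hP2le : ∑' n, P2 n ≤ ∑' n : ℕ, (n : ℝ) ^ (-2 : ℝ) := by
    refine hP2.tsum_le_tsum (fun n => ?_) h2s
    exact Set.indicator_le_self' (fun n _ => Real.rpow_nonneg (Nat.cast_nonneg n) _) n
  let g : ℕ → ℝ := fun p => κ p - 2 * P2 p + 8 * A1.indicator (fun p : ℕ => (p : ℝ) ^ (-s)) p +
    2 * A2.indicator (fun p : ℕ => (p : ℝ) ^ (-s)) p - W p / 2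
  have hg : Summable g :=
    (((hκs.sub (hP2.mul_left 2)).add (h1s.mul_left 8)).add (h2s'.mul_left 2)).sub (hW.div_const 2)
  have hgsum : ∑' p, g p = ∑' p, κ p - 2 * ∑' p, P2 p +
      8 * (∑' p, A1.indicator (fun p : ℕ => (p : ℝ) ^ (-s)) p) +
      2 * (∑' p, A2.indicator (fun p : ℕ => (p : ℝ) ^ (-s)) p) - (∑' p, W p) / 2 := by
    simp only [g]
    rw [Summable.tsum_sub (((hκs.sub (hP2.mul_left 2)).add (h1s.mul_left 8)).add
        (h2s'.mul_left 2)) (hW.div_const 2),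
      Summable.tsum_add ((hκs.sub (hP2.mul_left 2)).add (h1s.mul_left 8)) (h2s'.mul_left 2),
      Summable.tsum_add (hκs.sub (hP2.mul_left 2)) (h1s.mul_left 8),
      Summable.tsum_sub hκs (hP2.mul_left 2), tsum_mul_left, tsum_mul_left, tsum_mul_left,
      tsum_div_const]
  have hser := h.summable_series hs hW
  have key := exp_le_tsum_of_local (f := fun n : ℕ => a n * (n : ℝ) ^ (-s)) (g := g)
    (by simp [h.a1]) (by simp [h.a0]) (h.mul' s)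
    (hser.congr fun n => by
      rw [norm_mul, Real.norm_of_nonneg (hXnn n)]) hg ?_ ?_
  · refine le_trans (Real.exp_le_exp.2 ?_) key
    rw [hgsum]
    linarith
  · intro p hp
    have e : ∑' k : ℕ, a (p ^ k) * (((p ^ k : ℕ) : ℝ)) ^ (-s) =
        ∑' k : ℕ, a (p ^ k) * ((p : ℝ) ^ (-s)) ^ k := by
      refine tsum_congr fun k => ?_
      rw [rpow_pow_eq]
    rw [e]
    have hP2p : P2 p = (p : ℝ) ^ (-2 : ℝ) := Set.indicator_of_mem (show p ∈ {p : ℕ | p.Prime} from hp) _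
    have hX2 := X_sq_le (s := s) hp hs
    by_cases hpT : p ∈ insert 3 T
    · obtain ⟨hc0, hc1⟩ := hc p hp
      refine le_trans ?_ (hc1 s hs)
      rw [← Real.exp_log hc0]
      refine Real.exp_le_exp.2 ?_
      have hκ : κ p = -|Real.log (c p)| := if_pos ⟨hpT, hp⟩
      have hn1 : p ∉ A1 := fun hcc => by
        obtain ⟨-, h1, h2, -⟩ := h.hA1 p hcc
        rcases Finset.mem_insert.1 hpT with h3 | h3
        · subst h3; omega
        · exact h2 h3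
      have hn2 : p ∉ A2 := fun hcc => by
        obtain ⟨-, h1, h2, -⟩ := h.hA2 p hcc
        rcases Finset.mem_insert.1 hpT with h3 | h3
        · subst h3; omega
        · exact h2 h3
      simp only [g]
      rw [hκ, Set.indicator_of_notMem hn1, Set.indicator_of_notMem hn2, hP2p]
      have := neg_abs_le (Real.log (c p))
      have h5 : 0 ≤ (p : ℝ) ^ (-2 : ℝ) := Real.rpow_nonneg (Nat.cast_nonneg p) _
      linarith [hW0 p]
    · have hpT' : p ∉ T := fun hc => hpT (Finset.mem_insert_of_mem hc)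
      have hp3 : p ≠ 3 := fun hc => hpT (hc ▸ Finset.mem_insert_self _ _)
      refine le_trans (Real.exp_le_exp.2 ?_) (h.loc_lower hp hpT' hp3 hs)
      have hκ : κ p = 0 := if_neg fun hcc => hpT hcc.1
      simp only [g]
      rw [hκ, hP2p]
      linarith
  · intro n hn
    have hn1 : n ∉ A1 := fun hcc => hn (h.hA1 n hcc).1
    have hn2 : n ∉ A2 := fun hcc => hn (h.hA2 n hcc).1
    have hn3 : n ∉ spl T := fun hcc => hn hcc.1
    have hκ : κ n = 0 := if_neg fun hcc => hn hcc.2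
    have hP : P2 n = 0 := Set.indicator_of_notMem (show n ∉ {p : ℕ | p.Prime} from hn) _
    simp only [g]
    rw [hκ, hP, Set.indicator_of_notMem hn1, Set.indicator_of_notMem hn2, hWdef,
      Set.indicator_of_notMem hn3]
    ring

end glob

end AsaiHyp

end Fermat.Agent.LT.H5.Asai

namespace Fermat.Agent.LT.H5

open Fermat.Agent.LT.H.Local Asai

/-- **The Asai series**: absolutely convergent for `s > 1` and unbounded near `1`. -/
theorem asai_end {M : ℕ} {a : ℕ → ℝ} {l l' : ℕ → ℝ} (a0 : a 0 = 0) (a1 : a 1 = 1)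
    (mul : ∀ m n, Nat.Coprime m n → a (m * n) = a m * a n)
    (bad : ∀ p : ℕ, p.Prime → p ∣ M → ∀ k : ℕ, a (p ^ (k + 1)) = 0)
    (split : ∀ p : ℕ, p.Prime → ¬ p ∣ M → p % 3 = 1 → ∀ k : ℕ, a (p ^ k) = U (l p) k * U (l' p) k)
    (inert : ∀ p : ℕ, p.Prime → ¬ p ∣ M → p % 3 = 2 → ∀ k : ℕ, a (p ^ k) = U (l p) k)
    (three : ¬ 3 ∣ M → ∀ k : ℕ, a (3 ^ k) = U (l 3) (2 * k))
    (bd1 : ∀ p : ℕ, p.Prime → ¬ p ∣ M → p % 3 = 1 →
      |l p| ≤ √(p : ℝ) + (√(p : ℝ))⁻¹ ∧ |l' p| ≤ √(p : ℝ) + (√(p : ℝ))⁻¹)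
    (bd2 : ∀ p : ℕ, p.Prime → ¬ p ∣ M → p % 3 = 2 → |l p| ≤ p + (p : ℝ)⁻¹)
    (bd3 : ¬ 3 ∣ M → |l 3| ≤ √3 + (√3)⁻¹)
    (T : Finset ℕ) (hT : ∀ p : ℕ, p.Prime → p ∣ M → p ∈ T)
    (R1 : ∃ C, ∀ s ∈ Set.Ioc (1 : ℝ) 2,
      Summable (fun p : {p : ℕ // p.Prime ∧ p % 3 = 1 ∧ p ∉ T} =>
        S (l p) (l p) (((p : ℕ) : ℝ) ^ (-s)) + S (l' p) (l' p) (((p : ℕ) : ℝ) ^ (-s))) ∧
      ∑' p : {p : ℕ // p.Prime ∧ p % 3 = 1 ∧ p ∉ T},
        (S (l p) (l p) (((p : ℕ) : ℝ) ^ (-s)) + S (l' p) (l' p) (((p : ℕ) : ℝ) ^ (-s))) ≤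
          Real.log (1 / (s - 1)) + C)
    (A1 A2 : Set ℕ) (hA1 : ∀ p ∈ A1, p.Prime ∧ p % 3 = 1 ∧ p ∉ T ∧ l p = l' p ∧ l p ^ 2 = 4)
    (hA2 : ∀ p ∈ A2, p.Prime ∧ p % 3 = 2 ∧ p ∉ T ∧ l p = 2)
    (hA3 : ∀ p : ℕ, p.Prime → p % 3 = 2 → p ∉ T → p ∉ A2 → l p = 0)
    (D1 : Tendsto (fun s : ℝ => (∑' p : A1, ((p : ℕ) : ℝ) ^ (-s)) / Real.log (1 / (s - 1)))
      (𝓝[>] 1) (𝓝 (1 / 24)))
    (D2 : Tendsto (fun s : ℝ => (∑' p : A2, ((p : ℕ) : ℝ) ^ (-s)) / Real.log (1 / (s - 1)))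
      (𝓝[>] 1) (𝓝 (1 / 4))) :
    (∀ s ∈ Set.Ioc (1 : ℝ) 2, Summable fun n : ℕ => ‖a n‖ * (n : ℝ) ^ (-s)) ∧
      ∀ C : ℝ, ∃ s ∈ Set.Ioc (1 : ℝ) 2, C < ∑' n : ℕ, a n * (n : ℝ) ^ (-s) := by
  have h : AsaiHyp M a l l' T A1 A2 :=
    ⟨a0, a1, mul, bad, split, inert, three, bd1, bd2, bd3, hT, hA1, hA2, hA3⟩
  obtain ⟨C1, hC1⟩ := R1
  have hW : ∀ s ∈ Set.Ioc (1 : ℝ) 2, Summable ((spl T).indicator (mass l l' s)) ∧
      ∑' p, (spl T).indicator (mass l l' s) p ≤ Real.log (1 / (s - 1)) + C1 := by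
    intro s hs
    obtain ⟨h1, h2⟩ := hC1 s hs
    refine ⟨summable_subtype_iff_indicator.1 h1, ?_⟩
    rw [← tsum_subtype]
    exact h2
  refine ⟨fun s hs => h.summable_series hs.1 (hW s hs).1, fun C => ?_⟩
  obtain ⟨K, hK⟩ := h.exists_lower
  have hL := Fermat.Agent.LT.H.Unique.tendsto_log_pole
  have e1 : ∀ᶠ s : ℝ in 𝓝[>] 1, 1 < s := self_mem_nhdsWithin
  have e2 : ∀ᶠ s : ℝ in 𝓝[>] 1, s ≤ 2 :=
    mem_nhdsWithin_of_mem_nhds (Iic_mem_nhds (by norm_num))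
  have e3 := D1.eventually_const_le (show (1 : ℝ) / 48 < 1 / 24 by norm_num)
  have e4 := D2.eventually_const_le (show (11 : ℝ) / 48 < 1 / 4 by norm_num)
  have e5 := hL.eventually_gt_atTop 0
  have e6 := hL.eventually_gt_atTop (8 * (Real.log (max C 1) - K + C1 / 2))
  obtain ⟨s, h1, h2, h3, h4, h5, h6⟩ :=
    (e1.and (e2.and (e3.and (e4.and (e5.and e6))))).exists
  refine ⟨s, ⟨h1, h2⟩, ?_⟩
  obtain ⟨hw1, hw2⟩ := hW s ⟨h1, h2⟩
  refine lt_of_lt_of_le ?_ (hK s h1 hw1)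
  rw [le_div_iff₀ h5, tsum_subtype A1 (fun p : ℕ => (p : ℝ) ^ (-s))] at h3
  rw [le_div_iff₀ h5, tsum_subtype A2 (fun p : ℕ => (p : ℝ) ^ (-s))] at h4
  have h7 : Real.log (max C 1) < K + 8 * (∑' p, A1.indicator (fun p : ℕ => (p : ℝ) ^ (-s)) p) +
      2 * (∑' p, A2.indicator (fun p : ℕ => (p : ℝ) ^ (-s)) p) -
      (∑' p, (spl T).indicator (mass l l' s) p) / 2 := by
    linarith
  calc C ≤ max C 1 := le_max_left _ _
    _ = Real.exp (Real.log (max C 1)) :=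
        (Real.exp_log (lt_of_lt_of_le one_pos (le_max_right _ _))).symm
    _ < _ := Real.exp_lt_exp.2 h7

end Fermat.Agent.LT.H5
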