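import Fermat.Agent.LT.J.EisField
import Fermat.Agent.LT.H5.Mult
import Fermat.Agent.LT.H.Unique
import Fermat.Agent.LT.Top.Iface
import Fermat.Agent.LT.B.CuspEig
import Fermat.Agent.LT.K.DensL

/-!
LT piece H5 (helper70): bounds for the eigenvalues at the places of `ℚ(ω)`, and the transfer of the
Rankin–Selberg bound (R1) from the places of `ℚ(ω)` to the primes `p ≡ 1 mod 3`.
-/

set_option autoImplicit false

open NumberField IsDedekindDomain Matrix Filter Topology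

namespace Fermat.Agent.LT.H5

open Fermat.LT Fermat.Agent.LT.J Fermat.Agent.LT.J.QE Fermat.Agent.LT.H.Euler
  Fermat.Agent.LT.H.Local Fermat.Agent.LT.H.Unique

/-! ### Prime elements of `ℤ[ω]` -/

/-- the two prime elements of norm `p ≠ 3` are not associated -/
theorem not_dvd_star {π : EO} {p : ℕ} (hp : p.Prime) (h3 : p ≠ 3) (h : QE.nm π = (p : ℤ)) :
    ¬ π ∣ star π := by
  have : Fact p.Prime := ⟨hp⟩
  let D : HK.SplitPrime p := ⟨π, h3, h⟩
  rintro ⟨y, hy⟩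
  apply D.red_star_pi
  change D.red (star π) = 0
  rw [hy, map_mul]
  have : D.red π = 0 := D.red_pi
  rw [this, zero_mul]

/-! ### Bounds for the eigenvalues -/

section bounds

variable {F : Type} [Field F] [NumberField F] {D : Datum F} {lam : Pl F → ℝ} {φ : X D → ℂ}

/-- the trivial bound for the eigenvalue at a good place -/
theorem abs_lam_le (h : Top.EForm D lam φ) {w : Pl F} (hw : D.n w = 0) :
    |lam w| ≤ Real.sqrt (qv w) + (Real.sqrt (qv w))⁻¹ := by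
  have h1 := h.eig.norm_lam_le' h.cusp.bounded h.ne (w := w) hw hw
  rw [Complex.norm_real, Real.norm_eq_abs] at h1
  refine h1.trans (le_of_eq ?_)
  have h2 := CTree.sq_pos w
  have h3 := CTree.sq_sq w
  have h4 : (CTree.qn w : ℝ) = CTree.sq w ^ 2 := by rw [h3, CTree.qv_eq]
  rw [h4]
  change _ = CTree.sq w + (CTree.sq w)⁻¹
  field_simp

variable (E : Eis3 D) {M : ℕ} {lamE : EO → ℝ}

theorem good_of_coprime (hM : Top.LevelDvd D M) {π : EO} (hπ : Prime π)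
    (h : IsCoprime (QE.nm π) (M : ℤ)) : D.n (E.plc π hπ) = 0 :=
  hM.good _ (not_mem_pm.mp (E.plc_notMem_pm π hπ h))

theorem isCoprime_of_prime {p : ℕ} (hp : p.Prime) (h : ¬ p ∣ M) : IsCoprime (p : ℤ) (M : ℤ) := by
  rw [Nat.isCoprime_iff_coprime]
  exact (Nat.Prime.coprime_iff_not_dvd hp).2 h

/-- (bd1) -/
theorem abs_lamE_split (h : Top.EForm D lam φ) (hM : Top.LevelDvd D M)
    (hE : ∀ (π : EO) (hπ : Prime π), lamE π = lam (E.plc π hπ)) {p : ℕ} (hp : p.Prime)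
    (hpM : ¬ p ∣ M) {π : EO} (hπ : QE.nm π = (p : ℤ)) :
    |lamE π| ≤ Real.sqrt p + (Real.sqrt p)⁻¹ := by
  have hP := prime_of_nm hp hπ
  have h1 := abs_lam_le h (good_of_coprime E hM hP (by rw [hπ]; exact isCoprime_of_prime hp hpM))
  rw [← hE, E.qv_plc, hπ] at h1
  exact_mod_cast h1

/-- (bd2) -/
theorem abs_lamE_inert (h : Top.EForm D lam φ) (hM : Top.LevelDvd D M)
    (hE : ∀ (π : EO) (hπ : Prime π), lamE π = lam (E.plc π hπ)) {p : ℕ} (hp : p.Prime)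
    (hpM : ¬ p ∣ M) (h3 : p % 3 = 2) : |lamE (p : EO)| ≤ p + (p : ℝ)⁻¹ := by
  have hP := prime_of_mod_two hp h3
  have h1 := abs_lam_le h (good_of_coprime E hM hP (by
    rw [nm_natCast]; exact (isCoprime_of_prime hp hpM).pow_left))
  rw [← hE, E.qv_plc, nm_natCast] at h1
  have h2 : Real.sqrt (((p : ℤ) ^ 2 : ℤ) : ℝ) = p := by
    push_cast
    exact Real.sqrt_sq (Nat.cast_nonneg p)
  rwa [h2] at h1

/-- (bd3) -/
theorem abs_lamE_three (h : Top.EForm D lam φ) (hM : Top.LevelDvd D M)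
    (hE : ∀ (π : EO) (hπ : Prime π), lamE π = lam (E.plc π hπ)) (hpM : ¬ 3 ∣ M) :
    |lamE (QE.th : EO)| ≤ Real.sqrt 3 + (Real.sqrt 3)⁻¹ := by
  have := abs_lamE_split E h hM hE Nat.prime_three hpM nm_th
  exact_mod_cast this

end bounds

/-! ### The Rankin–Selberg bound for the logarithms -/

section abstractR

variable {P : Type*} {q l : P → ℝ}

theorem sum_S_self_le (hq : ∀ v, 2 ≤ q v) (hl : Bdd q l)
    (hsum : ∀ s : ℝ, 1 < s → Summable fun v => q v ^ (-s)) {C : ℝ}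
    (hR : ∀ s ∈ Set.Ioc (1 : ℝ) 2, (Summable fun n => ‖LS q (fun _ => 1) l l s n‖) ∧
      ‖∑' n, LS q (fun _ => 1) l l s n‖ ≤ C / (s - 1)) :
    ∃ C' : ℝ, ∀ s ∈ Set.Ioc (1 : ℝ) 2, (Summable fun v => S (l v) (l v) (q v ^ (-s))) ∧
      ∑' v, S (l v) (l v) (q v ^ (-s)) ≤ Real.log (1 / (s - 1)) + C' := by
  refine ⟨Real.log C + 2 * ∑' v, q v ^ (-2 : ℝ), fun s hs => ?_⟩
  have hs1 : 1 < s := hs.1
  obtain ⟨h1, h2⟩ := hR s hs
  have hc : ∀ v : P, ‖(fun _ : P => (1 : ℂ)) v‖ = 1 := fun v => by simp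
  have hS := summable_S_self hq hs1 hl (hsum s hs1) hc h1
  refine ⟨hS, ?_⟩
  set f : P → ℕ → ℝ := fun v k => U (l v) k * U (l v) k * (q v ^ (-s)) ^ k with hf
  have hX0 : ∀ v, 0 ≤ q v ^ (-s) := fun v => (X_pos hq v s).le
  have hf0 : ∀ v k, 0 ≤ f v k := fun v k =>
    mul_nonneg (mul_self_nonneg _) (pow_nonneg (hX0 v) k)
  have hLS : ∀ n, LS q (fun _ => 1) l l s n = ((mulF f n : ℝ) : ℂ) := by
    intro n
    unfold LS mulF Finsupp.prod
    push_cast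
    refine Finset.prod_congr rfl fun v _ => ?_
    simp only [hf]
    push_cast
    ring
  have hmn : ∀ n, 0 ≤ mulF f n := fun n => mulF_nonneg hf0 n
  have hf1 : Summable (mulF f) := by
    refine h1.congr fun n => ?_
    rw [hLS, Complex.norm_real, Real.norm_of_nonneg (hmn n)]
  obtain ⟨hR1, hR2, hR3⟩ := real_log (f := f) (fun v => by simp [hf]) hf0 hf1
  have hX : ∀ v, Real.log (∑' k, f v k) =
      Real.log (1 - (q v ^ (-s)) ^ 2) + S (l v) (l v) (q v ^ (-s)) := by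
    intro v
    have h2 := R_real (one_le_sqrt hq v) (hl v) (one_le_sqrt hq v) (hl v) (X_pos hq v s).le
      (sqrt_mul_X_lt hq v hs1)
    have h3 : R (l v) (l v) ((q v ^ (-s) : ℝ) : ℂ) = ((∑' k, f v k : ℝ) : ℂ) := by
      rw [R, Complex.ofReal_tsum]
      refine tsum_congr fun k => ?_
      simp only [hf]
      push_cast
      ring
    rw [h3] at h2
    rw [Complex.ofReal_inj.1 h2, Real.log_exp]
  have hX2 : ∀ v, (q v ^ (-s)) ^ 2 ≤ q v ^ (-2 : ℝ) := by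
    intro v
    have h0 : 0 < q v := by linarith [hq v]
    rw [← Real.rpow_natCast, ← Real.rpow_mul h0.le]
    exact Real.rpow_le_rpow_of_exponent_le (by linarith [hq v]) (by push_cast; linarith)
  have hlb : ∀ v, |Real.log (1 - (q v ^ (-s)) ^ 2)| ≤ 2 * q v ^ (-2 : ℝ) := fun v => by
    have h5 := X_le_half hq v hs1
    exact (abs_log_one_sub_le (sq_nonneg _) (by nlinarith [hX0 v])).trans (by linarith [hX2 v])
  have hsum2 : Summable fun v => q v ^ (-2 : ℝ) := hsum 2 (by norm_num)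
  have hlog : Summable fun v => Real.log (1 - (q v ^ (-s)) ^ 2) :=
    Summable.of_norm_bounded (hsum2.mul_left 2) hlb
  -- the total
  have htot : ∑' n, mulF f n ≤ C / (s - 1) := by
    have h6 : ∑' n, LS q (fun _ => 1) l l s n = ((∑' n, mulF f n : ℝ) : ℂ) := by
      rw [Complex.ofReal_tsum]
      exact tsum_congr hLS
    rw [h6, Complex.norm_real, Real.norm_of_nonneg (tsum_nonneg hmn)] at h2
    exact h2
  have hone : 1 ≤ ∑' n, mulF f n := by
    have := hf1.le_tsum 0 fun n _ => hmn n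
    rwa [mulF_zero] at this
  have hs0 : 0 < s - 1 := by linarith
  have hCpos : 0 < C := by
    have h7 : 0 < C / (s - 1) := by linarith
    by_contra hneg
    push Not at hneg
    have := div_nonpos_of_nonpos_of_nonneg hneg hs0.le
    linarith
  have h8 : ∑' v, Real.log (∑' k, f v k) ≤ Real.log C + Real.log (1 / (s - 1)) := by
    rw [← Real.log_mul hCpos.ne' (by positivity), ← Real.exp_le_exp, hR3,
      Real.exp_log (by positivity)]
    refine htot.trans (le_of_eq ?_)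
    ring
  have h9 : ∑' v, S (l v) (l v) (q v ^ (-s)) =
      ∑' v, Real.log (∑' k, f v k) - ∑' v, Real.log (1 - (q v ^ (-s)) ^ 2) := by
    rw [← hR2.tsum_sub hlog]
    refine tsum_congr fun v => ?_
    rw [hX v]; ring
  have h10 : -∑' v, Real.log (1 - (q v ^ (-s)) ^ 2) ≤ 2 * ∑' v, q v ^ (-2 : ℝ) := by
    rw [← tsum_neg, ← tsum_mul_left]
    refine Summable.tsum_le_tsum (fun v => ?_) hlog.neg (hsum2.mul_left 2)
    have := abs_le.1 (hlb v)
    linarith [this.1]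
  rw [h9]
  linarith

end abstractR

/-! ### The transfer -/

section transfer

variable {F : Type} [Field F] [NumberField F] {D : Datum F} (E : Eis3 D)

/-- **Transfer of (R1)** to the primes `p ≡ 1 mod 3`. -/
theorem r1_transfer {lam : Pl F → ℝ} {S₀ : Finset (Pl F)}
    (hbd : ∀ w ∉ S₀, |lam w| ≤ Real.sqrt (qv w) + (Real.sqrt (qv w))⁻¹) {C : ℝ}
    (hR : ∀ s ∈ Set.Ioc (1 : ℝ) 2,
      (Summable fun n : {w : Pl F // w ∉ S₀} →₀ ℕ =>
        ‖LS (fun w => qv w.1) (fun _ => 1) (fun w => lam w.1) (fun w => lam w.1) s n‖) ∧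
      ‖∑' n : {w : Pl F // w ∉ S₀} →₀ ℕ,
        LS (fun w => qv w.1) (fun _ => 1) (fun w => lam w.1) (fun w => lam w.1) s n‖ ≤
          C / (s - 1))
    {ϖ : ℕ → EO} (hϖ : ∀ p : ℕ, p.Prime → p % 3 = 1 → QE.nm (ϖ p) = (p : ℤ))
    {lamE : EO → ℝ} (hE : ∀ (π : EO) (hπ : Prime π), lamE π = lam (E.plc π hπ))
    (T : Finset ℕ) (hT : ∀ w ∈ S₀, Ideal.absNorm w.asIdeal ∈ T) :
    ∃ C' : ℝ, ∀ s ∈ Set.Ioc (1 : ℝ) 2,
      (Summable fun p : {p : ℕ // p.Prime ∧ p % 3 = 1 ∧ p ∉ T} =>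
        S (lamE (ϖ p)) (lamE (ϖ p)) ((p : ℝ) ^ (-s)) +
          S (lamE (star (ϖ p))) (lamE (star (ϖ p))) ((p : ℝ) ^ (-s))) ∧
      ∑' p : {p : ℕ // p.Prime ∧ p % 3 = 1 ∧ p ∉ T},
        (S (lamE (ϖ p)) (lamE (ϖ p)) ((p : ℝ) ^ (-s)) +
          S (lamE (star (ϖ p))) (lamE (star (ϖ p))) ((p : ℝ) ^ (-s))) ≤
        Real.log (1 / (s - 1)) + C' := by
  classical
  obtain ⟨C', hC'⟩ := sum_S_self_le (q := fun w : {w : Pl F // w ∉ S₀} => qv w.1)
    (l := fun w => lam w.1) (fun v => K.two_le_qv v.1) (fun v => hbd v.1 v.2)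
    (fun s hs => K.summable_out S₀ hs) hR
  refine ⟨C', fun s hs => ?_⟩
  obtain ⟨h1, h2⟩ := hC' s hs
  set Q := {p : ℕ // p.Prime ∧ p % 3 = 1 ∧ p ∉ T} with hQ
  have hn1 : ∀ p : Q, QE.nm (ϖ p) = ((p : ℕ) : ℤ) := fun p => hϖ p p.2.1 p.2.2.1
  have hn2 : ∀ p : Q, QE.nm (star (ϖ p)) = ((p : ℕ) : ℤ) := fun p => by rw [nm_star]; exact hn1 p
  have hP1 : ∀ p : Q, Prime (ϖ p) := fun p => prime_of_nm p.2.1 (hn1 p)
  have hP2 : ∀ p : Q, Prime (star (ϖ p)) := fun p => prime_of_nm p.2.1 (hn2 p)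
  have hqv1 : ∀ p : Q, qv (E.plc _ (hP1 p)) = (p : ℕ) := fun p => by
    rw [E.qv_plc, hn1]; norm_cast
  have hqv2 : ∀ p : Q, qv (E.plc _ (hP2 p)) = (p : ℕ) := fun p => by
    rw [E.qv_plc, hn2]; norm_cast
  have hnot : ∀ (w : Pl F) (p : Q), qv w = (p : ℕ) → w ∉ S₀ := by
    intro w p hw hmem
    have h3 := hT w hmem
    have h4 : Ideal.absNorm w.asIdeal = (p : ℕ) := by
      rw [qv] at hw; exact_mod_cast hw
    rw [h4] at h3
    exact p.2.2.2 h3
  let i1 : Q → {w : Pl F // w ∉ S₀} := fun p => ⟨E.plc _ (hP1 p), hnot _ p (hqv1 p)⟩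
  let i2 : Q → {w : Pl F // w ∉ S₀} := fun p => ⟨E.plc _ (hP2 p), hnot _ p (hqv2 p)⟩
  have hinj1 : Function.Injective i1 := by
    intro p p' h
    have h3 : E.plc _ (hP1 p) = E.plc _ (hP1 p') := congrArg Subtype.val h
    have h4 := hqv1 p
    rw [h3, hqv1 p'] at h4
    exact Subtype.ext (by exact_mod_cast h4.symm)
  have hinj2 : Function.Injective i2 := by
    intro p p' h
    have h3 : E.plc _ (hP2 p) = E.plc _ (hP2 p') := congrArg Subtype.val h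
    have h4 := hqv2 p
    rw [h3, hqv2 p'] at h4
    exact Subtype.ext (by exact_mod_cast h4.symm)
  have hne : ∀ p p', i1 p ≠ i2 p' := by
    intro p p' h
    have h3 : E.plc _ (hP1 p) = E.plc _ (hP2 p') := congrArg Subtype.val h
    have h4 := hqv1 p
    rw [h3, hqv2 p'] at h4
    have h5 : p' = p := Subtype.ext (by exact_mod_cast h4)
    subst h5
    have h6 : (E.plc _ (hP1 p')).asIdeal = (E.plc _ (hP2 p')).asIdeal := by rw [h3]
    rw [E.plc_asIdeal, E.plc_asIdeal] at h6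
    have h7 : E.eO (star (ϖ p')) ∈ Ideal.span {E.eO (ϖ p')} := by
      rw [h6]; exact Ideal.mem_span_singleton_self _
    rw [Ideal.mem_span_singleton, map_dvd_iff] at h7
    refine not_dvd_star p'.2.1 ?_ (hn1 p') h7
    intro h8
    have := p'.2.2.1
    rw [h8] at this
    omega
  have hinj : Function.Injective (Sum.elim i1 i2) := hinj1.sumElim hinj2 hne
  set g : {w : Pl F // w ∉ S₀} → ℝ := fun w => S (lam w.1) (lam w.1) (qv w.1 ^ (-s)) with hg
  have hg0 : ∀ w, 0 ≤ g w := fun w =>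
    S_self_nonneg _ (Real.rpow_nonneg (qv_pos w.1).le _)
  have e1 : ∀ p : Q, g (i1 p) = S (lamE (ϖ p)) (lamE (ϖ p)) ((p : ℝ) ^ (-s)) := fun p => by
    simp only [hg, i1]
    rw [← hE, hqv1]
  have e2 : ∀ p : Q, g (i2 p) = S (lamE (star (ϖ p))) (lamE (star (ϖ p))) ((p : ℝ) ^ (-s)) :=
    fun p => by
      simp only [hg, i2]
      rw [← hE, hqv2]
  have s1 : Summable fun p => g (i1 p) := h1.comp_injective hinj1
  have s2 : Summable fun p => g (i2 p) := h1.comp_injective hinj2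
  have e3 : (fun p : Q => S (lamE (ϖ p)) (lamE (ϖ p)) ((p : ℝ) ^ (-s)) +
      S (lamE (star (ϖ p))) (lamE (star (ϖ p))) ((p : ℝ) ^ (-s))) =
      fun p => g (i1 p) + g (i2 p) := by
    funext p; rw [e1, e2]
  rw [e3]
  refine ⟨s1.add s2, ?_⟩
  have s3 : Summable fun x : Q ⊕ Q => g (Sum.elim i1 i2 x) := h1.comp_injective hinj
  have h3 : ∑' x : Q ⊕ Q, g (Sum.elim i1 i2 x) ≤ ∑' w, g w :=
    tsum_comp_le_tsum_of_inj h1 hg0 hinj
  have h4 : ∑' x : Q ⊕ Q, g (Sum.elim i1 i2 x) = ∑' p, g (i1 p) + ∑' p, g (i2 p) := by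
    rw [Summable.tsum_sum s1 s2]
    rfl
  rw [s1.tsum_add s2, ← h4]
  exact h3.trans h2

/-- (R1) in the form of `asai_end`: for every finite set containing `T₀`. -/
theorem r1_transfer' {lam : Pl F → ℝ} {S₀ : Finset (Pl F)}
    (hbd : ∀ w ∉ S₀, |lam w| ≤ Real.sqrt (qv w) + (Real.sqrt (qv w))⁻¹) {C : ℝ}
    (hR : ∀ s ∈ Set.Ioc (1 : ℝ) 2,
      (Summable fun n : {w : Pl F // w ∉ S₀} →₀ ℕ =>
        ‖LS (fun w => qv w.1) (fun _ => 1) (fun w => lam w.1) (fun w => lam w.1) s n‖) ∧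
      ‖∑' n : {w : Pl F // w ∉ S₀} →₀ ℕ,
        LS (fun w => qv w.1) (fun _ => 1) (fun w => lam w.1) (fun w => lam w.1) s n‖ ≤
          C / (s - 1))
    {ϖ : ℕ → EO} (hϖ : ∀ p : ℕ, p.Prime → p % 3 = 1 → QE.nm (ϖ p) = (p : ℤ))
    {lamE : EO → ℝ} (hE : ∀ (π : EO) (hπ : Prime π), lamE π = lam (E.plc π hπ)) :
    ∃ T₀ : Finset ℕ, ∀ T : Finset ℕ, T₀ ⊆ T → ∃ C' : ℝ, ∀ s ∈ Set.Ioc (1 : ℝ) 2,
      (Summable fun p : {p : ℕ // p.Prime ∧ p % 3 = 1 ∧ p ∉ T} =>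
        S (lamE (ϖ p)) (lamE (ϖ p)) ((p : ℝ) ^ (-s)) +
          S (lamE (star (ϖ p))) (lamE (star (ϖ p))) ((p : ℝ) ^ (-s))) ∧
      ∑' p : {p : ℕ // p.Prime ∧ p % 3 = 1 ∧ p ∉ T},
        (S (lamE (ϖ p)) (lamE (ϖ p)) ((p : ℝ) ^ (-s)) +
          S (lamE (star (ϖ p))) (lamE (star (ϖ p))) ((p : ℝ) ^ (-s))) ≤
        Real.log (1 / (s - 1)) + C' := by
  classical
  refine ⟨S₀.image fun w => Ideal.absNorm w.asIdeal, fun T hT => ?_⟩
  exact r1_transfer E hbd hR hϖ hE T fun w hw => hT (Finset.mem_image_of_mem _ hw)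

end transfer

end Fermat.Agent.LT.H5
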