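import Fermat.Agent.LT.H5.AsaiDens
import Fermat.Agent.LT.H5.ROneTr
import Fermat.Agent.LT.H.ROne

/-!
# LT piece H5: all the inputs of `asai_end`
(helper51, with helper70's `ROneTr`)
-/

set_option autoImplicit false

open Matrix NumberField IsDedekindDomain Filter Topology
open Fermat.LT Fermat.Agent.LT.D Fermat.Agent.LT.K Fermat.Agent.LT.J
open Fermat.Agent.LT.H.Local (U S)

namespace Fermat.Agent.LT.H5

/-- **All the inputs of `asai_end`** for a form `φ` on `R.K` with the eigenvalues `Compat`. -/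
theorem asai_inputs (R : Octa) {D : Datum R.K} (E : Eis3 D) {lam : Pl R.K → ℝ} {φ : X D → ℂ}
    (h : Top.EForm D lam φ) (hc : Top.Compat R D lam) {M : ℕ} (hM : M ≠ 0)
    (hlev : Top.LevelDvd D M) {ϖ : ℕ → EO}
    (hϖ : ∀ p : ℕ, p.Prime → p % 3 = 1 → QE.nm (ϖ p) = (p : ℤ)) {lamE : EO → ℝ}
    (hlamE : ∀ (π : EO) (hπ : Prime π), lamE π = lam (E.plc π hπ)) {l l' : ℕ → ℝ}
    (hl1 : ∀ p : ℕ, p.Prime → p % 3 = 1 → l p = lamE (ϖ p))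
    (hl2 : ∀ p : ℕ, p.Prime → p % 3 = 2 → l p = lamE (p : EO))
    (hl3 : l 3 = lamE QE.th)
    (hl' : ∀ p : ℕ, p.Prime → p % 3 = 1 → l' p = lamE (star (ϖ p))) :
    (∀ p : ℕ, p.Prime → ¬ p ∣ M → p % 3 = 1 →
      |l p| ≤ Real.sqrt p + (Real.sqrt p)⁻¹ ∧ |l' p| ≤ Real.sqrt p + (Real.sqrt p)⁻¹) ∧
    (∀ p : ℕ, p.Prime → ¬ p ∣ M → p % 3 = 2 → |l p| ≤ p + (p : ℝ)⁻¹) ∧
    (¬ 3 ∣ M → |l 3| ≤ Real.sqrt 3 + (Real.sqrt 3)⁻¹) ∧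
    ∃ (T : Finset ℕ) (A1 A2 : Set ℕ), (∀ p : ℕ, p.Prime → p ∣ M → p ∈ T) ∧
      (∃ C : ℝ, ∀ s ∈ Set.Ioc (1 : ℝ) 2,
        (Summable fun p : {p : ℕ // p.Prime ∧ p % 3 = 1 ∧ p ∉ T} =>
          S (l p) (l p) ((p : ℝ) ^ (-s)) + S (l' p) (l' p) ((p : ℝ) ^ (-s))) ∧
        ∑' p : {p : ℕ // p.Prime ∧ p % 3 = 1 ∧ p ∉ T},
          (S (l p) (l p) ((p : ℝ) ^ (-s)) + S (l' p) (l' p) ((p : ℝ) ^ (-s))) ≤
          Real.log (1 / (s - 1)) + C) ∧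
      (∀ p ∈ A1, p.Prime ∧ p % 3 = 1 ∧ p ∉ T ∧ l p = l' p ∧ l p ^ 2 = 4) ∧
      (∀ p ∈ A2, p.Prime ∧ p % 3 = 2 ∧ p ∉ T ∧ l p = 2) ∧
      (∀ p : ℕ, p.Prime → p % 3 = 2 → p ∉ T → p ∉ A2 → l p = 0) ∧
      Tendsto (fun s : ℝ => (∑' p : A1, ((p : ℕ) : ℝ) ^ (-s)) / Real.log (1 / (s - 1)))
        (𝓝[>] 1) (𝓝 (1 / 24)) ∧
      Tendsto (fun s : ℝ => (∑' p : A2, ((p : ℕ) : ℝ) ^ (-s)) / Real.log (1 / (s - 1)))
        (𝓝[>] 1) (𝓝 (1 / 4)) := by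
  classical
  refine ⟨?_, ?_, ?_, ?_⟩
  · intro p hp hpM hmod
    rw [hl1 p hp hmod, hl' p hp hmod]
    exact ⟨abs_lamE_split E h hlev hlamE hp hpM (hϖ p hp hmod),
      abs_lamE_split E h hlev hlamE hp hpM (by rw [nm_star_self]; exact hϖ p hp hmod)⟩
  · intro p hp hpM hmod
    rw [hl2 p hp hmod]
    exact abs_lamE_inert E h hlev hlamE hp hpM hmod
  · intro h3
    rw [hl3]
    exact abs_lamE_three E h hlev hlamE h3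
  · obtain ⟨S₀, C, hS₀, hR⟩ := H.R1 h
    have hbd : ∀ w ∉ S₀, |lam w| ≤ Real.sqrt (qv w) + (Real.sqrt (qv w))⁻¹ := by
      intro w hw
      refine abs_lam_le h ?_
      by_contra hne
      exact hw (hS₀ w hne)
    obtain ⟨T₀, hT₀⟩ := r1_transfer' E hbd hR hϖ hlamE
    obtain ⟨T, A1, A2, hT0T, hT, h1, h2, h3, h4, h5⟩ :=
      asai_dens_inputs R E hc hM hlev hϖ hlamE hl1 hl2 hl' T₀
    obtain ⟨C', hC'⟩ := hT₀ T hT0T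
    refine ⟨T, A1, A2, hT, ⟨C', fun s hs => ?_⟩, h1, h2, h3, h4, h5⟩
    have e : (fun p : {p : ℕ // p.Prime ∧ p % 3 = 1 ∧ p ∉ T} =>
        S (l p) (l p) ((p : ℝ) ^ (-s)) + S (l' p) (l' p) ((p : ℝ) ^ (-s))) =
        fun p : {p : ℕ // p.Prime ∧ p % 3 = 1 ∧ p ∉ T} =>
        S (lamE (ϖ p)) (lamE (ϖ p)) ((p : ℝ) ^ (-s)) +
          S (lamE (star (ϖ p))) (lamE (star (ϖ p))) ((p : ℝ) ^ (-s)) := by
      funext p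
      rw [hl1 p p.2.1 p.2.2.1, hl' p p.2.1 p.2.2.1]
    rw [e]
    exact hC' s hs

end Fermat.Agent.LT.H5
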