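import Fermat.Agent.LT.H5.FC

/-!
LT piece H5 (helper47): averages of continuous functions on `ℂ` periodic under `M ℤ[ω]`.

* `PerM M H`, `Av M H` (integral over the standard box), `Av_add` (translation invariance),
  `Av_gen` (uniqueness of the average), `Av_comp_mul`, `Av_sum_div`.
* `fc_eq_Av` : the Fourier coefficients as averages.
* `card_residues` : a complete residue system mod `π` has `nm π` elements.
-/

set_option autoImplicit false

open Matrix MeasureTheory Set

noncomputable section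

namespace Fermat.Agent.LT.H5

open Fermat.LT Fermat.Agent.LT.J Fermat.Agent.LT.J.QE

/-- periodic under `M ℤ[ω]` -/
def PerM (M : ℕ) (H : ℂ → ℂ) : Prop := ∀ (β : EO) (z : ℂ), H (z + M * toC β) = H z

namespace BoxAvg

/-- box coordinates -/
def bx (M : ℕ) (p : ℝ × ℝ) : ℂ := M * (p.2 + p.1 * om)

theorem continuous_bx (M : ℕ) : Continuous (bx M) := by
  unfold bx
  fun_prop

/-- Lebesgue measure on `(0, 1]` -/
abbrev lam : Measure ℝ := volume.restrict (Ioc (0 : ℝ) 1)

instance : IsProbabilityMeasure lam := ⟨by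
  rw [Measure.restrict_apply_univ, Real.volume_Ioc]
  norm_num⟩

/-- the measure on the box -/
def muB (M : ℕ) : Measure ℂ := (lam.prod lam).map (bx M)

instance (M : ℕ) : IsProbabilityMeasure (muB M) :=
  Measure.isProbabilityMeasure_map (continuous_bx M).aemeasurable

end BoxAvg

open BoxAvg

/-- the average over the box -/
def Av (M : ℕ) (H : ℂ → ℂ) : ℂ := ∫ z, H z ∂(muB M)

theorem Av_const (M : ℕ) (c : ℂ) : Av M (fun _ => c) = c := by
  unfold Av
  rw [integral_const]
  simp

theorem Av_eq (M : ℕ) {H : ℂ → ℂ} (hH : Continuous H) :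
    Av M H = ∫ b in (0 : ℝ)..1, ∫ a in (0 : ℝ)..1, H (M * (a + b * om)) := by
  unfold Av muB
  rw [integral_map (continuous_bx M).aemeasurable hH.aestronglyMeasurable]
  have hint : Integrable (fun p : ℝ × ℝ => H (bx M p)) (lam.prod lam) := by
    have hc : Continuous fun p : ℝ × ℝ => H (bx M p) := hH.comp (continuous_bx M)
    rw [Measure.prod_restrict, ← Measure.volume_eq_prod]
    exact (hc.continuousOn.integrableOn_compact (isCompact_Icc.prod isCompact_Icc)).mono_set
      (Set.prod_mono Ioc_subset_Icc_self Ioc_subset_Icc_self)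
  rw [integral_prod _ hint, intervalIntegral.integral_of_le zero_le_one]
  refine integral_congr_ae (Filter.Eventually.of_forall fun b => ?_)
  change _ = ∫ a in (0 : ℝ)..1, H (M * (a + b * om))
  rw [intervalIntegral.integral_of_le zero_le_one]
  rfl

/-- coordinates -/
theorem BoxAvg.exists_coord (M : ℕ) [NeZero M] (z : ℂ) : ∃ a b : ℝ, z = M * (a + b * om) := by
  have hM : (M : ℝ) ≠ 0 := by exact_mod_cast NeZero.ne M
  have h3 := sqrt3_pos
  have key : ∀ a b : ℝ, ((M : ℂ) * (a + b * om)).re = M * (a - b / 2) ∧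
      ((M : ℂ) * (a + b * om)).im = M * (b * (Real.sqrt 3 / 2)) := by
    intro a b
    constructor
    · simp only [Complex.mul_re, Complex.natCast_re, Complex.natCast_im, Complex.add_re,
        Complex.ofReal_re, Complex.ofReal_im, om_re, om_im, zero_mul, sub_zero]
      ring
    · simp
  refine ⟨z.re / M + (z.im / (M * (Real.sqrt 3 / 2))) / 2, z.im / (M * (Real.sqrt 3 / 2)), ?_⟩
  apply Complex.ext
  · rw [(key _ _).1]
    field_simp
    ring
  · rw [(key _ _).2]
    field_simp

theorem PerM.shift_box {M : ℕ} {H : ℂ → ℂ} (hp : PerM M H) (a b : ℝ) (m n : ℤ) :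
    H (M * ((a + m : ℝ) + (b + n : ℝ) * om)) = H (M * (a + b * om)) := by
  have h := hp ⟨m, n⟩ (M * (a + b * om))
  rw [← h]
  congr 1
  rw [toC_apply]
  push_cast
  ring

theorem PerM.shift_box_real {M : ℕ} {H : ℂ → ℂ} (hp : PerM M H) :
    (∀ b : ℝ, Function.Periodic (fun a : ℝ => H (M * (a + b * om))) 1) ∧
    Function.Periodic (fun b : ℝ => ∫ a in (0 : ℝ)..1, H (M * (a + b * om))) 1 := by
  constructor
  · intro b a
    have := hp.shift_box a b 1 0
    simpa using this
  · intro b
    refine intervalIntegral.integral_congr fun a _ => ?_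
    have := hp.shift_box a b 0 1
    simpa using this

/-- translation invariance -/
theorem Av_add {M : ℕ} [NeZero M] {H : ℂ → ℂ} (hH : Continuous H) (hp : PerM M H) (w : ℂ) :
    Av M (fun z => H (z + w)) = Av M H := by
  obtain ⟨α, β, rfl⟩ := exists_coord M w
  rw [Av_eq M (H := fun z => H (z + _)) (by fun_prop), Av_eq M hH]
  have h1 : ∀ b : ℝ, (∫ a in (0 : ℝ)..1, H (M * (a + b * om) + M * (α + β * om))) =
      ∫ a in (0 : ℝ)..1, H (M * (a + (b + β : ℝ) * om)) := by
    intro b
    have h2 : (∫ a in (0 : ℝ)..1, H (M * (a + b * om) + M * (α + β * om))) =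
        ∫ a in (0 : ℝ)..1, (fun a : ℝ => H (M * (a + (b + β : ℝ) * om))) (a + α) := by
      refine intervalIntegral.integral_congr fun a _ => ?_
      change H _ = H _
      congr 1
      push_cast
      ring
    have h2' := intervalIntegral.integral_comp_add_right (a := 0) (b := 1)
      (fun a : ℝ => H (M * (a + (b + β : ℝ) * om))) α
    rw [h2, h2']
    have h3 := (hp.shift_box_real.1 (b + β)).intervalIntegral_add_eq (0 + α) 0
    rw [zero_add] at h3 ⊢
    rw [add_comm 1 α, h3, zero_add]
  simp only [h1]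
  have h2 := intervalIntegral.integral_comp_add_right (a := 0) (b := 1)
    (fun b : ℝ => ∫ a in (0 : ℝ)..1, H (M * (a + b * om))) β
  rw [h2]
  have h3 := hp.shift_box_real.2.intervalIntegral_add_eq (0 + β) 0
  rw [zero_add] at h3 ⊢
  rw [add_comm 1 β, h3, zero_add]

/-- continuous periodic functions are bounded -/
theorem PerM.bdd {M : ℕ} [NeZero M] {H : ℂ → ℂ} (hH : Continuous H) (hp : PerM M H) :
    ∃ B : ℝ, ∀ z, ‖H z‖ ≤ B := by
  have hc : Continuous fun p : ℝ × ℝ => H (bx M p) := hH.comp (continuous_bx M)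
  obtain ⟨B, hB⟩ := (isCompact_Icc.prod isCompact_Icc : IsCompact
    (Icc (0 : ℝ) 1 ×ˢ Icc (0 : ℝ) 1)).exists_bound_of_continuousOn hc.continuousOn
  refine ⟨B, fun z => ?_⟩
  obtain ⟨a, b, rfl⟩ := exists_coord M z
  have h1 := hp.shift_box (Int.fract a) (Int.fract b) ⌊a⌋ ⌊b⌋
  rw [Int.fract_add_floor, Int.fract_add_floor] at h1
  rw [h1]
  exact hB (Int.fract b, Int.fract a)
    ⟨⟨Int.fract_nonneg _, (Int.fract_lt_one _).le⟩, ⟨Int.fract_nonneg _, (Int.fract_lt_one _).le⟩⟩

/-- **Uniqueness of the average.** -/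
theorem Av_gen {M : ℕ} [NeZero M] {G g : ℂ → ℂ} (hG : Continuous G) (hGp : PerM M G)
    (hg : Continuous g) (hgp : PerM M g) {ι : Type*} (R : Finset ι) (φ : ι → ℂ → ℂ)
    (c : ℂ)
    (h : ∀ z w, G (z + c * w) = ∑ i ∈ R, g (φ i z + w)) : Av M G = R.card * Av M g := by
  obtain ⟨B, hB⟩ := hGp.bdd hG
  have h1 : Av M G = ∫ w, ∫ z, G (z + c * w) ∂(muB M) ∂(muB M) := by
    have : ∀ w, (∫ z, G (z + c * w) ∂(muB M)) = Av M G := fun w => Av_add hG hGp (c * w)
    simp only [this]
    rw [integral_const]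
    simp
  have hint : Integrable (Function.uncurry fun w z : ℂ => G (z + c * w))
      ((muB M).prod (muB M)) := by
    refine Integrable.of_bound (C := B) ?_ (Filter.Eventually.of_forall fun p => hB _)
    have : Continuous (Function.uncurry fun w z : ℂ => G (z + c * w)) :=
      by fun_prop
    exact this.aestronglyMeasurable
  rw [h1, integral_integral_swap hint]
  obtain ⟨B', hB'⟩ := hgp.bdd hg
  have h2 : ∀ z, (∫ w, G (z + c * w) ∂(muB M)) = R.card * Av M g := by
    intro z
    simp only [h]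
    rw [integral_finsetSum]
    · have h3 : ∀ i ∈ R, (∫ w, g (φ i z + w) ∂(muB M)) = Av M g := by
        intro i _
        have := Av_add hg hgp (φ i z)
        rw [← this]
        unfold Av
        simp only [add_comm]
      rw [Finset.sum_congr rfl h3, Finset.sum_const, nsmul_eq_mul]
    · intro i _
      refine Integrable.of_bound (C := B') ?_ (Filter.Eventually.of_forall fun p => hB' _)
      exact (show Continuous fun w => g (φ i z + w) by fun_prop).aestronglyMeasurable
  simp only [h2]
  rw [integral_const]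
  simp

theorem PerM.comp_mul {M : ℕ} {g : ℂ → ℂ} (hp : PerM M g) (π : EO) :
    PerM M (fun z => g (toC π * z)) := by
  intro β z
  have := hp (π * β) (toC π * z)
  change g (toC π * (z + M * toC β)) = g (toC π * z)
  rw [← this]
  congr 1
  rw [map_mul]
  ring

/-- `Av (z ↦ g (π z)) = Av g` -/
theorem Av_comp_mul {M : ℕ} [NeZero M] {g : ℂ → ℂ} (hg : Continuous g) (hp : PerM M g) {π : EO}
    (hπ : π ≠ 0) : Av M (fun z => g (toC π * z)) = Av M g := by
  have h0 : toC π ≠ 0 := (map_ne_zero_iff toC toC_injective).2 hπ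
  have h := Av_gen (G := fun z => g (toC π * z)) (g := g)
    (by fun_prop) (hp.comp_mul π) hg hp
    ({()} : Finset Unit) (fun _ z => toC π * z)
    (toC π)⁻¹ (by
      intro z w
      rw [Finset.sum_singleton]
      congr 1
      field_simp)
  rw [h]
  simp

/-- complete residue systems -/
def IsResE (π : EO) (R : Finset EO) : Prop := ∀ x : EO, ∃! b, b ∈ R ∧ π ∣ x - b

theorem per_sum_div {M : ℕ} {g : ℂ → ℂ} (hp : PerM M g) {π : EO} (hπ : π ≠ 0) {R : Finset EO}
    (hR : IsResE π R) (hRM : ∀ b ∈ R, (M : EO) ∣ b) (hcop : IsCoprime (M : EO) π) :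
    PerM M (fun z => ∑ b ∈ R, g ((z + toC b) / toC π)) := by
  classical
  have h0 : toC π ≠ 0 := (map_ne_zero_iff toC toC_injective).2 hπ
  intro β z
  choose f hf hfu using fun x : EO => (hR x)
  have hfm : ∀ x, f x ∈ R := fun x => (hf x).1
  have hfd : ∀ x, π ∣ x - f x := fun x => (hf x).2
  refine Finset.sum_bij' (fun b _ => f (b + (M : EO) * β)) (fun b _ => f (b - (M : EO) * β))
    (fun b _ => hfm _) (fun b _ => hfm _) ?_ ?_ ?_
  · intro b hb
    symm
    apply hfu
    refine ⟨hb, ?_⟩
    have h1 := hfd (b + (M : EO) * β)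
    have : f (b + (M : EO) * β) - (M : EO) * β - b = -(b + (M : EO) * β - f (b + (M : EO) * β)) := by
      ring
    rw [this]
    exact (dvd_neg).mpr h1
  · intro b hb
    symm
    apply hfu
    refine ⟨hb, ?_⟩
    have h1 := hfd (b - (M : EO) * β)
    have : f (b - (M : EO) * β) + (M : EO) * β - b = -(b - (M : EO) * β - f (b - (M : EO) * β)) := by
      ring
    rw [this]
    exact (dvd_neg).mpr h1
  · intro b hb
    set b' := f (b + (M : EO) * β) with hb'
    have h1 : π ∣ b + (M : EO) * β - b' := hfd _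
    have h2 : (M : EO) ∣ b + (M : EO) * β - b' :=
      dvd_sub (dvd_add (hRM b hb) (Dvd.intro _ rfl)) (hRM b' (hfm _))
    obtain ⟨γ, hγ⟩ := hcop.mul_dvd h2 h1
    have h3 := hp γ ((z + toC b') / toC π)
    rw [← h3]
    congr 1
    have h4 : toC b + M * toC β - toC b' = M * toC π * toC γ := by
      have := congrArg toC hγ
      simpa using this
    field_simp
    linear_combination h4

/-- `Av (z ↦ Σ_b g ((z + b) / π)) = #R · Av g` -/
theorem Av_sum_div {M : ℕ} [NeZero M] {g : ℂ → ℂ} (hg : Continuous g) (hp : PerM M g) {π : EO}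
    (hπ : π ≠ 0) {R : Finset EO} (hR : IsResE π R) (hRM : ∀ b ∈ R, (M : EO) ∣ b)
    (hcop : IsCoprime (M : EO) π) :
    Av M (fun z => ∑ b ∈ R, g ((z + toC b) / toC π)) = R.card * Av M g := by
  have h0 : toC π ≠ 0 := (map_ne_zero_iff toC toC_injective).2 hπ
  refine Av_gen (G := fun z => ∑ b ∈ R, g ((z + toC b) / toC π)) (by fun_prop)
    (per_sum_div hp hπ hR hRM hcop)
    hg hp R (fun b z => (z + toC b) / toC π) (toC π) ?_
  intro z w
  refine Finset.sum_congr rfl fun b _ => ?_
  congr 1
  field_simp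
  ring

/-- the number of elements of a complete residue system -/
theorem IsResE.card_eq {π : EO} (hπ : π ≠ 0) {R : Finset EO} (hR : IsResE π R) :
    (R.card : ℤ) = nm π := by
  classical
  have hinj : Function.Injective (DistribSMul.toLinearMap ℤ EO π) := by
    intro x y h
    exact mul_left_cancel₀ hπ h
  let N : Submodule ℤ EO := LinearMap.range (DistribSMul.toLinearMap ℤ EO π)
  let e : EO ≃ₗ[ℤ] N := LinearEquiv.ofInjective _ hinj
  have h1 := Submodule.natAbs_det_equiv N e
  have h2 : N.subtype ∘ₗ ((e : EO ≃+ N) : EO →+ N).toIntLinearMap =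
      DistribSMul.toLinearMap ℤ EO π := by
    ext x <;> rfl
  have h1' : (LinearMap.det (DistribSMul.toLinearMap ℤ EO π)).natAbs = Nat.card (EO ⧸ N) := by
    rw [← h1, ← h2]
    rfl
  rw [QuadraticAlgebra.det_toLinearMap_eq_norm] at h1'
  have h3 : QuadraticAlgebra.norm π = nm π := by
    rw [QuadraticAlgebra.norm_def, nm]
    ring
  rw [h3] at h1'
  have hN : ∀ x : EO, x ∈ N ↔ π ∣ x := by
    intro x
    constructor
    · rintro ⟨y, rfl⟩
      exact ⟨y, rfl⟩
    · rintro ⟨y, rfl⟩
      exact ⟨y, rfl⟩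
  have h4 : Nat.card (EO ⧸ N) = R.card := by
    have hb : Function.Bijective
        (fun b : R => (Submodule.Quotient.mk (p := N) (b : EO))) := by
      constructor
      · intro b b' hbb
        have h5 : (b : EO) - b' ∈ N := (Submodule.Quotient.eq N).mp hbb
        have h6 : π ∣ (b : EO) - b' := (hN _).mp h5
        obtain ⟨c, -, hc⟩ := hR (b : EO)
        have h7 := hc b ⟨b.2, by simp⟩
        have h8 := hc b' ⟨b'.2, h6⟩
        exact Subtype.ext (h7.trans h8.symm)
      · intro q
        obtain ⟨x, rfl⟩ := Submodule.Quotient.mk_surjective N q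
        obtain ⟨b, ⟨hb, hd⟩, -⟩ := hR x
        refine ⟨⟨b, hb⟩, ?_⟩
        refine (Submodule.Quotient.eq N).mpr ((hN _).mpr ?_)
        have : b - x = -(x - b) := by ring
        change π ∣ b - x
        rw [this]
        exact (dvd_neg).mpr hd
    rw [← Nat.card_congr (Equiv.ofBijective _ hb), Nat.card_eq_fintype_card, Fintype.card_coe]
  rw [← h4, ← h1', Int.natCast_natAbs, abs_of_nonneg (nm_nonneg π)]

/-! ### Fourier coefficients -/

theorem continuous_echB (M : ℕ) (μ : EO) : Continuous (ech M μ) := by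
  unfold ech
  fun_prop

theorem ech_per (M : ℕ) [NeZero M] (μ : EO) : PerM M (ech M μ) := by
  intro β z
  rw [ech_add, ech_M_mul, mul_one]

theorem per_ech_mul {M : ℕ} [NeZero M] {H : ℂ → ℂ} (hp : PerM M H) (μ : EO) :
    PerM M (fun z => (ech M μ z)⁻¹ * H z) := by
  intro β z
  change (ech M μ (z + M * toC β))⁻¹ * H (z + M * toC β) = _
  rw [ech_per, hp]

theorem continuous_ech_mul {M : ℕ} {H : ℂ → ℂ} (hH : Continuous H) (μ : EO) :
    Continuous (fun z => (ech M μ z)⁻¹ * H z) :=
  ((continuous_echB M μ).inv₀ (ech_ne_zero M μ)).mul hH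

theorem fc_eq_Av {M : ℕ} {H : ℂ → ℂ} (hH : Continuous H) (μ : EO) :
    fc M H μ = Av M (fun z => (ech M μ z)⁻¹ * H z) := by
  rw [fc_eq, Av_eq M (continuous_ech_mul hH μ)]

theorem ech_mul_left (M : ℕ) (μ κ : EO) (z : ℂ) : ech M (κ * μ) z = ech M μ (toC κ * z) := by
  unfold ech
  have : nu M (κ * μ) * z = nu M μ * (toC κ * z) := by
    unfold nu
    rw [map_mul]
    ring
  rw [this]

theorem ech_neg (M : ℕ) (μ : EO) (z : ℂ) : ech M μ (-z) = (ech M μ z)⁻¹ := by
  refine eq_inv_of_mul_eq_one_left ?_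
  rw [← ech_add, neg_add_cancel]
  simp [ech]

/-- translation -/
theorem fc_translate {M : ℕ} [NeZero M] {H : ℂ → ℂ} (hH : Continuous H) (hp : PerM M H) (μ : EO)
    (w : ℂ) : fc M (fun z => H (z + w)) μ = ech M μ w * fc M H μ := by
  rw [fc_eq_Av (H := fun z => H (z + w)) (by fun_prop), fc_eq_Av hH,
    ← Av_add (continuous_ech_mul hH μ) (per_ech_mul hp μ) w]
  unfold Av
  rw [← integral_const_mul]
  refine integral_congr_ae (Filter.Eventually.of_forall fun z => ?_)
  change (ech M μ z)⁻¹ * H (z + w) = ech M μ w * ((ech M μ (z + w))⁻¹ * H (z + w))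
  rw [ech_add]
  have := ech_ne_zero M μ z
  have := ech_ne_zero M μ w
  field_simp

theorem BoxAvg.integrable_of_continuous {M : ℕ} {H : ℂ → ℂ} (hH : Continuous H) :
    Integrable H (muB M) := by
  unfold muB
  rw [integrable_map_measure hH.aestronglyMeasurable (continuous_bx M).aemeasurable]
  have hc : Continuous fun p : ℝ × ℝ => H (bx M p) := hH.comp (continuous_bx M)
  rw [Measure.prod_restrict, ← Measure.volume_eq_prod]
  exact (hc.continuousOn.integrableOn_compact (isCompact_Icc.prod isCompact_Icc)).mono_set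
    (Set.prod_mono Ioc_subset_Icc_self Ioc_subset_Icc_self)

theorem fc_finset_sum {M : ℕ} {ι : Type*} (R : Finset ι) {H : ι → ℂ → ℂ}
    (hH : ∀ i, Continuous (H i)) (μ : EO) :
    fc M (fun z => ∑ i ∈ R, H i z) μ = ∑ i ∈ R, fc M (H i) μ := by
  rw [fc_eq_Av (H := fun z => ∑ i ∈ R, H i z) (continuous_finsetSum _ fun i _ => hH i)]
  simp only [fc_eq_Av (hH _), Finset.mul_sum]
  unfold Av
  rw [integral_finsetSum]
  intro i _
  exact BoxAvg.integrable_of_continuous (continuous_ech_mul (hH i) μ)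

end Fermat.Agent.LT.H5
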