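import Fermat.Agent.LT.J.Hilb90

/-!
LT piece H5 (helper74): Fourier coefficients of functions periodic under `M ℤ[ω]` (classical form).
-/

set_option autoImplicit false

open Matrix MeasureTheory

noncomputable section

namespace Fermat.Agent.LT.H5

open Fermat.LT Fermat.Agent.LT.J Fermat.Agent.LT.J.QE

/-- the frequency `μ / (M √-3)` -/
def nu (M : ℕ) (μ : EO) : ℂ := toC μ / (M * (Real.sqrt 3 * Complex.I))

/-- the character `z ↦ exp (2πi Tr (ν z))` -/
def ech (M : ℕ) (μ : EO) (z : ℂ) : ℂ :=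
  Complex.exp (2 * Real.pi * Complex.I * ((2 * (nu M μ * z).re : ℝ) : ℂ))

/-- Fourier coefficient of a function on `ℂ` periodic under `M ℤ[ω]`. -/
def fc (M : ℕ) (H : ℂ → ℂ) (μ : EO) : ℂ :=
  ∫ b in (0 : ℝ)..1, ∫ a in (0 : ℝ)..1,
    Complex.exp (-(2 * Real.pi * Complex.I *
      ((2 * (nu M μ * (M * (a + b * om))).re : ℝ) : ℂ))) * H (M * (a + b * om))

theorem fc_eq (M : ℕ) (H : ℂ → ℂ) (μ : EO) : fc M H μ = ∫ b in (0 : ℝ)..1, ∫ a in (0 : ℝ)..1,
    (ech M μ (M * (a + b * om)))⁻¹ * H (M * (a + b * om)) := by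
  unfold fc ech
  simp_rw [Complex.exp_neg]

theorem ech_add (M : ℕ) (μ : EO) (z w : ℂ) : ech M μ (z + w) = ech M μ z * ech M μ w := by
  unfold ech
  rw [← Complex.exp_add]
  congr 1
  rw [mul_add, Complex.add_re]
  push_cast
  ring

theorem norm_ech (M : ℕ) (μ : EO) (z : ℂ) : ‖ech M μ z‖ = 1 := by
  unfold ech
  rw [show (2 * Real.pi * Complex.I * ((2 * (nu M μ * z).re : ℝ) : ℂ))
    = ((2 * Real.pi * (2 * (nu M μ * z).re) : ℝ) : ℂ) * Complex.I by push_cast; ring]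
  exact Complex.norm_exp_ofReal_mul_I _

theorem ech_ne_zero (M : ℕ) (μ : EO) (z : ℂ) : ech M μ z ≠ 0 := Complex.exp_ne_zero _

theorem two_re_div (w : ℂ) (c : ℝ) (hc : c ≠ 0) :
    2 * (w / ((c : ℂ) * (Real.sqrt 3 * Complex.I))).re = 2 * w.im / (c * Real.sqrt 3) := by
  have h3 := sqrt3_pos
  have h : w / ((c : ℂ) * (Real.sqrt 3 * Complex.I))
      = ((c * Real.sqrt 3 : ℝ) : ℂ)⁻¹ * (-(Complex.I * w)) := by
    have hI := Complex.I_ne_zero
    have hc' : (c : ℂ) ≠ 0 := by exact_mod_cast hc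
    have h3' : ((Real.sqrt 3 : ℝ) : ℂ) ≠ 0 := by exact_mod_cast h3.ne'
    push_cast
    field_simp
    rw [Complex.I_sq]
    ring
  rw [h, ← Complex.ofReal_inv, Complex.re_ofReal_mul]
  simp
  field_simp

/-- value of the trace on integers -/
theorem two_re_nu (M : ℕ) [NeZero M] (μ β : EO) :
    2 * (nu M μ * toC β).re = ((μ * β).im : ℝ) / M := by
  have hM : (M : ℝ) ≠ 0 := by exact_mod_cast NeZero.ne M
  have h3 := sqrt3_pos
  have e : nu M μ * toC β = toC (μ * β) / (((M : ℝ) : ℂ) * (Real.sqrt 3 * Complex.I)) := by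
    unfold nu
    rw [map_mul]
    push_cast
    ring
  rw [e, two_re_div _ _ hM, toC_im]
  field_simp

theorem ech_toC (M : ℕ) [NeZero M] (μ β : EO) :
    ech M μ (toC β) = Complex.exp (2 * Real.pi * Complex.I * (((μ * β).im : ℂ) / M)) := by
  unfold ech
  rw [two_re_nu]
  push_cast
  rfl

/-- the character is trivial on `M ℤ[ω]` -/
theorem ech_M_mul (M : ℕ) [NeZero M] (μ β : EO) : ech M μ (M * toC β) = 1 := by
  have hM : (M : ℂ) ≠ 0 := by exact_mod_cast NeZero.ne M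
  have h : (M : ℂ) * toC β = toC ((M : EO) * β) := by rw [map_mul, map_natCast]
  rw [h, ech_toC]
  have h2 : ((μ * ((M : EO) * β)).im : ℂ) / M = ((μ * β).im : ℂ) := by
    have : μ * ((M : EO) * β) = (M : EO) * (μ * β) := by ring
    rw [this]
    have h3 : ((M : EO) * (μ * β)).im = M * (μ * β).im := by simp
    rw [h3]
    push_cast
    field_simp
  rw [h2, show 2 * (Real.pi : ℂ) * Complex.I * ((μ * β).im : ℂ)
    = ((μ * β).im : ℂ) * (2 * Real.pi * Complex.I) by ring]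
  exact Complex.exp_int_mul_two_pi_mul_I _

end Fermat.Agent.LT.H5
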