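import Fermat.Agent.LT.H5.Alpha
import Fermat.Agent.LT.J.BridgePhi

/-!
LT piece H5 (helper74): the twisted coefficients `A m = α m (diag(m⁻¹, 1) s₀)` for `m` prime to
`M`, their Hecke recursion, and their relation with the isolated coefficients `isoC`.
-/

set_option autoImplicit false

open Matrix MeasureTheory Set NumberField
open scoped MatrixGroups

noncomputable section

namespace Fermat.Agent.LT.H5

open Fermat.LT Fermat.Agent.LT.J Fermat.Agent.LT.J.QE Fermat.Agent.LT.H.Bessel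

section defs

variable {M : ℕ} (α : EO → GM M → ℂ) (s₀ : GM M)

open Classical in
/-- the twisted coefficients -/
def cA (m : EO) : ℂ := if h : IsUnit (rE M m) then α m (gdg (h.unit)⁻¹ * s₀) else 0

theorem cA_of_unit {m : EO} (u : (QE (ZMod M))ˣ) (hu : (u : QE (ZMod M)) = rE M m) :
    cA α s₀ m = α m (gdg u⁻¹ * s₀) := by
  have h : IsUnit (rE M m) := hu ▸ u.isUnit
  rw [cA, dif_pos h]
  have : h.unit = u := Units.ext hu.symm
  rw [this]

end defs

variable {M : ℕ} [NeZero M] {P : PhiSys M} {α : EO → GM M → ℂ}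

omit [NeZero M] in
theorem rE_natCast_self : rE M ((M : ℕ) : EO) = 0 := by
  rw [map_natCast]
  ext
  · simp
  · simp

omit [NeZero M] in
theorem isUnit_rE {m : EO} (h : IsCoprime m (M : EO)) : IsUnit (rE M m) := by
  obtain ⟨a, b, hab⟩ := h
  have := congrArg (rE M) hab
  rw [map_add, map_mul, map_mul, rE_natCast_self, mul_zero, add_zero, map_one] at this
  exact IsUnit.of_mul_eq_one_right _ this

theorem AData.cA_neg (h : AData P α) (s₀ : GM M) (m : EO) : cA α s₀ (-m) = cA α s₀ m := by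
  by_cases hm : IsUnit (rE M m)
  · obtain ⟨u, hu⟩ := hm
    rw [cA_of_unit α s₀ u hu, cA_of_unit α s₀ (-u) (by rw [Units.val_neg, hu, map_neg])]
    have e : (-u)⁻¹ = (-1) * u⁻¹ := by
      rw [neg_one_mul, inv_neg]
    rw [e, map_mul, mul_assoc, h.neg]
  · rw [cA, dif_neg, cA, dif_neg hm]
    rwa [map_neg, IsUnit.neg_iff]

/-- `π ∤ M` prime: coprimality of the norm. -/
theorem coprime_nm {M : ℕ} {π : EO} (hπ : Prime π) (h : ¬ π ∣ (M : EO)) :
    IsCoprime (M : ℤ) (nm π) := by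
  have h1 : IsCoprime π (M : EO) := by
    rw [← hπ.irreducible.coprime_iff_not_dvd] at h
    exact h
  have h2 : IsCoprime (star π) (M : EO) := by
    obtain ⟨a, b, hab⟩ := h1
    refine ⟨star a, star b, ?_⟩
    have := congrArg star hab
    rw [star_add, star_mul', star_mul', star_one] at this
    have hM : star ((M : ℕ) : EO) = (M : EO) := by
      ext
      · simp
      · simp
    rwa [hM] at this
  have h3 : IsCoprime (π * star π) (M : EO) := h1.mul_left h2
  obtain ⟨a, b, hab⟩ := h3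
  have h4 := congrArg (fun x : EO => x.re) hab
  refine ⟨b.re, a.re, ?_⟩
  have h5 : (a * (π * star π)).re = a.re * nm π := by
    rw [mul_star_eq]
    rw [QE.mul_re]
    simp
  have h6 : (b * ((M : ℕ) : EO)).re = b.re * M := by
    rw [QE.mul_re]
    simp
  change (a * (π * star π) + b * ((M : ℕ) : EO)).re = (1 : EO).re at h4
  rw [QuadraticAlgebra.re_add, h5, h6] at h4
  simp at h4
  linarith

/-- the matrices `(1 b; 0 π)` modulo `M` -/
def rbG {M : ℕ} (u : (QE (ZMod M))ˣ) (b : EO) : GM M := gsc u * gdg u⁻¹ * gun (rE M b)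

theorem rbG_val {M : ℕ} (u : (QE (ZMod M))ˣ) (b : EO) :
    (rbG u b).1 = !![1, rE M b; 0, (u : QE (ZMod M))] := by
  unfold rbG
  rw [Units.val_mul, Units.val_mul, gsc_val, gdg_val, gun_val, Matrix.mul_fin_two,
    Matrix.mul_fin_two]
  simp

theorem rbG_zero {M : ℕ} (u : (QE (ZMod M))ˣ) : rbG u 0 = gsc u * gdg u⁻¹ := by
  unfold rbG
  rw [map_zero, gun_zero, mul_one]

section hecke

variable {F : Type} [Field F] [NumberField F] {D : Datum F} {E : Eis3 D} {lam : Pl F → ℝ}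

theorem hecke_input (hB : BridgeOut E M lam P) {π : EO} (hπ : Prime π) (hd : ¬ π ∣ (M : EO))
    (u : (QE (ZMod M))ˣ) (hu : (u : QE (ZMod M)) = rE M π) (R : Finset EO) (hR : IsResE π R)
    (w : H3) (s : GM M) :
    ∑ b ∈ R, P.Φ (matC !![1, b; 0, π] (det_upper_ne hπ.ne_zero b) • w) (rbG u b * s) +
      P.Φ (matC !![π, 0; 0, 1] (det_diag_ne hπ.ne_zero) • w) (gdg u * s) =
        (Real.sqrt ((nm π : ℤ) : ℝ) : ℂ) * ((lam (E.plc π hπ) : ℝ) : ℂ) * P.Φ w s := by
  have h := hB.hecke π hπ hd R hR (fun b => rbG u b) (fun b _ => ?_) (gdg u) ?_ w s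
  · rw [← Complex.ofReal_mul]
    exact h
  · rw [rbG_val, hu]
    unfold rdM rM
    ext i j : 1
    fin_cases i <;> fin_cases j <;> simp [rE]
  · rw [gdg_val, hu]
    unfold rdM rI
    ext i j : 1
    fin_cases i <;> fin_cases j <;> simp [rE]

theorem AData.cA_hecke_of_not_dvd (h : AData P α) (hB : BridgeOut E M lam P) (s₀ : GM M) {π : EO}
    (hπ : Prime π) (hd : ¬ π ∣ (M : EO)) {m : EO} (hm : m ≠ 0) (hmM : IsCoprime m (M : EO))
    (hdm : ¬ π ∣ m) : cA α s₀ (π * m) = ((lam (E.plc π hπ) : ℝ) : ℂ) * cA α s₀ m := by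
  obtain ⟨u, hu⟩ := isUnit_rE (hπ.irreducible.coprime_iff_not_dvd.2 hd)
  obtain ⟨v, hv⟩ := isUnit_rE hmM
  rw [cA_of_unit α s₀ v hv, cA_of_unit α s₀ (u * v) (by rw [Units.val_mul, hu, hv, map_mul])]
  have h1 := alpha_hecke_of_not_dvd P.cont P.inv (fun μ _ s t ht => h.eq μ s t ht) hπ.ne_zero
    (coprime_nm hπ hd) _ (rbG u) (fun b => by rw [rbG_val, hu]) (gdg u)
    (fun R hR w s => hecke_input hB hπ hd u hu R hR w s) hm hdm (gdg v⁻¹ * s₀)
  rw [rbG_zero, mul_assoc, h.cent, ← mul_assoc, ← map_mul] at h1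
  rw [← h1, mul_inv]

theorem AData.cA_hecke_of_dvd (h : AData P α) (hB : BridgeOut E M lam P) (s₀ : GM M) {π : EO}
    (hπ : Prime π) (hd : ¬ π ∣ (M : EO)) {m : EO} (hm : m ≠ 0) (hmM : IsCoprime m (M : EO)) :
    cA α s₀ (π * (π * m)) + cA α s₀ m = ((lam (E.plc π hπ) : ℝ) : ℂ) * cA α s₀ (π * m) := by
  obtain ⟨u, hu⟩ := isUnit_rE (hπ.irreducible.coprime_iff_not_dvd.2 hd)
  obtain ⟨v, hv⟩ := isUnit_rE hmM
  have e1 : cA α s₀ (π * m) = α (π * m) (gdg (u * v)⁻¹ * s₀) :=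
    cA_of_unit α s₀ (u * v) (by rw [Units.val_mul, hu, hv, map_mul])
  have e2 : cA α s₀ (π * (π * m)) = α (π * (π * m)) (gdg (u * (u * v))⁻¹ * s₀) :=
    cA_of_unit α s₀ (u * (u * v)) (by rw [Units.val_mul, Units.val_mul, hu, hv, map_mul, map_mul])
  rw [e1, e2, cA_of_unit α s₀ v hv]
  have h1 := alpha_hecke_of_dvd P.cont P.inv (fun μ _ s t ht => h.eq μ s t ht) hπ.ne_zero
    (coprime_nm hπ hd) _ (rbG u) (fun b => by rw [rbG_val, hu]) (gdg u)
    (fun R hR w s => hecke_input hB hπ hd u hu R hR w s) hm (gdg (u * v)⁻¹ * s₀)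
  have e3 : rbG u 0 * (gdg (u * v)⁻¹ * s₀) = gsc u * (gdg (u * (u * v))⁻¹ * s₀) := by
    rw [rbG_zero, mul_assoc, ← mul_assoc (gdg u⁻¹), ← map_mul, mul_inv u (u * v)]
  have e4 : gdg u * (gdg (u * v)⁻¹ * s₀) = gdg v⁻¹ * s₀ := by
    rw [← mul_assoc, ← map_mul, mul_inv, mul_inv_cancel_left]
  rw [e3, e4, h.cent] at h1
  exact h1

end hecke

/-! ### Relation with `isoC` -/

theorem isoC_eq (α : EO → GM M → ℂ) (s₀ : GM M) {n : ℕ} (hn : Nat.Coprime n M) :
    isoC (fun (n : ℤ) s => α (n : EO) s) s₀ n = cA α s₀ (n : EO) := by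
  classical
  set u : (ZMod M)ˣ := ZMod.unitOfCoprime n hn with hu
  have hu' : (u : ZMod M) = n := ZMod.coe_unitOfCoprime n hn
  rw [cA_of_unit α s₀ (uM M u) (by
    rw [uM_val, hu', map_natCast, map_natCast])]
  unfold isoC
  rw [Finset.sum_eq_single u⁻¹]
  · rw [if_pos]
    · rw [map_inv]
      simp
    · have : (((n : ℕ) : ℤ) : ZMod M) = (u : ZMod M) := by rw [hu']; simp
      rw [this, Units.mul_inv]
  · intro δ _ hδ
    rw [if_neg]
    intro h1
    apply hδ
    rw [eq_comm, inv_eq_iff_mul_eq_one]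
    apply Units.ext
    rw [Units.val_mul, hu', Units.val_one]
    simpa using h1
  · intro h1
    exact absurd (Finset.mem_univ _) h1

theorem isoC_eq_zero (α : ℤ → GM M → ℂ) (s₀ : GM M) {n : ℕ} (hn : ¬ Nat.Coprime n M) :
    isoC α s₀ n = 0 := by
  classical
  unfold isoC
  refine Finset.sum_eq_zero fun δ _ => ?_
  rw [if_neg]
  intro h1
  apply hn
  rw [← ZMod.isUnit_iff_coprime]
  refine IsUnit.of_mul_eq_one (δ : ZMod M) ?_
  simpa using h1

end Fermat.Agent.LT.H5
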