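import Fermat.Agent.LT.H5.Rows

/-!
LT piece H5 (helper74): the sum over `γ ∈ SL₂(ℤ)` with `Re γτ ∈ [0, M)`.
-/

open Matrix UpperHalfPlane ModularGroup
open scoped MatrixGroups Modular

namespace Fermat.Agent.LT.H5

/-- `∑_{r, (r, M) = 1} r^{-2s}` -/
noncomputable def zM (M : ℕ) (s : ℝ) : ℝ := by
  classical
  exact ∑' r : ℕ, if IsUnit (r : ZMod M) then (r : ℝ) ^ (-2 * s) else 0

open Classical in
theorem summable_zM (M : ℕ) {s : ℝ} (hs : 1 < s) :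
    Summable (fun r : ℕ => if IsUnit (r : ZMod M) then (r : ℝ) ^ (-2 * s) else 0) := by
  have h : Summable (fun r : ℕ => (r : ℝ) ^ (-2 * s)) :=
    Real.summable_nat_rpow.2 (by linarith)
  refine Summable.of_nonneg_of_le (fun r => ?_) (fun r => ?_) h
  · split_ifs
    · exact Real.rpow_nonneg (Nat.cast_nonneg _) _
    · exact le_rfl
  · split_ifs
    · exact le_rfl
    · exact Real.rpow_nonneg (Nat.cast_nonneg _) _

open Classical in
theorem one_le_zM (M : ℕ) {s : ℝ} (hs : 1 < s) : 1 ≤ zM M s := by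
  unfold zM
  have h := (summable_zM M hs).le_tsum 1 (fun r _ => by
    split_ifs
    · exact Real.rpow_nonneg (Nat.cast_nonneg _) _
    · exact le_rfl)
  simpa using h

open Classical in
/-- splitting off the gcd -/
theorem gcd_split (M : ℕ) {s : ℝ} (hs : 1 < s) (h : ℤ × ℤ → ℝ) (h0 : h 0 = 0)
    (hh : ∀ (r : ℕ) (v : ℤ × ℤ), 0 < r → h (r * v.1, r * v.2) = (r : ℝ) ^ (-2 * s) * h v)
    (w : ZMod M → ZMod M → ℝ)
    (hsum : Summable (fun v : ℤ × ℤ => w v.1 v.2 * h v))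
    (hw : ∀ (r : ℕ) a b, 0 < r → w (r * a) (r * b) = if IsUnit (r : ZMod M) then w a b else 0) :
    ∑' v : ℤ × ℤ, w v.1 v.2 * h v
      = zM M s * ∑' v : ℤ × ℤ, if IsCoprime v.1 v.2 then w v.1 v.2 * h v else 0 := by
  let A : Set (ℕ × (ℤ × ℤ)) := {p | 0 < p.1 ∧ IsCoprime p.2.1 p.2.2}
  let e : A → ℤ × ℤ := fun p => (p.1.1 * p.1.2.1, p.1.1 * p.1.2.2)
  have he : Function.Injective e := by
    rintro ⟨⟨r, v⟩, hr, hv⟩ ⟨⟨r', v'⟩, hr', hv'⟩ hee
    simp only at hr hv hr' hv'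
    have e1 : (r : ℤ) * v.1 = r' * v'.1 := congrArg Prod.fst hee
    have e2 : (r : ℤ) * v.2 = r' * v'.2 := congrArg Prod.snd hee
    have g1 : Int.gcd ((r : ℤ) * v.1) (r * v.2) = r := by
      rw [Int.gcd_mul_left, Int.isCoprime_iff_gcd_eq_one.1 hv]; simp
    have g2 : Int.gcd ((r' : ℤ) * v'.1) (r' * v'.2) = r' := by
      rw [Int.gcd_mul_left, Int.isCoprime_iff_gcd_eq_one.1 hv']; simp
    have g3 : r = r' := by rw [← g1, e1, e2, g2]
    subst g3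
    have hr0 : (r : ℤ) ≠ 0 := by exact_mod_cast hr.ne'
    have f1 : v.1 = v'.1 := mul_left_cancel₀ hr0 e1
    have f2 : v.2 = v'.2 := mul_left_cancel₀ hr0 e2
    have f3 : v = v' := Prod.ext f1 f2
    subst f3
    rfl
  have hrange : Function.support (fun v : ℤ × ℤ => w v.1 v.2 * h v) ⊆ Set.range e := by
    intro v hv
    have hv0 : v ≠ 0 := by
      rintro rfl
      apply hv
      simp [h0]
    have hg : Int.gcd v.1 v.2 ≠ 0 := by
      intro hg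
      rw [Int.gcd_eq_zero_iff] at hg
      exact hv0 (Prod.ext hg.1 hg.2)
    have d1 := Int.gcd_dvd_left (a := v.1) (b := v.2)
    have d2 := Int.gcd_dvd_right (a := v.1) (b := v.2)
    refine ⟨⟨(Int.gcd v.1 v.2, (v.1 / Int.gcd v.1 v.2, v.2 / Int.gcd v.1 v.2)),
      Nat.pos_of_ne_zero hg, ?_⟩, ?_⟩
    · exact Int.isCoprime_iff_gcd_eq_one.2 (Int.gcd_ediv_gcd_ediv_gcd (Nat.pos_of_ne_zero hg))
    · simp only [e]
      exact Prod.ext (Int.mul_ediv_cancel' d1) (Int.mul_ediv_cancel' d2)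
  have key : ∀ p : ℕ × (ℤ × ℤ), (if IsUnit (p.1 : ZMod M) then (p.1 : ℝ) ^ (-2 * s) else 0) *
      (if IsCoprime p.2.1 p.2.2 then w p.2.1 p.2.2 * h p.2 else 0) =
      A.indicator (fun p => w ((p.1 * p.2.1 : ℤ) : ZMod M) ((p.1 * p.2.2 : ℤ) : ZMod M)
        * h (p.1 * p.2.1, p.1 * p.2.2)) p := by
    rintro ⟨r, v⟩
    rcases Nat.eq_zero_or_pos r with hr | hr
    · subst hr
      have hz : (0 : ℝ) ^ (-2 * s) = 0 := Real.zero_rpow (by linarith)
      rw [Set.indicator_of_notMem (by simp [A])]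
      simp only [Nat.cast_zero, hz, ite_self, zero_mul]
    · by_cases hv : IsCoprime v.1 v.2
      · rw [Set.indicator_of_mem (show ((r, v) : ℕ × (ℤ × ℤ)) ∈ A from ⟨hr, hv⟩)]
        simp only [hv, if_true]
        rw [hh r v hr]
        push_cast
        rw [hw r _ _ hr]
        split_ifs
        · ring
        · ring
      · rw [Set.indicator_of_notMem (fun hA => hv hA.2)]
        simp [hv]
  have hs1 := summable_zM M hs
  have hg : Summable (fun v : ℤ × ℤ => if IsCoprime v.1 v.2 then w v.1 v.2 * h v else 0) := by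
    refine Summable.of_norm_bounded hsum.norm fun v => ?_
    split_ifs
    · exact le_rfl
    · rw [norm_zero]; exact norm_nonneg _
  unfold zM
  rw [tsum_mul_tsum_of_summable_norm hs1.norm hg.norm]
  rw [← he.tsum_eq hrange, tsum_congr key]
  rw [← tsum_subtype A (fun p : ℕ × (ℤ × ℤ) => w ((p.1 * p.2.1 : ℤ) : ZMod M)
    ((p.1 * p.2.2 : ℤ) : ZMod M) * h (p.1 * p.2.1, p.1 * p.2.2))]

/-- torus -/
def tor {M : ℕ} (u : (ZMod M)ˣ) : SL(2, ZMod M) :=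
  ⟨!![((u⁻¹ : (ZMod M)ˣ) : ZMod M), 0; 0, (u : ZMod M)], by simp [det_fin_two]⟩

theorem tor_mul_row {M : ℕ} (u : (ZMod M)ˣ) (g : SL(2, ZMod M)) :
    (tor u * g) 1 0 = u * g 1 0 ∧ (tor u * g) 1 1 = u * g 1 1 := by
  change (!![((u⁻¹ : (ZMod M)ˣ) : ZMod M), 0; 0, (u : ZMod M)] * g.1) 1 0 = _ ∧
    (!![((u⁻¹ : (ZMod M)ˣ) : ZMod M), 0; 0, (u : ZMod M)] * g.1) 1 1 = _
  simp [Matrix.mul_apply, Fin.sum_univ_two]

open Classical in
/-- indicator of the row of `g` -/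
noncomputable def wrow {M : ℕ} (g : SL(2, ZMod M)) (a b : ZMod M) : ℝ :=
  if a = g 1 0 ∧ b = g 1 1 then 1 else 0

open Classical in
theorem wrow_tor_sum {M : ℕ} [NeZero M] (g : SL(2, ZMod M)) (r : ℕ) (a b : ZMod M) :
    ∑ u : (ZMod M)ˣ, wrow (tor u * g) (r * a) (r * b)
      = if IsUnit (r : ZMod M) then ∑ u : (ZMod M)ˣ, wrow (tor u * g) a b else 0 := by
  simp_rw [wrow, (tor_mul_row _ g).1, (tor_mul_row _ g).2]
  split_ifs with hr
  · obtain ⟨v, hv⟩ := hr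
    rw [← Equiv.sum_comp (Equiv.mulLeft v) (fun u : (ZMod M)ˣ =>
      if (r : ZMod M) * a = u * g 1 0 ∧ (r : ZMod M) * b = u * g 1 1 then (1 : ℝ) else 0)]
    refine Finset.sum_congr rfl fun u _ => ?_
    simp only [← hv, Equiv.coe_mulLeft, Units.val_mul, mul_assoc, Units.mul_right_inj]
  · refine Finset.sum_eq_zero fun u _ => ?_
    rw [if_neg]
    rintro ⟨h1, h2⟩
    apply hr
    have hd := det_eq g
    refine IsUnit.of_mul_eq_one (↑u⁻¹ * (g 0 0 * b - g 0 1 * a)) ?_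
    have : (r : ZMod M) * (↑u⁻¹ * (g 0 0 * b - g 0 1 * a))
        = ↑u⁻¹ * (g 0 0 * (r * b) - g 0 1 * (r * a)) := by ring
    rw [this, h1, h2]
    have h3 : (↑u⁻¹ : ZMod M) * (g 0 0 * (↑u * g 1 1) - g 0 1 * (↑u * g 1 0))
        = (↑u⁻¹ * ↑u) * (g 0 0 * g 1 1 - g 0 1 * g 1 0) := by ring
    rw [h3, hd, Units.inv_mul, one_mul]

theorem Nf_smul (x η c d r : ℝ) : Nf x η (r * c) (r * d) = r ^ 2 * Nf x η c d := by
  unfold Nf; ring

theorem im_smul_eq (γ : SL(2, ℤ)) (τ : ℍ) :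
    (γ • τ).im = (Nf τ.re (√τ.im) (γ 1 0) (γ 1 1))⁻¹ := by
  have hy := τ.im_pos
  rw [ModularGroup.im_smul_eq_div_normSq]
  have h1 : Complex.normSq (denom γ τ) = ((γ 1 1 : ℝ) + γ 1 0 * τ.re) ^ 2 + (γ 1 0 * τ.im) ^ 2 := by
    rw [ModularGroup.denom_apply, Complex.normSq_apply]
    simp
    ring
  rw [h1]
  unfold Nf
  have h2 : √τ.im ^ 2 = τ.im := Real.sq_sqrt hy.le
  rw [div_pow, mul_pow (√τ.im), h2]
  have h3 : (((γ 1 1 : ℝ) + γ 1 0 * τ.re) ^ 2 / τ.im + τ.im * (γ 1 0 : ℝ) ^ 2)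
      = (((γ 1 1 : ℝ) + γ 1 0 * τ.re) ^ 2 + (γ 1 0 * τ.im) ^ 2) / τ.im := by
    field_simp
  rw [h3, inv_div]

theorem im_smul_rpow (γ : SL(2, ℤ)) (τ : ℍ) (s : ℝ) :
    (γ • τ).im ^ s = (Nf τ.re (√τ.im) (γ 1 0) (γ 1 1)) ^ (-s) := by
  rw [im_smul_eq, Real.inv_rpow (Nf_nonneg _ _ _ _), Real.rpow_neg (Nf_nonneg _ _ _ _)]

open Classical in
/-- sums over the `γ ≡ g` with `Re γτ ∈ [0, M)` -/
theorem hasSum_window (M : ℕ) [NeZero M] (g : SL(2, ZMod M)) (τ : ℍ) (h : ℤ × ℤ → ℝ)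
    (hsum : Summable (fun v : ℤ × ℤ => wrow g v.1 v.2 * h v)) :
    HasSum (fun γ : SL(2, ℤ) => if red M γ = g ∧ Win M (γ • τ) then h (γ 1 0, γ 1 1) else 0)
      (∑' v : ℤ × ℤ, if IsCoprime v.1 v.2 then wrow g v.1 v.2 * h v else 0) := by
  let A : Set SL(2, ℤ) := {γ | red M γ = g ∧ Win M (γ • τ)}
  let B : Set (ℤ × ℤ) := {v | IsCoprime v.1 v.2 ∧ (v.1 : ZMod M) = g 1 0 ∧ (v.2 : ZMod M) = g 1 1}
  let e : A ≃ B := (row_bijOn M g τ).equiv _
  have hg : Summable (fun v : ℤ × ℤ => if IsCoprime v.1 v.2 then wrow g v.1 v.2 * h v else 0) := by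
    refine Summable.of_norm_bounded hsum.norm fun v => ?_
    split_ifs
    · exact le_rfl
    · rw [norm_zero]; exact norm_nonneg _
  have h1 := hg.hasSum
  have h2 : (fun v : ℤ × ℤ => if IsCoprime v.1 v.2 then wrow g v.1 v.2 * h v else 0)
      = B.indicator h := by
    funext v
    by_cases hv : v ∈ B
    · rw [Set.indicator_of_mem hv, if_pos hv.1, wrow, if_pos hv.2, one_mul]
    · rw [Set.indicator_of_notMem hv]
      split_ifs with hc
      · rw [wrow, if_neg (fun hh => hv ⟨hc, hh⟩), zero_mul]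
      · rfl
  rw [h2] at h1 ⊢
  have h3 : (fun γ : SL(2, ℤ) => if red M γ = g ∧ Win M (γ • τ) then h (γ 1 0, γ 1 1) else 0)
      = A.indicator (fun γ => h (γ 1 0, γ 1 1)) := by
    funext γ
    by_cases hγ : γ ∈ A
    · rw [Set.indicator_of_mem hγ]
      exact if_pos hγ
    · rw [Set.indicator_of_notMem hγ]
      exact if_neg hγ
  rw [h3]
  have h4 := hasSum_subtype_iff_indicator.2 h1
  have h5 := e.hasSum_iff.2 h4
  exact hasSum_subtype_iff_indicator.1 h5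

/-- the constant `K(s)` -/
noncomputable def KM (M : ℕ) (s : ℝ) : ℝ := J s * J (s - 1 / 2) / M ^ 2

theorem mem_fd_facts {τ : ℍ} (hτ : τ ∈ 𝒟) :
    0 < √τ.im ∧ |τ.re| ≤ 1 / 2 ∧ 1 ≤ τ.re ^ 2 + (√τ.im) ^ 4 := by
  have hy := τ.im_pos
  refine ⟨Real.sqrt_pos.2 hy, hτ.2, ?_⟩
  have h1 := hτ.1
  rw [Complex.normSq_apply] at h1
  have h2 : (√τ.im) ^ 4 = τ.im ^ 2 := by
    rw [show (4 : ℕ) = 2 * 2 by norm_num, pow_mul, Real.sq_sqrt hy.le]
  rw [h2]
  simp only [coe_re, coe_im] at h1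
  nlinarith

open Classical in
theorem sum_wrow {M : ℕ} [NeZero M] (g : SL(2, ZMod M)) : ∑ a, ∑ b, wrow g a b = 1 := by
  have h : ∀ a b, wrow g a b = if a = g 1 0 then (if b = g 1 1 then (1 : ℝ) else 0) else 0 := by
    intro a b
    unfold wrow
    split_ifs <;> simp_all
  simp_rw [h]
  rw [Finset.sum_eq_single (g 1 0)]
  · simp
  · intro b _ hb
    simp [hb]
  · intro hb
    exact absurd (Finset.mem_univ _) hb

theorem abs_wrow_le {M : ℕ} (g : SL(2, ZMod M)) (a b : ZMod M) : |wrow g a b| ≤ 1 := by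
  unfold wrow
  split_ifs <;> simp

open Classical in
/-- the window sum -/
noncomputable def winSum (M : ℕ) (s : ℝ) (τ : ℍ) (ψ : SL(2, ZMod M) → ℂ) (γ : SL(2, ℤ)) : ℂ :=
  if Win M (γ • τ) then (((γ • τ).im ^ s : ℝ) : ℂ) * ψ (red M γ) else 0

open Classical in
/-- **The Eisenstein estimate.** -/
theorem eisenstein_bound (M : ℕ) [NeZero M] : ∃ C : ℝ, 0 ≤ C ∧ ∀ s : ℝ, 1 < s → s ≤ 2 →
    ∀ τ ∈ 𝒟, ∀ ψ : SL(2, ZMod M) → ℂ, (∀ u g, ψ (tor u * g) = ψ g) →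
    Summable (winSum M s τ ψ) ∧
    ‖(zM M s : ℂ) * ∑' γ, winSum M s τ ψ γ - (KM M s : ℂ) * ∑ g, ψ g‖
      ≤ C * τ.im ^ 3 * ∑ g, ‖ψ g‖ := by
  obtain ⟨C, hC0, hC⟩ := epstein M
  refine ⟨C, hC0, fun s hs hs2 τ hτ ψ hψ => ?_⟩
  obtain ⟨k1, k2, k3⟩ := mem_fd_facts hτ
  let h : ℤ × ℤ → ℝ := fun v => (Nf τ.re (√τ.im) v.1 v.2) ^ (-s)
  have hg : ∀ g : SL(2, ZMod M), Summable (fun v : ℤ × ℤ => wrow g v.1 v.2 * h v) ∧
      |∑' v : ℤ × ℤ, wrow g v.1 v.2 * h v - KM M s| ≤ C * τ.im ^ 3 := by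
    intro g
    obtain ⟨a1, a2⟩ := hC τ.re (√τ.im) s k1 k2 k3 hs hs2 (wrow g) (abs_wrow_le g)
    rw [sum_wrow, one_mul] at a2
    refine ⟨a1, ?_⟩
    have e : (√τ.im) ^ 6 = τ.im ^ 3 := by
      rw [show (6 : ℕ) = 2 * 3 by norm_num, pow_mul, Real.sq_sqrt τ.im_pos.le]
    rw [e] at a2
    exact a2
  let Z : SL(2, ZMod M) → ℝ := fun g =>
    ∑' v : ℤ × ℤ, if IsCoprime v.1 v.2 then wrow g v.1 v.2 * h v else 0
  have hZ : ∀ g : SL(2, ZMod M),
      Summable (fun v : ℤ × ℤ => if IsCoprime v.1 v.2 then wrow g v.1 v.2 * h v else 0) := by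
    intro g
    refine Summable.of_norm_bounded (hg g).1.norm fun v => ?_
    split_ifs
    · exact le_rfl
    · rw [norm_zero]; exact norm_nonneg _
  -- the sum over γ
  have hF : HasSum (winSum M s τ ψ) (∑ g, (Z g : ℂ) * ψ g) := by
    have h1 : ∀ g ∈ (Finset.univ : Finset SL(2, ZMod M)), HasSum (fun γ : SL(2, ℤ) =>
        (((if red M γ = g ∧ Win M (γ • τ) then h (γ 1 0, γ 1 1) else 0 : ℝ)) : ℂ) * ψ g)
        ((Z g : ℂ) * ψ g) := fun g _ =>
      (Complex.hasSum_ofReal.2 (hasSum_window M g τ h (hg g).1)).mul_right _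
    have h2 := hasSum_sum h1
    have e : winSum M s τ ψ = fun γ => ∑ g ∈ (Finset.univ : Finset SL(2, ZMod M)),
        (((if red M γ = g ∧ Win M (γ • τ) then h (γ 1 0, γ 1 1) else 0 : ℝ)) : ℂ) * ψ g := by
      funext γ
      rw [Finset.sum_eq_single (red M γ)]
      · unfold winSum
        by_cases hW : Win M (γ • τ)
        · rw [if_pos hW, if_pos ⟨rfl, hW⟩, im_smul_rpow]
        · rw [if_neg hW, if_neg (fun hh => hW hh.2)]
          simp
      · intro g _ hg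
        rw [if_neg (fun hh => hg hh.1.symm)]
        simp
      · intro hh
        exact absurd (Finset.mem_univ _) hh
    rw [e]
    exact h2
  refine ⟨hF.summable, ?_⟩
  rw [hF.tsum_eq]
  -- homogeneity of `h`
  have h0 : h 0 = 0 := by
    have : Nf τ.re (√τ.im) 0 0 = 0 := by unfold Nf; simp
    simp only [h, Prod.fst_zero, Prod.snd_zero, Int.cast_zero, this]
    exact Real.zero_rpow (by linarith)
  have hh : ∀ (r : ℕ) (v : ℤ × ℤ), 0 < r → h (r * v.1, r * v.2) = (r : ℝ) ^ (-2 * s) * h v := by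
    intro r v hr
    have hr' : (0 : ℝ) ≤ r := Nat.cast_nonneg _
    simp only [h]
    push_cast
    rw [Nf_smul, Real.mul_rpow (by positivity) (Nf_nonneg _ _ _ _)]
    congr 1
    rw [← Real.rpow_natCast, ← Real.rpow_mul hr']
    congr 1
    push_cast
    ring
  -- the averaged weights
  have hA : ∀ g : SL(2, ZMod M), zM M s * ∑ u, Z (tor u * g)
      = ∑ u, ∑' v : ℤ × ℤ, wrow (tor u * g) v.1 v.2 * h v := by
    intro g
    have t1 : ∑ u, Z (tor u * g) = ∑' v : ℤ × ℤ, if IsCoprime v.1 v.2 then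
        (∑ u, wrow (tor u * g) v.1 v.2) * h v else 0 := by
      rw [← Summable.tsum_finsetSum (fun u _ => hZ (tor u * g))]
      refine tsum_congr fun v => ?_
      split_ifs
      · rw [Finset.sum_mul]
      · simp
    have t2 : ∑ u, ∑' v : ℤ × ℤ, wrow (tor u * g) v.1 v.2 * h v
        = ∑' v : ℤ × ℤ, (∑ u, wrow (tor u * g) v.1 v.2) * h v := by
      rw [← Summable.tsum_finsetSum (fun u _ => (hg (tor u * g)).1)]
      refine tsum_congr fun v => ?_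
      rw [Finset.sum_mul]
    rw [t1, t2]
    refine (gcd_split M hs h h0 hh (fun a b => ∑ u, wrow (tor u * g) a b) ?_ ?_).symm
    · have := summable_sum (s := Finset.univ) (fun u _ => (hg (tor u * g)).1)
      refine this.congr fun v => ?_
      rw [Finset.sum_mul]
    · intro r a b _
      rw [wrow_tor_sum g r a b]
      split_ifs <;> rfl
  have hcard : (0 : ℝ) < Fintype.card (ZMod M)ˣ := by exact_mod_cast Fintype.card_pos
  -- sum over u
  have hB : (Fintype.card (ZMod M)ˣ : ℂ) * ∑ g, (Z g : ℂ) * ψ g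
      = ∑ g, ((∑ u, Z (tor u * g) : ℝ) : ℂ) * ψ g := by
    have t1 : ∀ u : (ZMod M)ˣ, ∑ g, (Z (tor u * g) : ℂ) * ψ g = ∑ g, (Z g : ℂ) * ψ g := by
      intro u
      rw [← Equiv.sum_comp (Equiv.mulLeft (tor u)) (fun g => (Z g : ℂ) * ψ g)]
      refine Finset.sum_congr rfl fun g _ => ?_
      simp only [Equiv.coe_mulLeft, hψ]
    push_cast
    simp_rw [Finset.sum_mul]
    rw [Finset.sum_comm]
    simp_rw [t1]
    simp
  have hD : (Fintype.card (ZMod M)ˣ : ℂ) *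
      ((zM M s : ℂ) * ∑ g, (Z g : ℂ) * ψ g - (KM M s : ℂ) * ∑ g, ψ g)
      = ∑ g, ((∑ u, (∑' v : ℤ × ℤ, wrow (tor u * g) v.1 v.2 * h v - KM M s) : ℝ) : ℂ) * ψ g := by
    have t1 : ∀ g : SL(2, ZMod M),
        ((∑ u, (∑' v : ℤ × ℤ, wrow (tor u * g) v.1 v.2 * h v - KM M s) : ℝ) : ℂ) * ψ g
        = (zM M s : ℂ) * (((∑ u, Z (tor u * g) : ℝ) : ℂ) * ψ g)
          - (Fintype.card (ZMod M)ˣ : ℂ) * ((KM M s : ℂ) * ψ g) := by
      intro g
      rw [Finset.sum_sub_distrib, ← hA]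
      push_cast
      simp
      ring
    simp_rw [t1]
    rw [Finset.sum_sub_distrib, ← Finset.mul_sum, ← Finset.mul_sum, ← Finset.mul_sum, ← hB]
    ring
  have hE : (Fintype.card (ZMod M)ˣ : ℝ) *
      ‖(zM M s : ℂ) * ∑ g, (Z g : ℂ) * ψ g - (KM M s : ℂ) * ∑ g, ψ g‖
      ≤ (Fintype.card (ZMod M)ˣ : ℝ) * (C * τ.im ^ 3 * ∑ g, ‖ψ g‖) := by
    have t1 : (Fintype.card (ZMod M)ˣ : ℝ) = ‖(Fintype.card (ZMod M)ˣ : ℂ)‖ := by simp
    conv_lhs => rw [t1]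
    rw [← norm_mul, hD]
    refine (norm_sum_le _ _).trans ?_
    rw [Finset.mul_sum, Finset.mul_sum]
    refine Finset.sum_le_sum fun g _ => ?_
    rw [norm_mul, Complex.norm_real, ← mul_assoc]
    refine mul_le_mul_of_nonneg_right ?_ (norm_nonneg _)
    refine (norm_sum_le _ _).trans ?_
    refine (Finset.sum_le_sum fun u _ => (hg (tor u * g)).2).trans ?_
    simp
  exact le_of_mul_le_mul_left hE hcard

end Fermat.Agent.LT.H5
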