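import Fermat.Agent.LT.H5.Sums

/-!
LT piece H5 (helper74): the Epstein zeta function with a residue condition is a function of `s`
up to a bounded error, uniformly for `1 < s ≤ 2`.
-/

open Real Set MeasureTheory Filter

namespace Fermat.Agent.LT.H5

theorem Nf_lower {x η : ℝ} (hη : 0 < η) (hx : |x| ≤ 1 / 2) (h1 : 1 ≤ x ^ 2 + η ^ 4) (c d : ℝ) :
    (c ^ 2 + d ^ 2) / (2 * η ^ 2) ≤ Nf x η c d := by
  unfold Nf
  rw [div_pow, div_le_iff₀ (by positivity)]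
  have h2 : (((d + c * x) ^ 2) / η ^ 2 + (η * c) ^ 2) * (2 * η ^ 2)
      = 2 * ((d + c * x) ^ 2 + η ^ 4 * c ^ 2) := by
    field_simp
  rw [h2]
  obtain ⟨hx1, hx2⟩ := abs_le.1 hx
  have h3 : (d + c * x) ^ 2 + η ^ 4 * c ^ 2 = d ^ 2 + 2 * (c * d) * x + c ^ 2 * (x ^ 2 + η ^ 4) := by
    ring
  have h4 : c ^ 2 ≤ c ^ 2 * (x ^ 2 + η ^ 4) := by nlinarith [sq_nonneg c]
  have h5 : -(c ^ 2 + d ^ 2) ≤ 4 * (c * d) * x := by
    rcases le_or_gt 0 (c * d) with h | h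
    · nlinarith [sq_nonneg (c - d), sq_nonneg (c + d)]
    · nlinarith [sq_nonneg (c - d), sq_nonneg (c + d)]
  nlinarith

theorem rpow_diff_le {N s : ℝ} (hN : 0 < N) (hs : 1 ≤ s) :
    |N ^ (-s) - (1 + N) ^ (-s)| ≤ s * N ^ (-(s + 1)) := by
  have hN1 : 0 < 1 + N := by linarith
  have h1 : (1 + N) ^ (-s) ≤ N ^ (-s) :=
    rpow_le_rpow_of_nonpos hN (by linarith) (by linarith)
  rw [abs_of_nonneg (by linarith)]
  have h2 : (1 + N) ^ (-s) = N ^ (-s) * (1 + -(1 / (1 + N))) ^ s := by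
    have : 1 + -(1 / (1 + N)) = N / (1 + N) := by field_simp; ring
    rw [this, div_rpow hN.le hN1.le, rpow_neg hN.le, rpow_neg hN1.le]
    have := (rpow_pos_of_pos hN s).ne'
    have := (rpow_pos_of_pos hN1 s).ne'
    field_simp
  have h3 : 1 + s * -(1 / (1 + N)) ≤ (1 + -(1 / (1 + N))) ^ s := by
    refine one_add_mul_self_le_rpow_one_add ?_ hs
    rw [neg_le_neg_iff, div_le_one hN1]
    linarith
  have h4 : N ^ (-(s + 1)) = N ^ (-s) * N⁻¹ := by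
    rw [show -(s + 1) = -s + -1 by ring, rpow_add hN, rpow_neg_one]
  rw [h2, h4]
  have h5 : 0 < N ^ (-s) := rpow_pos_of_pos hN _
  have h6 : 1 / (1 + N) ≤ N⁻¹ := by
    rw [one_div]
    exact inv_anti₀ hN (by linarith)
  have h7 : 1 - (1 + -(1 / (1 + N))) ^ s ≤ s * N⁻¹ := by nlinarith
  nlinarith

/-- `(c² + d²)^(-2)` is summable. -/
theorem summable_base : Summable (fun v : ℤ × ℤ => ((v.1 : ℝ) ^ 2 + (v.2 : ℝ) ^ 2) ^ (-2 : ℝ)) := by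
  have h := EisensteinSeries.summable_one_div_norm_rpow (k := 4) (by norm_num)
  rw [← (finTwoArrowEquiv _).symm.summable_iff] at h
  refine Summable.of_nonneg_of_le (fun v => rpow_nonneg (by positivity) _) (fun v => ?_) h
  simp only [Function.comp_apply, finTwoArrowEquiv_symm_apply]
  by_cases hv : v = 0
  · subst hv
    simp
  · have hn : 0 < ‖![v.1, v.2]‖ := by
      rw [norm_pos_iff]
      intro h0
      apply hv
      ext
      · simpa using congrFun h0 0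
      · simpa using congrFun h0 1
    have h1 : ‖![v.1, v.2]‖ ^ 2 ≤ (v.1 : ℝ) ^ 2 + (v.2 : ℝ) ^ 2 := by
      rw [EisensteinSeries.norm_eq_max_natAbs]
      simp only [Matrix.cons_val_zero, Matrix.cons_val_one]
      rcases le_total v.1.natAbs v.2.natAbs with h | h
      · rw [max_eq_right h]
        have : ((v.2.natAbs : ℕ) : ℝ) ^ 2 = (v.2 : ℝ) ^ 2 := by
          rw [Nat.cast_natAbs, Int.cast_abs, sq_abs]
        push_cast
        rw [this]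
        nlinarith [sq_nonneg (v.1 : ℝ)]
      · rw [max_eq_left h]
        have : ((v.1.natAbs : ℕ) : ℝ) ^ 2 = (v.1 : ℝ) ^ 2 := by
          rw [Nat.cast_natAbs, Int.cast_abs, sq_abs]
        push_cast
        rw [this]
        nlinarith [sq_nonneg (v.2 : ℝ)]
    calc ((v.1 : ℝ) ^ 2 + (v.2 : ℝ) ^ 2) ^ (-2 : ℝ) ≤ (‖![v.1, v.2]‖ ^ 2) ^ (-2 : ℝ) :=
          rpow_le_rpow_of_nonpos (by positivity) h1 (by norm_num)
      _ = ‖![v.1, v.2]‖ ^ (-4 : ℝ) := by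
          rw [← rpow_natCast, ← rpow_mul hn.le]
          norm_num

/-- the constant -/
noncomputable def baseSum : ℝ := ∑' v : ℤ × ℤ, ((v.1 : ℝ) ^ 2 + (v.2 : ℝ) ^ 2) ^ (-2 : ℝ)

theorem one_le_sq_add_sq {v : ℤ × ℤ} (hv : v ≠ 0) : (1 : ℝ) ≤ (v.1 : ℝ) ^ 2 + (v.2 : ℝ) ^ 2 := by
  have h : 0 < v.1 ^ 2 + v.2 ^ 2 := by
    by_contra h
    push Not at h
    apply hv
    have h1 := sq_nonneg v.1
    have h2 := sq_nonneg v.2
    have h3 : v.1 ^ 2 = 0 := by omega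
    have h4 : v.2 ^ 2 = 0 := by omega
    exact Prod.ext ((pow_eq_zero_iff two_ne_zero).1 h3) ((pow_eq_zero_iff two_ne_zero).1 h4)
  exact_mod_cast h

theorem half_le_of {x η : ℝ} (hη : 0 < η) (hx : |x| ≤ 1 / 2) (h1 : 1 ≤ x ^ 2 + η ^ 4) :
    3 / 4 ≤ η ^ 4 ∧ 1 / 2 ≤ η ∧ 1 ≤ 2 * η ^ 2 := by
  have h2 : x ^ 2 ≤ 1 / 4 := by
    rw [← sq_abs]
    nlinarith [abs_nonneg x]
  have h3 : 3 / 4 ≤ η ^ 4 := by linarith
  have h4 : 1 ≤ 2 * η ^ 2 := by nlinarith [sq_nonneg η, sq_nonneg (η ^ 2)]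
  refine ⟨h3, ?_, h4⟩
  nlinarith

/-- bound for the difference between the Epstein summand and the smoothed one -/
theorem diff_bound {x η s : ℝ} (hη : 0 < η) (hx : |x| ≤ 1 / 2) (h1 : 1 ≤ x ^ 2 + η ^ 4)
    (hs : 1 < s) (hs2 : s ≤ 2) {v : ℤ × ℤ} (hv : v ≠ 0) :
    |(Nf x η v.1 v.2) ^ (-s) - (1 + Nf x η v.1 v.2) ^ (-s)|
      ≤ 16 * η ^ 6 * ((v.1 : ℝ) ^ 2 + (v.2 : ℝ) ^ 2) ^ (-2 : ℝ) := by
  obtain ⟨-, -, h4⟩ := half_le_of hη hx h1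
  have h5 := Nf_lower hη hx h1 v.1 v.2
  have h6 := one_le_sq_add_sq hv
  have h7 : 0 < ((v.1 : ℝ) ^ 2 + (v.2 : ℝ) ^ 2) / (2 * η ^ 2) := by positivity
  refine (rpow_diff_le (h7.trans_le h5) hs.le).trans ?_
  calc s * Nf x η v.1 v.2 ^ (-(s + 1))
      ≤ 2 * (((v.1 : ℝ) ^ 2 + (v.2 : ℝ) ^ 2) / (2 * η ^ 2)) ^ (-(s + 1)) := by
        refine mul_le_mul hs2 (rpow_le_rpow_of_nonpos h7 h5 (by linarith)) ?_ (by norm_num)
        exact rpow_nonneg (h7.trans_le h5).le _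
    _ = 2 * ((2 * η ^ 2) ^ (s + 1) * ((v.1 : ℝ) ^ 2 + (v.2 : ℝ) ^ 2) ^ (-(s + 1))) := by
        rw [div_rpow (by positivity) (by positivity), rpow_neg (by positivity : 0 ≤ 2 * η ^ 2),
          div_inv_eq_mul, mul_comm ((2 * η ^ 2) ^ (s + 1))]
    _ ≤ 2 * ((2 * η ^ 2) ^ (3 : ℝ) * ((v.1 : ℝ) ^ 2 + (v.2 : ℝ) ^ 2) ^ (-2 : ℝ)) := by
        have k1 : (2 * η ^ 2) ^ (s + 1) ≤ (2 * η ^ 2) ^ (3 : ℝ) :=
          rpow_le_rpow_of_exponent_le h4 (by linarith)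
        have k2 : ((v.1 : ℝ) ^ 2 + (v.2 : ℝ) ^ 2) ^ (-(s + 1))
            ≤ ((v.1 : ℝ) ^ 2 + (v.2 : ℝ) ^ 2) ^ (-2 : ℝ) :=
          rpow_le_rpow_of_exponent_le h6 (by linarith)
        gcongr
    _ = _ := by
        rw [show (3 : ℝ) = (3 : ℕ) by norm_num, rpow_natCast]
        ring

/-- splitting `ℤ × ℤ` in residue classes -/
def splitEquiv (M : ℕ) [NeZero M] : (Fin M × Fin M) × (ℤ × ℤ) ≃ ℤ × ℤ :=
  (Equiv.prodProdProdComm _ _ _ _).trans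
    (((Equiv.prodComm _ _).trans (Int.divModEquiv M).symm).prodCongr
      ((Equiv.prodComm _ _).trans (Int.divModEquiv M).symm))

theorem splitEquiv_fst (M : ℕ) [NeZero M] (a : (Fin M × Fin M) × (ℤ × ℤ)) :
    (splitEquiv M a).1 = (a.1.1 : ℕ) + M * a.2.1 := by
  simp [splitEquiv, Int.divModEquiv]
  ring

theorem splitEquiv_snd (M : ℕ) [NeZero M] (a : (Fin M × Fin M) × (ℤ × ℤ)) :
    (splitEquiv M a).2 = (a.1.2 : ℕ) + M * a.2.2 := by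
  simp [splitEquiv, Int.divModEquiv]
  ring

theorem sum_fin_eq (M : ℕ) [NeZero M] {E : Type*} [AddCommMonoid E] (f : ZMod M → E) :
    ∑ a : Fin M, f ((a : ℕ) : ZMod M) = ∑ a : ZMod M, f a := by
  refine Fintype.sum_bijective (fun a : Fin M => ((a : ℕ) : ZMod M)) ?_ _ _ (fun a => rfl)
  refine (Fintype.bijective_iff_injective_and_card _).2 ⟨?_, by simp⟩
  intro a b hab
  have h : ((a : ℕ) : ZMod M) = ((b : ℕ) : ZMod M) := hab
  rw [ZMod.natCast_eq_natCast_iff', Nat.mod_eq_of_lt a.2, Nat.mod_eq_of_lt b.2] at h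
  exact Fin.ext h

/-- sums over `ℤ²` weighted by a function of the residues -/
theorem tsum_split (M : ℕ) [NeZero M] (w : ZMod M → ZMod M → ℝ) (f : ℤ × ℤ → ℝ)
    (hf : Summable f) : Summable (fun v : ℤ × ℤ => w v.1 v.2 * f v) ∧
    ∑' v : ℤ × ℤ, w v.1 v.2 * f v = ∑ a : Fin M, ∑ b : Fin M,
      w ((a : ℕ) : ZMod M) ((b : ℕ) : ZMod M) *
        ∑' p : ℤ × ℤ, f ((a : ℕ) + M * p.1, (b : ℕ) + M * p.2) := by
  obtain ⟨B, hB⟩ : ∃ B, ∀ a b, |w a b| ≤ B := by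
    refine ⟨∑ a, ∑ b, |w a b|, fun a b => ?_⟩
    refine (Finset.single_le_sum (f := fun b => |w a b|) (fun _ _ => abs_nonneg _)
      (Finset.mem_univ b)).trans ?_
    exact Finset.single_le_sum (f := fun a => ∑ b, |w a b|)
      (fun _ _ => Finset.sum_nonneg fun _ _ => abs_nonneg _) (Finset.mem_univ a)
  have hF : Summable (fun v : ℤ × ℤ => w v.1 v.2 * f v) := by
    refine Summable.of_norm_bounded (hf.norm.mul_left B) fun v => ?_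
    rw [norm_mul]
    exact mul_le_mul_of_nonneg_right (hB _ _) (norm_nonneg _)
  refine ⟨hF, ?_⟩
  rw [← (splitEquiv M).tsum_eq, ← Fintype.sum_prod_type'
    (f := fun a b : Fin M => w ((a : ℕ) : ZMod M) ((b : ℕ) : ZMod M) *
        ∑' p : ℤ × ℤ, f ((a : ℕ) + M * p.1, (b : ℕ) + M * p.2))]
  have hF2 : Summable (fun c : (Fin M × Fin M) × (ℤ × ℤ) =>
      w ((splitEquiv M c).1) ((splitEquiv M c).2) * f (splitEquiv M c)) :=
    (splitEquiv M).summable_iff.2 hF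
  rw [hF2.tsum_prod, tsum_fintype]
  refine Finset.sum_congr rfl fun ab _ => ?_
  rw [← tsum_mul_left]
  refine tsum_congr fun p => ?_
  have e : splitEquiv M (ab, p) = ((ab.1 : ℕ) + M * p.1, (ab.2 : ℕ) + M * p.2) :=
    Prod.ext (splitEquiv_fst M _) (splitEquiv_snd M _)
  rw [e]
  simp

theorem summable_smooth (M : ℕ) [NeZero M] {x η s : ℝ} (hη : 1 / 2 ≤ η) (hs : 1 < s)
    (hs2 : s ≤ 2) : Summable (fun v : ℤ × ℤ => (1 + Nf x η v.1 v.2) ^ (-s)) := by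
  have := (smooth (x := x) (M := 1) le_rfl hη hs hs2 0 0).1
  simpa using this

theorem smooth_split (M : ℕ) [NeZero M] {x η s : ℝ} (hη : 1 / 2 ≤ η) (hs : 1 < s) (hs2 : s ≤ 2)
    (w : ZMod M → ZMod M → ℝ) (hw : ∀ a b, |w a b| ≤ 1) :
    |∑' v : ℤ × ℤ, w v.1 v.2 * (1 + Nf x η v.1 v.2) ^ (-s)
      - (∑ a, ∑ b, w a b) * (J s * J (s - 1 / 2) / M ^ 2)| ≤ M ^ 2 * (51 * π ^ 2 * η) := by
  have hM : (1 : ℝ) ≤ M := by exact_mod_cast NeZero.one_le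
  rw [(tsum_split M w _ (summable_smooth M hη hs hs2)).2, ← sum_fin_eq M (fun a => ∑ b, w a b),
    Finset.sum_mul, ← Finset.sum_sub_distrib]
  have e : ∀ a : Fin M, (∑ b : ZMod M, w ((a : ℕ) : ZMod M) b)
      = ∑ b : Fin M, w ((a : ℕ) : ZMod M) ((b : ℕ) : ZMod M) := fun a =>
    (sum_fin_eq M (fun b => w ((a : ℕ) : ZMod M) b)).symm
  simp_rw [e, Finset.sum_mul, ← Finset.sum_sub_distrib, ← mul_sub]
  refine (Finset.abs_sum_le_sum_abs _ _).trans ?_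
  have h1 : ∀ a b : Fin M, |w ((a : ℕ) : ZMod M) ((b : ℕ) : ZMod M) *
      (∑' p : ℤ × ℤ, (1 + Nf x η (((a : ℕ) + M * p.1 : ℤ) : ℝ) (((b : ℕ) + M * p.2 : ℤ) : ℝ)) ^ (-s)
        - J s * J (s - 1 / 2) / M ^ 2)| ≤ 51 * π ^ 2 * η := by
    intro a b
    rw [abs_mul]
    have h2 := (smooth (x := x) hM hη hs hs2 (a : ℕ) (b : ℕ)).2
    push_cast
    calc _ ≤ 1 * (51 * π ^ 2 * η) := mul_le_mul (hw _ _) h2 (abs_nonneg _) zero_le_one
      _ = _ := one_mul _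
  calc ∑ a : Fin M, |∑ b : Fin M, w ((a : ℕ) : ZMod M) ((b : ℕ) : ZMod M) *
      (∑' p : ℤ × ℤ, (1 + Nf x η (((a : ℕ) + M * p.1 : ℤ) : ℝ) (((b : ℕ) + M * p.2 : ℤ) : ℝ)) ^ (-s)
        - J s * J (s - 1 / 2) / M ^ 2)|
      ≤ ∑ a : Fin M, ∑ b : Fin M, 51 * π ^ 2 * η :=
        Finset.sum_le_sum fun a _ => (Finset.abs_sum_le_sum_abs _ _).trans
          (Finset.sum_le_sum fun b _ => h1 a b)
    _ = _ := by
        simp
        ring

/-- **Epstein zeta function with residue conditions.** -/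
theorem epstein (M : ℕ) [NeZero M] : ∃ C : ℝ, 0 ≤ C ∧ ∀ x η s : ℝ, 0 < η → |x| ≤ 1 / 2 →
    1 ≤ x ^ 2 + η ^ 4 → 1 < s → s ≤ 2 → ∀ w : ZMod M → ZMod M → ℝ, (∀ a b, |w a b| ≤ 1) →
    Summable (fun v : ℤ × ℤ => w v.1 v.2 * (Nf x η v.1 v.2) ^ (-s)) ∧
    |∑' v : ℤ × ℤ, w v.1 v.2 * (Nf x η v.1 v.2) ^ (-s)
      - (∑ a, ∑ b, w a b) * (J s * J (s - 1 / 2) / M ^ 2)| ≤ C * η ^ 6 := by
  classical
  refine ⟨M ^ 2 * (51 * π ^ 2 * 32) + (64 + 16 * baseSum), ?_, ?_⟩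
  · have : 0 ≤ baseSum := tsum_nonneg fun v => rpow_nonneg (by positivity) _
    positivity
  intro x η s hη hx h1 hs hs2 w hw
  obtain ⟨h3, h4, h5⟩ := half_le_of hη hx h1
  -- the difference
  let D : ℤ × ℤ → ℝ := fun v => (Nf x η v.1 v.2) ^ (-s) - (1 + Nf x η v.1 v.2) ^ (-s)
  let g : ℤ × ℤ → ℝ := fun v => (if v = 0 then 1 else 0) +
    16 * η ^ 6 * ((v.1 : ℝ) ^ 2 + (v.2 : ℝ) ^ 2) ^ (-2 : ℝ)
  have hDg : ∀ v, |D v| ≤ g v := by
    intro v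
    by_cases hv : v = 0
    · subst hv
      have e0 : (0 : ℝ) ^ (-s) = 0 := zero_rpow (by linarith)
      simp [D, g, Nf, e0]
    · simp only [D, g, hv, if_false, zero_add]
      exact diff_bound hη hx h1 hs hs2 hv
  have hgs : HasSum g (1 + 16 * η ^ 6 * baseSum) := by
    refine HasSum.add ?_ (summable_base.hasSum.mul_left _)
    exact hasSum_ite_eq 0 1
  have hDs : Summable D := Summable.of_norm_bounded hgs.summable hDg
  have hsm := summable_smooth M (x := x) h4 hs hs2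
  have hN : Summable (fun v : ℤ × ℤ => (Nf x η v.1 v.2) ^ (-s)) := by
    refine (hDs.add hsm).congr fun v => ?_
    simp only [D]; ring
  obtain ⟨t1, -⟩ := tsum_split M w _ hN
  obtain ⟨t2, -⟩ := tsum_split M w _ hsm
  refine ⟨t1, ?_⟩
  have b1 := smooth_split M (x := x) h4 hs hs2 w hw
  have b2 : |∑' v : ℤ × ℤ, w v.1 v.2 * (Nf x η v.1 v.2) ^ (-s)
      - ∑' v : ℤ × ℤ, w v.1 v.2 * (1 + Nf x η v.1 v.2) ^ (-s)| ≤ 1 + 16 * η ^ 6 * baseSum := by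
    rw [← t1.tsum_sub t2, ← hgs.tsum_eq]
    have hb : ∀ v : ℤ × ℤ, ‖w v.1 v.2 * (Nf x η v.1 v.2) ^ (-s)
        - w v.1 v.2 * (1 + Nf x η v.1 v.2) ^ (-s)‖ ≤ g v := by
      intro v
      rw [← mul_sub, norm_mul]
      calc _ ≤ 1 * g v := mul_le_mul (hw _ _) (hDg v) (abs_nonneg _) zero_le_one
        _ = g v := one_mul _
    refine (norm_tsum_le_tsum_norm (Summable.of_nonneg_of_le (fun _ => norm_nonneg _) hb
      hgs.summable)).trans ?_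
    exact Summable.tsum_le_tsum hb (Summable.of_nonneg_of_le (fun _ => norm_nonneg _) hb
      hgs.summable) hgs.summable
  have b3 := abs_sub_le (∑' v : ℤ × ℤ, w v.1 v.2 * (Nf x η v.1 v.2) ^ (-s))
    (∑' v : ℤ × ℤ, w v.1 v.2 * (1 + Nf x η v.1 v.2) ^ (-s))
    ((∑ a, ∑ b, w a b) * (J s * J (s - 1 / 2) / M ^ 2))
  have c1 : η ≤ 32 * η ^ 6 := by
    have h8 : (1 / 2 : ℝ) ^ 5 ≤ η ^ 5 := by gcongr
    nlinarith
  have c2 : (1 : ℝ) ≤ 64 * η ^ 6 := by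
    have h8 : (1 / 2 : ℝ) ^ 6 ≤ η ^ 6 := by gcongr
    nlinarith
  have c3 : (M : ℝ) ^ 2 * (51 * π ^ 2 * η) ≤ (M : ℝ) ^ 2 * (51 * π ^ 2 * (32 * η ^ 6)) := by
    gcongr
  nlinarith

end Fermat.Agent.LT.H5
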