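import Fermat.Agent.LT.J.Lat
import Fermat.Agent.LT.H5.Eis

/-!
LT piece H5 (helper74): elementary matrices over `ℤ[ω]`, `ℤ[ω]/M`, and the embedding of `SL₂(ℤ)`.
-/

open Matrix UpperHalfPlane
open scoped MatrixGroups

noncomputable section

namespace Fermat.Agent.LT.H5

open Fermat.LT Fermat.Agent.LT.J

section mat

variable {A : Type*} [CommRing A]

/-- `diag(a, 1)` -/
def gdg : Aˣ →* GL (Fin 2) A where
  toFun a := ⟨!![(a : A), 0; 0, 1], !![((a⁻¹ : Aˣ) : A), 0; 0, 1], by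
      rw [Matrix.mul_fin_two, Matrix.one_fin_two]; simp, by
      rw [Matrix.mul_fin_two, Matrix.one_fin_two]; simp⟩
  map_one' := by
    apply Units.ext
    simp [Matrix.one_fin_two]
  map_mul' a b := by
    apply Units.ext
    change !![((a * b : Aˣ) : A), 0; 0, 1] = !![(a : A), 0; 0, 1] * !![(b : A), 0; 0, 1]
    rw [Matrix.mul_fin_two]
    simp

theorem gdg_val (a : Aˣ) : (gdg a).1 = !![(a : A), 0; 0, 1] := rfl

/-- unipotent matrix -/
def gun (b : A) : GL (Fin 2) A := ⟨!![1, b; 0, 1], !![1, -b; 0, 1], by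
      rw [Matrix.mul_fin_two, Matrix.one_fin_two]; simp, by
      rw [Matrix.mul_fin_two, Matrix.one_fin_two]; simp⟩

theorem gun_val (b : A) : (gun b).1 = !![1, b; 0, 1] := rfl

/-- scalar matrix -/
def gsc (a : Aˣ) : GL (Fin 2) A := ⟨!![(a : A), 0; 0, a], !![((a⁻¹ : Aˣ) : A), 0; 0, (a⁻¹ : Aˣ)], by
      rw [Matrix.mul_fin_two, Matrix.one_fin_two]; simp, by
      rw [Matrix.mul_fin_two, Matrix.one_fin_two]; simp⟩

theorem gsc_val (a : Aˣ) : (gsc a).1 = !![(a : A), 0; 0, a] := rfl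

theorem gdg_mul_gun (a : Aˣ) (b : A) : gdg a * gun b = gun (a * b) * gdg a := by
  apply Units.ext
  rw [Units.val_mul, Units.val_mul, gdg_val, gun_val, gun_val, Matrix.mul_fin_two,
    Matrix.mul_fin_two]
  simp

theorem gun_zero : (gun 0 : GL (Fin 2) A) = 1 := by
  apply Units.ext
  rw [gun_val, Units.val_one, Matrix.one_fin_two]

/-- `SL₂ → GL₂` along a ring homomorphism -/
def slGL {R : Type*} [CommRing R] (f : R →+* A) : SL(2, R) →* GL (Fin 2) A :=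
  (Matrix.GeneralLinearGroup.map (n := Fin 2) f).comp Matrix.SpecialLinearGroup.toGL

theorem slGL_val {R : Type*} [CommRing R] (f : R →+* A) (g : SL(2, R)) (i j : Fin 2) :
    (slGL f g).1 i j = f (g i j) := rfl

end mat

/-- reduction `GL₂(ℤ[ω]) → GL₂(ℤ[ω]/M)` -/
def redE (M : ℕ) : GL (Fin 2) EO →* GL (Fin 2) (QE (ZMod M)) :=
  Matrix.GeneralLinearGroup.map (n := Fin 2) (QE.map (Int.castRingHom (ZMod M)))

/-- reduction on elements -/
def rE (M : ℕ) : EO →+* QE (ZMod M) := QE.map (Int.castRingHom (ZMod M))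

theorem redE_val (M : ℕ) (g : GL (Fin 2) EO) (i j : Fin 2) :
    (redE M g).1 i j = rE M (g.1 i j) := rfl

/-- `SL₂(ℤ) → GL₂(ℤ[ω])` -/
def slE : SL(2, ℤ) →* GL (Fin 2) EO := slGL (algebraMap ℤ EO)

/-- `SL₂(ℤ/M) → GL₂(ℤ[ω]/M)` -/
def slM (M : ℕ) : SL(2, ZMod M) →* GL (Fin 2) (QE (ZMod M)) :=
  slGL (algebraMap (ZMod M) (QE (ZMod M)))

theorem rE_algebraMap (M : ℕ) (n : ℤ) : rE M (algebraMap ℤ EO n) = algebraMap (ZMod M) _ (n : ZMod M) := by
  ext
  · simp [rE]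
  · simp [rE]

theorem redE_slE (M : ℕ) (γ : SL(2, ℤ)) : redE M (slE γ) = slM M (red M γ) := by
  apply Units.ext
  ext i j : 1
  rw [redE_val]
  change rE M (algebraMap ℤ EO (γ i j)) = algebraMap (ZMod M) _ ((γ i j : ℤ) : ZMod M)
  rw [rE_algebraMap]

theorem redE_gun (M : ℕ) (b : EO) : redE M (gun b) = gun (rE M b) := by
  apply Units.ext
  ext i j : 1
  rw [redE_val]
  fin_cases i <;> fin_cases j <;> simp [gun_val]

theorem redE_gdg (M : ℕ) (a : EOˣ) : redE M (gdg a) = gdg (Units.map (rE M : EO →* QE (ZMod M)) a) := by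
  apply Units.ext
  ext i j : 1
  rw [redE_val]
  fin_cases i <;> fin_cases j <;> simp [gdg_val]

/-- units of `ℤ/M` in `ℤ[ω]/M` -/
def uM (M : ℕ) : (ZMod M)ˣ →* (QE (ZMod M))ˣ :=
  Units.map (algebraMap (ZMod M) (QE (ZMod M)) : ZMod M →* QE (ZMod M))

theorem uM_val (M : ℕ) (u : (ZMod M)ˣ) : ((uM M u : (QE (ZMod M))ˣ) : QE (ZMod M))
    = algebraMap (ZMod M) _ (u : ZMod M) := rfl

/-- the torus of `SL₂` acts through `diag(u², 1)` modulo scalars -/
theorem tor_inv_mul_gdg (M : ℕ) (u δ : (ZMod M)ˣ) :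
    (slM M (tor u))⁻¹ * gdg (uM M δ) = gsc (uM M u⁻¹) * gdg (uM M (u * u * δ)) := by
  rw [inv_mul_eq_iff_eq_mul]
  apply Units.ext
  rw [Units.val_mul, Units.val_mul, gdg_val, gdg_val, gsc_val]
  have h : (slM M (tor u)).1 = !![algebraMap (ZMod M) (QE (ZMod M)) ((u⁻¹ : (ZMod M)ˣ) : ZMod M), 0;
      0, algebraMap (ZMod M) (QE (ZMod M)) (u : ZMod M)] := by
    ext i j : 1
    change algebraMap (ZMod M) (QE (ZMod M)) ((tor u).1 i j) = _
    fin_cases i <;> fin_cases j <;> simp [tor]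
  rw [h, Matrix.mul_fin_two, Matrix.mul_fin_two]
  simp only [uM_val, Units.val_mul, map_mul, mul_zero, add_zero, zero_mul, zero_add, mul_one]
  have h1 : algebraMap (ZMod M) (QE (ZMod M)) ((u⁻¹ : (ZMod M)ˣ) : ZMod M)
      * algebraMap (ZMod M) (QE (ZMod M)) (u : ZMod M) = 1 := by
    rw [← map_mul, Units.inv_mul, map_one]
  ext i j : 1
  fin_cases i <;> fin_cases j
  · simp only [Fin.zero_eta, of_apply, cons_val_zero]
    linear_combination (-algebraMap (ZMod M) (QE (ZMod M)) (δ : ZMod M)) *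
      (1 + algebraMap (ZMod M) (QE (ZMod M)) ((u⁻¹ : (ZMod M)ˣ) : ZMod M)
      * algebraMap (ZMod M) (QE (ZMod M)) (u : ZMod M)) * h1
  · simp
  · simp
  · have h2 : algebraMap (ZMod M) (QE (ZMod M)) (u : ZMod M)
        * algebraMap (ZMod M) (QE (ZMod M)) ((u⁻¹ : (ZMod M)ˣ) : ZMod M) = 1 := by
      rw [mul_comm, h1]
    change (1 : QE (ZMod M)) = algebraMap (ZMod M) (QE (ZMod M)) (u : ZMod M)
        * algebraMap (ZMod M) (QE (ZMod M)) ((u⁻¹ : (ZMod M)ˣ) : ZMod M)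
    rw [h2]

end Fermat.Agent.LT.H5
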