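import Fermat.Agent.LT.H5.BoxAvg
import Fermat.Agent.LT.H5.Mats
import Fermat.Agent.LT.H.Bessel

/-!
LT piece H5 (helper47), T3: Fourier coefficients of functions `Φ : H3 → GM M → ℂ` and the Hecke
operators.
-/

set_option autoImplicit false

open Matrix MeasureTheory Set

noncomputable section

namespace Fermat.Agent.LT.H5

open Fermat.LT Fermat.Agent.LT.J Fermat.Agent.LT.J.QE Fermat.Agent.LT.H.Bessel

/-! ### More on Fourier coefficients -/

theorem fc_const_mul {M : ℕ} {H : ℂ → ℂ} (hH : Continuous H) (c : ℂ) (μ : EO) :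
    fc M (fun z => c * H z) μ = c * fc M H μ := by
  rw [fc_eq_Av (H := fun z => c * H z) (by fun_prop), fc_eq_Av hH]
  unfold Av
  rw [← integral_const_mul]
  refine integral_congr_ae (Filter.Eventually.of_forall fun z => ?_)
  change (ech M μ z)⁻¹ * (c * H z) = c * ((ech M μ z)⁻¹ * H z)
  ring

theorem fc_add {M : ℕ} {H H' : ℂ → ℂ} (hH : Continuous H) (hH' : Continuous H') (μ : EO) :
    fc M (fun z => H z + H' z) μ = fc M H μ + fc M H' μ := by
  rw [fc_eq_Av (H := fun z => H z + H' z) (by fun_prop), fc_eq_Av hH, fc_eq_Av hH']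
  unfold Av
  rw [← integral_add]
  · refine integral_congr_ae (Filter.Eventually.of_forall fun z => ?_)
    change (ech M μ z)⁻¹ * (H z + H' z) = (ech M μ z)⁻¹ * H z + (ech M μ z)⁻¹ * H' z
    ring
  · exact BoxAvg.integrable_of_continuous (continuous_ech_mul hH μ)
  · exact BoxAvg.integrable_of_continuous (continuous_ech_mul hH' μ)

/-- `fc (H ∘ π) (π μ) = fc H μ` -/
theorem fc_comp_mul {M : ℕ} [NeZero M] {H : ℂ → ℂ} (hH : Continuous H) (hp : PerM M H) {π : EO}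
    (hπ : π ≠ 0) (μ : EO) : fc M (fun z => H (toC π * z)) (π * μ) = fc M H μ := by
  rw [fc_eq_Av (H := fun z => H (toC π * z)) (by fun_prop), fc_eq_Av hH,
    ← Av_comp_mul (continuous_ech_mul hH μ) (per_ech_mul hp μ) hπ]
  simp only [ech_mul_left]

/-- the character of `ℤ[ω] / π` attached to `μ` is trivial only if `π ∣ μ` -/
theorem exists_ech_ne_one (M : ℕ) [NeZero M] {π : EO} (hπ : π ≠ 0) {μ : EO} (h : ¬ π ∣ μ) :
    ∃ β : EO, ech M μ (M * toC β / toC π) ≠ 1 := by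
  by_contra hall
  push Not at hall
  apply h
  have hn : (nm π : ℤ) ≠ 0 := fun h0 => hπ ((nm_eq_zero_iff π).1 h0)
  have hM : (M : ℂ) ≠ 0 := by exact_mod_cast NeZero.ne M
  have h0 : toC π ≠ 0 := (map_ne_zero_iff toC toC_injective).2 hπ
  -- `nm π ∣ im (star π * μ * β)` for all `β`
  have key : ∀ β : EO, nm π ∣ (star π * μ * β).im := by
    intro β
    have h1 := hall β
    have h2 : ech M μ (M * toC β / toC π) =
        Complex.exp (2 * Real.pi * Complex.I * (((star π * μ * β).im : ℂ) / (nm π : ℤ))) := by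
      unfold ech
      congr 2
      have h3 : nu M μ * (M * toC β / toC π) =
          toC (star π * μ * β) / ((((nm π : ℤ) : ℝ) : ℂ) * (Real.sqrt 3 * Complex.I)) := by
        unfold nu
        have h4 : toC (star π) * toC π = (((nm π : ℤ) : ℝ) : ℂ) := by
          rw [← conj_toC, mul_comm, Complex.mul_conj, normSq_toC]
        rw [map_mul, map_mul]
        have h5 : (((nm π : ℤ) : ℝ) : ℂ) ≠ 0 := by exact_mod_cast hn
        have h6 : (Real.sqrt 3 : ℂ) * Complex.I ≠ 0 :=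
          mul_ne_zero (by exact_mod_cast sqrt3_pos.ne') Complex.I_ne_zero
        rw [div_mul_div_comm, div_eq_div_iff (mul_ne_zero (mul_ne_zero hM h6) h0)
          (mul_ne_zero h5 h6), ← h4]
        ring
      rw [h3, two_re_div _ _ (by exact_mod_cast hn), toC_im]
      have h7 := sqrt3_pos
      push_cast
      have h8 : (Real.sqrt 3 : ℂ) ≠ 0 := by exact_mod_cast h7.ne'
      have h9 : ((nm π : ℤ) : ℂ) ≠ 0 := by exact_mod_cast hn
      field_simp
    rw [h2] at h1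
    obtain ⟨m, hm⟩ := Complex.exp_eq_one_iff.1 h1
    refine ⟨m, ?_⟩
    have h9 : ((nm π : ℤ) : ℂ) ≠ 0 := by exact_mod_cast hn
    have hpi : (2 * Real.pi * Complex.I : ℂ) ≠ 0 := Complex.two_pi_I_ne_zero
    have h10 : ((star π * μ * β).im : ℂ) / (nm π : ℤ) = m := by
      have : (2 * Real.pi * Complex.I : ℂ) * (((star π * μ * β).im : ℂ) / (nm π : ℤ)) =
          (2 * Real.pi * Complex.I) * m := by rw [hm]; ring
      exact mul_left_cancel₀ hpi this
    rw [div_eq_iff h9] at h10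
    have h11 : ((star π * μ * β).im : ℂ) = ((nm π * m : ℤ) : ℂ) := by
      rw [h10]; push_cast; ring
    exact_mod_cast h11
  have k1 := key 1
  have k2 := key ⟨0, 1⟩
  rw [mul_one] at k1
  have k3 : nm π ∣ (star π * μ).re := by
    have : (star π * μ * (⟨0, 1⟩ : EO)).im = (star π * μ).re - (star π * μ).im := by
      rw [mul_im]; ring
    rw [this] at k2
    have := dvd_add k2 k1
    rwa [sub_add_cancel] at this
  obtain ⟨a, ha⟩ := k3
  obtain ⟨b, hb⟩ := k1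
  refine ⟨⟨a, b⟩, ?_⟩
  have hs : star π * μ = star π * (π * ⟨a, b⟩) := by
    have h12 : star π * (π * ⟨a, b⟩) = QuadraticAlgebra.C (nm π) * ⟨a, b⟩ := by
      rw [← mul_assoc, mul_comm (star π), mul_star_eq]
    rw [h12, QuadraticAlgebra.C_mul_eq_smul]
    ext
    · rw [ha]; simp
    · rw [hb]; simp
  have hsπ : star π ≠ 0 := by
    intro h13
    apply hπ
    have := congrArg star h13
    simpa using this
  exact mul_left_cancel₀ hsπ hs

/-- `fc (H ∘ π) μ = 0` if `π ∤ μ` -/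
theorem fc_comp_mul_of_not_dvd {M : ℕ} [NeZero M] {H : ℂ → ℂ} (hH : Continuous H) (hp : PerM M H)
    {π : EO} (hπ : π ≠ 0) {μ : EO} (h : ¬ π ∣ μ) : fc M (fun z => H (toC π * z)) μ = 0 := by
  have h0 : toC π ≠ 0 := (map_ne_zero_iff toC toC_injective).2 hπ
  obtain ⟨β, hβ⟩ := exists_ech_ne_one M hπ h
  have h1 := fc_translate (H := fun z => H (toC π * z)) (by fun_prop) (hp.comp_mul π) μ
    (M * toC β / toC π)
  have h2 : (fun z => H (toC π * (z + M * toC β / toC π))) = fun z => H (toC π * z) := by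
    funext z
    rw [← hp β (toC π * z)]
    congr 1
    field_simp
  rw [h2] at h1
  have h3 : (ech M μ (M * toC β / toC π) - 1) * fc M (fun z => H (toC π * z)) μ = 0 := by
    linear_combination -h1
  exact (mul_eq_zero.1 h3).resolve_left (sub_ne_zero.2 hβ)

/-- `fc (Σ_b H ((z + b) / π)) μ = N(π) fc H (π μ)` -/
theorem fc_sum_div {M : ℕ} [NeZero M] {H : ℂ → ℂ} (hH : Continuous H) (hp : PerM M H) {π : EO}
    (hπ : π ≠ 0) {R : Finset EO} (hR : IsResE π R) (hRM : ∀ b ∈ R, (M : EO) ∣ b)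
    (hcop : IsCoprime (M : EO) π) (μ : EO) :
    fc M (fun z => ∑ b ∈ R, H ((z + toC b) / toC π)) μ = (nm π : ℤ) * fc M H (π * μ) := by
  have h0 : toC π ≠ 0 := (map_ne_zero_iff toC toC_injective).2 hπ
  rw [fc_eq_Av (H := fun z => ∑ b ∈ R, H ((z + toC b) / toC π)) (by fun_prop), fc_eq_Av hH]
  have h1 := Av_sum_div (continuous_ech_mul hH (π * μ)) (per_ech_mul hp (π * μ)) hπ hR hRM hcop
  have h2 : (fun z => (ech M μ z)⁻¹ * ∑ b ∈ R, H ((z + toC b) / toC π)) =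
      fun z => ∑ b ∈ R, (ech M (π * μ) ((z + toC b) / toC π))⁻¹ * H ((z + toC b) / toC π) := by
    funext z
    rw [Finset.mul_sum]
    refine Finset.sum_congr rfl fun b hb => ?_
    obtain ⟨c, rfl⟩ := hRM b hb
    rw [ech_mul_left]
    have h3 : toC π * ((z + toC ((M : EO) * c)) / toC π) = z + M * toC c := by
      rw [map_mul, map_natCast]
      field_simp
    rw [h3, ech_per]
  rw [h2, h1]
  have h4 := hR.card_eq hπ
  rw [← h4]
  push_cast
  rfl

/-! ### The action on `H3` -/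

theorem matC_upper_smul (b π : EO) (h : (!![1, b; 0, π] : Matrix (Fin 2) (Fin 2) EO).det ≠ 0)
    (z : ℂ) (t : ℝ) (ht : 0 < t) (ht' : 0 < t / ‖toC π‖) :
    matC !![1, b; 0, π] h • H3.mk z t ht = H3.mk ((z + toC b) / toC π) (t / ‖toC π‖) ht' := by
  have hπ : toC π ≠ 0 := by
    intro h0
    rw [h0, norm_zero, div_zero] at ht'
    exact lt_irrefl _ ht'
  have hn : ‖toC π‖ ≠ 0 := norm_ne_zero_iff.2 hπ
  have e : ∀ i j, (matC !![1, b; 0, π] h) i j = toC ((!![1, b; 0, π] : Matrix (Fin 2) (Fin 2) EO) i j) :=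
    fun i j => rfl
  have hden : H3.den (matC !![1, b; 0, π] h) (H3.mk z t ht) = ‖toC π‖ ^ 2 := by
    rw [H3.den, e, e]
    simp [Complex.normSq_eq_norm_sq]
  apply H3.ext
  · rw [H3.smul_z, hden, e, e, e, e]
    have h1 : (‖toC π‖ ^ 2 : ℝ) = (toC π * (starRingEnd ℂ) (toC π) : ℂ) := by
      rw [Complex.mul_conj, Complex.normSq_eq_norm_sq]
    have h2 : (starRingEnd ℂ) (toC π) ≠ 0 := (map_ne_zero _).2 hπ
    rw [h1]
    simp
    change (z + toC b) * (starRingEnd ℂ) (toC π) / (toC π * (starRingEnd ℂ) (toC π)) = (z + toC b) / toC π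
    field_simp
  · rw [H3.smul_t, hden]
    have h1 : (matC !![1, b; 0, π] h : Matrix (Fin 2) (Fin 2) ℂ).det = toC π := by
      rw [Matrix.det_fin_two]
      change toC 1 * toC π - toC b * toC 0 = toC π
      simp
    rw [h1]
    change ‖toC π‖ * t / ‖toC π‖ ^ 2 = t / ‖toC π‖
    field_simp

theorem matC_diag_smul (π : EO) (h : (!![π, 0; 0, 1] : Matrix (Fin 2) (Fin 2) EO).det ≠ 0)
    (z : ℂ) (t : ℝ) (ht : 0 < t) (ht' : 0 < ‖toC π‖ * t) :
    matC !![π, 0; 0, 1] h • H3.mk z t ht = H3.mk (toC π * z) (‖toC π‖ * t) ht' := by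
  have e : ∀ i j, (matC !![π, 0; 0, 1] h) i j = toC ((!![π, 0; 0, 1] : Matrix (Fin 2) (Fin 2) EO) i j) :=
    fun i j => rfl
  have hden : H3.den (matC !![π, 0; 0, 1] h) (H3.mk z t ht) = 1 := by
    rw [H3.den, e, e]
    simp
  apply H3.ext
  · rw [H3.smul_z, hden, e, e, e, e]
    simp
  · rw [H3.smul_t, hden]
    have h1 : (matC !![π, 0; 0, 1] h : Matrix (Fin 2) (Fin 2) ℂ).det = toC π := by
      rw [Matrix.det_fin_two]
      change toC π * toC 1 - toC 0 * toC 0 = toC π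
      simp
    rw [h1]
    change ‖toC π‖ * t / 1 = ‖toC π‖ * t
    rw [div_one]

theorem gun_smul (b : EO) (z : ℂ) (t : ℝ) (ht : 0 < t) :
    (gun b : GL (Fin 2) EO) • H3.mk z t ht = H3.mk (z + toC b) t ht := by
  rw [glEO_smul]
  have e : ∀ i j, (glC (gun b)) i j = toC ((!![1, b; 0, 1] : Matrix (Fin 2) (Fin 2) EO) i j) :=
    fun i j => rfl
  have hden : H3.den (glC (gun b)) (H3.mk z t ht) = 1 := by
    rw [H3.den, e, e]
    simp
  apply H3.ext
  · rw [H3.smul_z, hden, e, e, e, e]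
    simp
  · rw [H3.smul_t, hden]
    have h1 : (glC (gun b) : Matrix (Fin 2) (Fin 2) ℂ).det = 1 := by
      rw [Matrix.det_fin_two]
      change toC 1 * toC 1 - toC b * toC 0 = 1
      simp
    rw [h1, norm_one, one_mul, div_one]
    rfl

theorem norm_toC_unit (ε : EOˣ) : ‖toC (ε : EO)‖ = 1 := by
  have h := normSq_toC (ε : EO)
  rw [(isUnit_iff_nm _).1 ε.isUnit, Complex.normSq_eq_norm_sq] at h
  have h2 : ‖toC (ε : EO)‖ ^ 2 = 1 := by exact_mod_cast h
  exact (pow_eq_one_iff_of_nonneg (norm_nonneg _) two_ne_zero).1 h2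

theorem gdg_smul (ε : EOˣ) (z : ℂ) (t : ℝ) (ht : 0 < t) :
    (gdg ε : GL (Fin 2) EO) • H3.mk z t ht = H3.mk (toC (ε : EO) * z) t ht := by
  rw [glEO_smul]
  have e : ∀ i j, (glC (gdg ε)) i j =
      toC ((!![(ε : EO), 0; 0, 1] : Matrix (Fin 2) (Fin 2) EO) i j) := fun i j => rfl
  have hden : H3.den (glC (gdg ε)) (H3.mk z t ht) = 1 := by
    rw [H3.den, e, e]
    simp
  apply H3.ext
  · rw [H3.smul_z, hden, e, e, e, e]
    simp
  · rw [H3.smul_t, hden]
    have h1 : (glC (gdg ε) : Matrix (Fin 2) (Fin 2) ℂ).det = toC (ε : EO) := by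
      rw [Matrix.det_fin_two]
      change toC (ε : EO) * toC 1 - toC 0 * toC 0 = toC (ε : EO)
      simp
    rw [h1, norm_toC_unit, one_mul, div_one]
    rfl

/-! ### Complete residue systems -/

theorem isCoprime_of_nm {M : ℕ} {π : EO} (h : IsCoprime (M : ℤ) (nm π)) :
    IsCoprime (M : EO) π := by
  obtain ⟨a, b, hab⟩ := h
  refine ⟨(a : EO), (b : EO) * star π, ?_⟩
  have h1 := congrArg (algebraMap ℤ EO) hab
  rw [map_add, map_mul, map_mul, map_one] at h1
  have h2 : algebraMap ℤ EO (nm π) = π * star π := by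
    rw [mul_star_eq]
    rfl
  rw [h2] at h1
  have h3 : ∀ n : ℤ, algebraMap ℤ EO n = (n : EO) := fun n => eq_intCast _ _
  rw [h3, h3, h3] at h1
  push_cast at h1
  linear_combination h1

theorem finite_quotE {π : EO} (hπ : π ≠ 0) :
    Finite (EO ⧸ LinearMap.range (DistribSMul.toLinearMap ℤ EO π)) := by
  have hinj : Function.Injective (DistribSMul.toLinearMap ℤ EO π) := by
    intro x y h
    exact mul_left_cancel₀ hπ h
  let N : Submodule ℤ EO := LinearMap.range (DistribSMul.toLinearMap ℤ EO π)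
  let e : EO ≃ₗ[ℤ] N := LinearEquiv.ofInjective _ hinj
  have h1 := Submodule.natAbs_det_equiv N e
  have h2 : N.subtype ∘ₗ ((e : EO ≃+ N) : EO →+ N).toIntLinearMap =
      DistribSMul.toLinearMap ℤ EO π := by
    ext x <;> rfl
  have h1' : (LinearMap.det (DistribSMul.toLinearMap ℤ EO π)).natAbs = Nat.card (EO ⧸ N) := by
    rw [← h1, ← h2]
    rfl
  rw [QuadraticAlgebra.det_toLinearMap_eq_norm] at h1'
  have h3 : QuadraticAlgebra.norm π = nm π := by
    rw [QuadraticAlgebra.norm_def, nm]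
    ring
  rw [h3] at h1'
  have h4 : (nm π : ℤ) ≠ 0 := fun h0 => hπ ((nm_eq_zero_iff π).1 h0)
  apply Nat.finite_of_card_ne_zero
  change Nat.card (EO ⧸ N) ≠ 0
  rw [← h1']
  exact Int.natAbs_ne_zero.2 h4

/-- a complete residue system mod `π` inside `M ℤ[ω]` -/
theorem exists_isResE (M : ℕ) {π : EO} (hπ : π ≠ 0) (hcop : IsCoprime (M : EO) π) :
    ∃ R : Finset EO, IsResE π R ∧ ∀ b ∈ R, (M : EO) ∣ b := by
  classical
  have hf := finite_quotE hπ
  have hft := Fintype.ofFinite (EO ⧸ LinearMap.range (DistribSMul.toLinearMap ℤ EO π))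
  set N := LinearMap.range (DistribSMul.toLinearMap ℤ EO π) with hN
  have hNm : ∀ x : EO, x ∈ N ↔ π ∣ x := by
    intro x
    constructor
    · rintro ⟨y, rfl⟩
      exact ⟨y, rfl⟩
    · rintro ⟨y, rfl⟩
      exact ⟨y, rfl⟩
  obtain ⟨u, v, huv⟩ := hcop
  have hout : ∀ q : EO ⧸ N, Submodule.Quotient.mk (p := N) (Quotient.out q) = q :=
    fun q => Quotient.out_eq' q
  set f : EO ⧸ N → EO := fun q => (M : EO) * (u * Quotient.out q) with hfdef
  have hfq : ∀ q, π ∣ Quotient.out q - f q := by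
    intro q
    refine ⟨v * Quotient.out q, ?_⟩
    change Quotient.out q - (M : EO) * (u * Quotient.out q) = _
    linear_combination (-(Quotient.out q : EO)) * huv
  refine ⟨Finset.univ.image f, ?_, ?_⟩
  · intro x
    set q : EO ⧸ N := Submodule.Quotient.mk x with hq
    have hxq : π ∣ x - Quotient.out q := by
      rw [← hNm, ← Submodule.Quotient.eq N, hout]
    refine ⟨f q, ⟨Finset.mem_image_of_mem _ (Finset.mem_univ _), ?_⟩, ?_⟩
    · have := dvd_add hxq (hfq q)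
      rwa [sub_add_sub_cancel] at this
    · rintro b ⟨hb, hd⟩
      obtain ⟨q', -, rfl⟩ := Finset.mem_image.1 hb
      have h1 : π ∣ x - Quotient.out q' := by
        have := dvd_sub hd (hfq q')
        have e : x - f q' - (Quotient.out q' - f q') = x - Quotient.out q' := by ring
        rwa [e] at this
      have h2 : q = q' := by
        rw [hq, ← hout q']
        exact (Submodule.Quotient.eq N).2 ((hNm _).2 h1)
      rw [h2]
  · intro b hb
    obtain ⟨q', -, rfl⟩ := Finset.mem_image.1 hb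
    exact Dvd.intro _ rfl

/-! ### Functions on `H3 × GL₂(ℤ[ω]/M)` -/

section Phi

variable {M : ℕ} {Φ : H3 → GM M → ℂ}

/-- Fourier coefficients of `Φ` at height `t` -/
def fcPhi (Φ : H3 → GM M → ℂ) (μ : EO) (s : GM M) (t : ℝ) (ht : 0 < t) : ℂ :=
  fc M (fun z => Φ (H3.mk z t ht) s) μ

theorem continuous_mk (t : ℝ) (ht : 0 < t) : Continuous fun z : ℂ => H3.mk z t ht :=
  Continuous.subtype_mk (by fun_prop) _

theorem continuous_Phi (hc : ∀ s, Continuous fun w => Φ w s) (s : GM M) (t : ℝ) (ht : 0 < t) :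
    Continuous fun z : ℂ => Φ (H3.mk z t ht) s := (hc s).comp (continuous_mk t ht)

theorem redG_gun (b : EO) : redG M (gun b) = gun (rE M b) := redE_gun M b

theorem gun_eq_one {b : EO} (h : (M : EO) ∣ b) : (gun (rE M b) : GM M) = 1 := by
  have : rE M b = 0 := by
    obtain ⟨c, rfl⟩ := h
    rw [map_mul, map_natCast]
    have : ((M : ℕ) : QE (ZMod M)) = 0 := by
      ext
      · simp
      · simp
    rw [this, zero_mul]
  rw [this, gun_zero]

theorem per_Phi (hinv : ∀ (g : GL (Fin 2) EO) (w : H3) (s : GM M), Φ (g • w) (redG M g * s) = Φ w s)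
    (s : GM M) (t : ℝ) (ht : 0 < t) : PerM M fun z : ℂ => Φ (H3.mk z t ht) s := by
  intro β z
  have h := hinv (gun ((M : EO) * β)) (H3.mk z t ht) s
  rw [redG_gun, gun_eq_one (Dvd.intro _ rfl), one_mul, gun_smul, map_mul, map_natCast] at h
  exact h

variable [NeZero M] (hc : ∀ s, Continuous fun w => Φ w s)
  (hinv : ∀ (g : GL (Fin 2) EO) (w : H3) (s : GM M), Φ (g • w) (redG M g * s) = Φ w s)

include hc hinv

/-- **(a)** -/
theorem fcPhi_gun (μ b : EO) (s : GM M) (t : ℝ) (ht : 0 < t) :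
    fcPhi Φ μ (gun (rE M b) * s) t ht =
      Complex.exp (-(2 * Real.pi * Complex.I * (((μ * b).im : ℂ) / M))) * fcPhi Φ μ s t ht := by
  unfold fcPhi
  have h1 : (fun z => Φ (H3.mk z t ht) (gun (rE M b) * s)) =
      fun z => Φ (H3.mk (z + (-toC b)) t ht) s := by
    funext z
    rw [← redG_gun, ← hinv (gun b) (H3.mk (z + -toC b) t ht) s, gun_smul, neg_add_cancel_right]
  rw [h1, fc_translate (H := fun z => Φ (H3.mk z t ht) s) (continuous_Phi hc s t ht)
    (per_Phi hinv s t ht), ech_neg, ech_toC, Complex.exp_neg]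

/-- **(b)** for a general unit -/
theorem fcPhi_unit (ε : EOˣ) (μ : EO) (s : GM M) (t : ℝ) (ht : 0 < t) :
    fcPhi Φ μ (redG M (gdg ε) * s) t ht = fcPhi Φ (ε * μ) s t ht := by
  unfold fcPhi
  rw [← fc_comp_mul (H := fun z => Φ (H3.mk z t ht) (redG M (gdg ε) * s))
    (continuous_Phi hc _ t ht) (per_Phi hinv _ t ht) ε.ne_zero μ]
  congr 1
  funext z
  rw [← gdg_smul, hinv]

/-- **(b)** -/
theorem fcPhi_neg (μ : EO) (s : GM M) (t : ℝ) (ht : 0 < t) :
    fcPhi Φ (-μ) (gdg (-1) * s) t ht = fcPhi Φ μ s t ht := by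
  have h := fcPhi_unit hc hinv (-1) (-μ) s t ht
  have h1 : redG M (gdg (-1)) = gdg (-1) := by
    have := redE_gdg M (-1)
    change redE M (gdg (-1)) = gdg (-1)
    rw [this]
    congr 1
    ext1
    simp
  rw [h1] at h
  rw [h]
  congr 1
  push_cast
  ring

omit [NeZero M] hc hinv in
theorem det_upper_ne {π : EO} (hπ : π ≠ 0) (b : EO) :
    (!![1, b; 0, π] : Matrix (Fin 2) (Fin 2) EO).det ≠ 0 := by
  rw [Matrix.det_fin_two_of]
  simpa using hπ

omit [NeZero M] hc hinv in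
theorem det_diag_ne {π : EO} (hπ : π ≠ 0) :
    (!![π, 0; 0, 1] : Matrix (Fin 2) (Fin 2) EO).det ≠ 0 := by
  rw [Matrix.det_fin_two_of]
  simpa using hπ

omit [NeZero M] hc hinv in
theorem norm_toC_pos {π : EO} (hπ : π ≠ 0) : 0 < ‖toC π‖ :=
  norm_pos_iff.2 ((map_ne_zero_iff toC toC_injective).2 hπ)

/-- **(c)**, general form -/
theorem fcPhi_hecke {π : EO} (hπ : π ≠ 0) (hcop : IsCoprime (M : ℤ) (nm π)) (c : ℂ)
    (rb : EO → GM M) (hrb : ∀ b, (rb b).1 = !![1, rE M b; 0, rE M π]) (ri : GM M)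
    (hH : ∀ R : Finset EO, IsResE π R → ∀ (P : H3) (s : GM M),
      ∑ b ∈ R, Φ (matC !![1, b; 0, π] (det_upper_ne hπ b) • P) (rb b * s) +
        Φ (matC !![π, 0; 0, 1] (det_diag_ne hπ) • P) (ri * s) = c * Φ P s)
    (μ : EO) (s : GM M) (t : ℝ) (ht : 0 < t) :
    ((nm π : ℤ) : ℂ) * fcPhi Φ (π * μ) (rb 0 * s) (t / ‖toC π‖) (div_pos ht (norm_toC_pos hπ)) +
      fc M (fun z => Φ (H3.mk (toC π * z) (‖toC π‖ * t) (mul_pos (norm_toC_pos hπ) ht)) (ri * s)) μ
      = c * fcPhi Φ μ s t ht := by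
  have hcop' := isCoprime_of_nm hcop
  obtain ⟨R, hR, hRM⟩ := exists_isResE M hπ hcop'
  have h1 : (fun z => c * Φ (H3.mk z t ht) s) = fun z =>
      (∑ b ∈ R, Φ (H3.mk ((z + toC b) / toC π) (t / ‖toC π‖) (div_pos ht (norm_toC_pos hπ)))
        (rb 0 * s)) +
      Φ (H3.mk (toC π * z) (‖toC π‖ * t) (mul_pos (norm_toC_pos hπ) ht)) (ri * s) := by
    funext z
    rw [← hH R hR]
    congr 1
    · refine Finset.sum_congr rfl fun b hb => ?_
      rw [matC_upper_smul b π _ z t ht (div_pos ht (norm_toC_pos hπ))]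
      have h2 : rb b = rb 0 := by
        apply Units.ext
        rw [hrb, hrb, map_zero]
        have : rE M b = 0 := by
          have h3 := gun_eq_one (M := M) (hRM b hb)
          have h4 := congrArg (fun g : GM M => g.1 0 1) h3
          simpa [gun_val] using h4
        rw [this]
      rw [h2]
    · rw [matC_diag_smul π _ z t ht (mul_pos (norm_toC_pos hπ) ht)]
  have h2 := congrArg (fun H => fc M H μ) h1
  beta_reduce at h2
  have hc1 := continuous_Phi hc (rb 0 * s) (t / ‖toC π‖) (div_pos ht (norm_toC_pos hπ))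
  have hc2 := continuous_Phi hc (ri * s) (‖toC π‖ * t) (mul_pos (norm_toC_pos hπ) ht)
  have hc1' : ∀ b : EO, Continuous fun z : ℂ =>
      Φ (H3.mk ((z + toC b) / toC π) (t / ‖toC π‖) (div_pos ht (norm_toC_pos hπ))) (rb 0 * s) :=
    fun b => hc1.comp (g := fun z => Φ (H3.mk z (t / ‖toC π‖) _) (rb 0 * s))
      (f := fun z => (z + toC b) / toC π) (by fun_prop)
  have hc2' : Continuous fun z : ℂ =>
      Φ (H3.mk (toC π * z) (‖toC π‖ * t) (mul_pos (norm_toC_pos hπ) ht)) (ri * s) :=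
    hc2.comp (g := fun z => Φ (H3.mk z (‖toC π‖ * t) _) (ri * s))
      (f := fun z => toC π * z) (by fun_prop)
  rw [fc_const_mul (continuous_Phi hc s t ht) c μ,
    fc_add (continuous_finsetSum _ fun b _ => hc1' b) hc2' μ,
    fc_sum_div (H := fun z => Φ (H3.mk z (t / ‖toC π‖) (div_pos ht (norm_toC_pos hπ))) (rb 0 * s))
      hc1 (per_Phi hinv _ _ _) hπ hR hRM hcop' μ] at h2
  exact h2.symm

/-- **(c)** for `π ∤ μ` -/
theorem fcPhi_hecke_of_not_dvd {π : EO} (hπ : π ≠ 0) (hcop : IsCoprime (M : ℤ) (nm π)) (c : ℂ)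
    (rb : EO → GM M) (hrb : ∀ b, (rb b).1 = !![1, rE M b; 0, rE M π]) (ri : GM M)
    (hH : ∀ R : Finset EO, IsResE π R → ∀ (P : H3) (s : GM M),
      ∑ b ∈ R, Φ (matC !![1, b; 0, π] (det_upper_ne hπ b) • P) (rb b * s) +
        Φ (matC !![π, 0; 0, 1] (det_diag_ne hπ) • P) (ri * s) = c * Φ P s)
    {μ : EO} (hμ : ¬ π ∣ μ) (s : GM M) (t : ℝ) (ht : 0 < t) :
    ((nm π : ℤ) : ℂ) * fcPhi Φ (π * μ) (rb 0 * s) (t / ‖toC π‖) (div_pos ht (norm_toC_pos hπ))
      = c * fcPhi Φ μ s t ht := by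
  have h := fcPhi_hecke hc hinv hπ hcop c rb hrb ri hH μ s t ht
  rw [fc_comp_mul_of_not_dvd
    (H := fun z => Φ (H3.mk z (‖toC π‖ * t) (mul_pos (norm_toC_pos hπ) ht)) (ri * s))
    (continuous_Phi hc _ _ _) (per_Phi hinv _ _ _) hπ hμ, add_zero] at h
  exact h

/-- **(c)** for `μ = π μ₁` -/
theorem fcPhi_hecke_of_dvd {π : EO} (hπ : π ≠ 0) (hcop : IsCoprime (M : ℤ) (nm π)) (c : ℂ)
    (rb : EO → GM M) (hrb : ∀ b, (rb b).1 = !![1, rE M b; 0, rE M π]) (ri : GM M)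
    (hH : ∀ R : Finset EO, IsResE π R → ∀ (P : H3) (s : GM M),
      ∑ b ∈ R, Φ (matC !![1, b; 0, π] (det_upper_ne hπ b) • P) (rb b * s) +
        Φ (matC !![π, 0; 0, 1] (det_diag_ne hπ) • P) (ri * s) = c * Φ P s)
    (μ : EO) (s : GM M) (t : ℝ) (ht : 0 < t) :
    ((nm π : ℤ) : ℂ) *
      fcPhi Φ (π * (π * μ)) (rb 0 * s) (t / ‖toC π‖) (div_pos ht (norm_toC_pos hπ)) +
      fcPhi Φ μ (ri * s) (‖toC π‖ * t) (mul_pos (norm_toC_pos hπ) ht)
      = c * fcPhi Φ (π * μ) s t ht := by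
  have h := fcPhi_hecke hc hinv hπ hcop c rb hrb ri hH (π * μ) s t ht
  rw [fc_comp_mul
    (H := fun z => Φ (H3.mk z (‖toC π‖ * t) (mul_pos (norm_toC_pos hπ) ht)) (ri * s))
    (continuous_Phi hc _ _ _) (per_Phi hinv _ _ _) hπ μ] at h
  exact h

end Phi

/-! ### The recursion for the coefficients -/

section alpha

theorem norm_nu_mul (M : ℕ) (π μ : EO) : ‖nu M (π * μ)‖ = ‖toC π‖ * ‖nu M μ‖ := by
  unfold nu
  rw [map_mul, mul_div_assoc, norm_mul]

theorem norm_nu_pos (M : ℕ) [NeZero M] {μ : EO} (hμ : μ ≠ 0) : 0 < ‖nu M μ‖ := by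
  have hM : (M : ℂ) ≠ 0 := by exact_mod_cast NeZero.ne M
  have h6 : (Real.sqrt 3 : ℂ) * Complex.I ≠ 0 :=
    mul_ne_zero (by exact_mod_cast sqrt3_pos.ne') Complex.I_ne_zero
  exact norm_pos_iff.2 (div_ne_zero ((map_ne_zero_iff toC toC_injective).2 hμ) (mul_ne_zero hM h6))

theorem sqrt_nm (π : EO) : Real.sqrt ((nm π : ℤ) : ℝ) = ‖toC π‖ := by
  rw [← normSq_toC, Complex.normSq_eq_norm_sq, Real.sqrt_sq (norm_nonneg _)]

theorem Wh_div {c t r : ℝ} (hr : 0 < r) : Wh (r * c) (t / r) = r⁻¹ * Wh c t := by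
  unfold Wh
  have : r * c * (t / r) = c * t := by field_simp
  rw [this]
  field_simp

theorem Wh_mul {c t r : ℝ} : Wh c (r * t) = r * Wh (r * c) t := by
  unfold Wh
  have : r * c * t = c * (r * t) := by ring
  rw [this]
  ring

variable {M : ℕ} [NeZero M] {Φ : H3 → GM M → ℂ} (hc : ∀ s, Continuous fun w => Φ w s)
  (hinv : ∀ (g : GL (Fin 2) EO) (w : H3) (s : GM M), Φ (g • w) (redG M g * s) = Φ w s)
  {α : EO → GM M → ℂ}
  (hα : ∀ μ : EO, μ ≠ 0 → ∀ (s : GM M) (t : ℝ) (ht : 0 < t),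
    fcPhi Φ μ s t ht = α μ s * (Wh (4 * Real.pi * ‖nu M μ‖) t : ℝ))

include hc hinv hα

/-- **(c)** for the coefficients, `π ∤ μ` -/
theorem alpha_hecke_of_not_dvd {π : EO} (hπ : π ≠ 0) (hcop : IsCoprime (M : ℤ) (nm π)) (lam : ℂ)
    (rb : EO → GM M) (hrb : ∀ b, (rb b).1 = !![1, rE M b; 0, rE M π]) (ri : GM M)
    (hH : ∀ R : Finset EO, IsResE π R → ∀ (P : H3) (s : GM M),
      ∑ b ∈ R, Φ (matC !![1, b; 0, π] (det_upper_ne hπ b) • P) (rb b * s) +
        Φ (matC !![π, 0; 0, 1] (det_diag_ne hπ) • P) (ri * s) =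
          (Real.sqrt ((nm π : ℤ) : ℝ) : ℂ) * lam * Φ P s)
    {μ : EO} (hμ0 : μ ≠ 0) (hμ : ¬ π ∣ μ) (s : GM M) :
    α (π * μ) (rb 0 * s) = lam * α μ s := by
  have h := fcPhi_hecke_of_not_dvd hc hinv hπ hcop _ rb hrb ri hH hμ s 1 one_pos
  have hr := norm_toC_pos hπ
  have hr' : (‖toC π‖ : ℂ) ≠ 0 := by exact_mod_cast hr.ne'
  have hW : ((Wh (4 * Real.pi * ‖nu M μ‖) 1 : ℝ) : ℂ) ≠ 0 := by
    have := Wh_pos (c := 4 * Real.pi * ‖nu M μ‖) (t := 1)
      (mul_pos (by positivity) (norm_nu_pos M hμ0)) one_pos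
    exact_mod_cast this.ne'
  have e1 : 4 * Real.pi * (‖toC π‖ * ‖nu M μ‖) = ‖toC π‖ * (4 * Real.pi * ‖nu M μ‖) := by ring
  rw [hα _ (mul_ne_zero hπ hμ0), hα _ hμ0, norm_nu_mul, sqrt_nm, e1, Wh_div hr] at h
  have h5 : ((nm π : ℤ) : ℂ) = (‖toC π‖ : ℂ) ^ 2 := by
    have := normSq_toC π
    rw [Complex.normSq_eq_norm_sq] at this
    exact_mod_cast this.symm
  rw [h5] at h
  push_cast at h
  field_simp at h
  exact h

/-- **(c)** for the coefficients, `μ = π μ₁` -/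
theorem alpha_hecke_of_dvd {π : EO} (hπ : π ≠ 0) (hcop : IsCoprime (M : ℤ) (nm π)) (lam : ℂ)
    (rb : EO → GM M) (hrb : ∀ b, (rb b).1 = !![1, rE M b; 0, rE M π]) (ri : GM M)
    (hH : ∀ R : Finset EO, IsResE π R → ∀ (P : H3) (s : GM M),
      ∑ b ∈ R, Φ (matC !![1, b; 0, π] (det_upper_ne hπ b) • P) (rb b * s) +
        Φ (matC !![π, 0; 0, 1] (det_diag_ne hπ) • P) (ri * s) =
          (Real.sqrt ((nm π : ℤ) : ℝ) : ℂ) * lam * Φ P s)
    {μ : EO} (hμ0 : μ ≠ 0) (s : GM M) :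
    α (π * (π * μ)) (rb 0 * s) + α μ (ri * s) = lam * α (π * μ) s := by
  have h := fcPhi_hecke_of_dvd hc hinv hπ hcop _ rb hrb ri hH μ s 1 one_pos
  have hr := norm_toC_pos hπ
  have hr' : (‖toC π‖ : ℂ) ≠ 0 := by exact_mod_cast hr.ne'
  have hπμ := mul_ne_zero hπ hμ0
  have hW : ((Wh (4 * Real.pi * ‖nu M (π * μ)‖) 1 : ℝ) : ℂ) ≠ 0 := by
    have := Wh_pos (c := 4 * Real.pi * ‖nu M (π * μ)‖) (t := 1)
      (mul_pos (by positivity) (norm_nu_pos M hπμ)) one_pos
    exact_mod_cast this.ne'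
  have e1 : 4 * Real.pi * (‖toC π‖ * ‖nu M (π * μ)‖) =
    ‖toC π‖ * (4 * Real.pi * ‖nu M (π * μ)‖) := by ring
  have e2 : ‖toC π‖ * (4 * Real.pi * ‖nu M μ‖) = 4 * Real.pi * ‖nu M (π * μ)‖ := by
    rw [norm_nu_mul]; ring
  rw [hα _ (mul_ne_zero hπ hπμ), hα _ hμ0, hα _ hπμ, norm_nu_mul M π (π * μ), sqrt_nm, e1,
    Wh_div hr, Wh_mul, e2] at h
  have h5 : ((nm π : ℤ) : ℂ) = (‖toC π‖ : ℂ) ^ 2 := by
    have := normSq_toC π
    rw [Complex.normSq_eq_norm_sq] at this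
    exact_mod_cast this.symm
  rw [h5] at h
  push_cast at h
  field_simp at h
  exact h

end alpha

end Fermat.Agent.LT.H5
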