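import Fermat.Agent.LT.H5.Eis
import Fermat.Agent.LT.B.Quot
import Fermat.Agent.Petersson.Domain

/-!
LT piece H5 (helper74): unfolding of the integral over the strip `0 ≤ Re τ < M`.
-/

open Matrix UpperHalfPlane ModularGroup MeasureTheory
open scoped MatrixGroups Modular ENNReal

namespace Fermat.Agent.LT.H5

open Fermat.Agent.LT.B

instance countable_SL2Z : Countable SL(2, ℤ) := by
  have : Countable (Matrix (Fin 2) (Fin 2) ℤ) := inferInstanceAs (Countable (Fin 2 → Fin 2 → ℤ))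
  exact inferInstanceAs (Countable {A : Matrix (Fin 2) (Fin 2) ℤ // A.det = 1})

instance measurableConstSMul_SL2Z : MeasurableConstSMul SL(2, ℤ) ℍ :=
  ⟨fun c => (measurable_const_smul (c : GL (Fin 2) ℝ) : Measurable fun _τ : ℍ => _)⟩

instance smulInvariant_SL2Z : SMulInvariantMeasure SL(2, ℤ) ℍ (volume : Measure ℍ) :=
  ⟨fun c _ hs => SMulInvariantMeasure.measure_preimage_smul (c : GL (Fin 2) ℝ) hs⟩

/-- the weight supported in the fundamental domain -/
noncomputable def wD : ℍ → ℝ≥0∞ := coverWeight SL(2, ℤ) (fun _ => 𝒟)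

theorem isWeight_wD : IsWeight SL(2, ℤ) wD :=
  isWeight_coverWeight (fun _ => isClosed_fd.measurableSet)
    (fun τ => ⟨0, exists_smul_mem_fd τ⟩) (fun _ τ => Petersson.finite_smul_mem_fd τ)

theorem wD_eq_zero {τ : ℍ} (h : τ ∉ 𝒟) : wD τ = 0 := by
  unfold wD coverWeight
  refine ENNReal.tsum_eq_zero.2 fun i => Set.indicator_of_notMem ?_ _
  exact fun h' => h h'.2

theorem measurable_wDr : Measurable (fun τ : ℍ => (wD τ).toReal) :=
  isWeight_wD.meas.ennreal_toReal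

theorem wDr_nonneg (τ : ℍ) : 0 ≤ (wD τ).toReal := ENNReal.toReal_nonneg

theorem wDr_le_one (τ : ℍ) : (wD τ).toReal ≤ 1 :=
  ENNReal.toReal_le_of_le_ofReal zero_le_one (by simpa using isWeight_wD.le_one τ)

theorem wDr_le_indicator (τ : ℍ) : (wD τ).toReal ≤ (𝒟 : Set ℍ).indicator (fun _ => (1 : ℝ)) τ := by
  by_cases h : τ ∈ 𝒟
  · rw [Set.indicator_of_mem h]; exact wDr_le_one τ
  · rw [Set.indicator_of_notMem h, wD_eq_zero h]; simp

theorem integrable_indicator_fd : Integrable ((𝒟 : Set ℍ).indicator (fun _ => (1 : ℝ))) :=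
  (integrable_indicator_iff isClosed_fd.measurableSet).2
    (integrableOn_const Petersson.volume_fd_lt_top.ne)

theorem integrable_wDr : Integrable (fun τ : ℍ => (wD τ).toReal) :=
  integrable_indicator_fd.mono' measurable_wDr.aestronglyMeasurable
    (Filter.Eventually.of_forall fun τ => by
      rw [Real.norm_of_nonneg (wDr_nonneg τ)]; exact wDr_le_indicator τ)

/-- integrability of `wD • F` when `F` is bounded on the fundamental domain -/
theorem integrable_wD_smul {F : ℍ → ℂ} (hF : Measurable F) {B : ℝ} (hB : ∀ τ ∈ 𝒟, ‖F τ‖ ≤ B) :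
    Integrable (fun τ => (wD τ).toReal • F τ) := by
  refine (integrable_wDr.mul_const B).mono' (measurable_wDr.smul hF).aestronglyMeasurable
    (Filter.Eventually.of_forall fun τ => ?_)
  rw [norm_smul, Real.norm_of_nonneg (wDr_nonneg τ)]
  by_cases h : τ ∈ 𝒟
  · exact mul_le_mul_of_nonneg_left (hB τ h) (wDr_nonneg τ)
  · rw [wD_eq_zero h]; simp

theorem norm_integral_wD_smul_le {F : ℍ → ℂ} {B : ℝ} (hB : ∀ τ ∈ 𝒟, ‖F τ‖ ≤ B) :
    ‖∫ τ, (wD τ).toReal • F τ‖ ≤ (∫ τ : ℍ, (wD τ).toReal) * B := by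
  rw [← integral_mul_const]
  refine norm_integral_le_of_norm_le (integrable_wDr.mul_const B)
    (Filter.Eventually.of_forall fun τ => ?_)
  rw [norm_smul, Real.norm_of_nonneg (wDr_nonneg τ)]
  by_cases h : τ ∈ 𝒟
  · exact mul_le_mul_of_nonneg_left (hB τ h) (wDr_nonneg τ)
  · rw [wD_eq_zero h]; simp

/-- independence of the weight -/
theorem integral_weight_eq {Γ X : Type*} [Group Γ] [MulAction Γ X] [MeasurableSpace X]
    [Countable Γ] [MeasurableConstSMul Γ X] {μ : Measure X} [SMulInvariantMeasure Γ X μ]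
    {w w' : X → ℝ≥0∞} (hw : IsWeight Γ w) (hw' : IsWeight Γ w') {F : X → ℂ}
    (hF : AEStronglyMeasurable F μ) (hinv : ∀ (γ : Γ) x, F (γ • x) = F x) :
    ∫ x, (w x).toReal • F x ∂μ = ∫ x, (w' x).toReal • F x ∂μ := by
  have h1 := integral_qMeas (μ := μ) hw (desc F hinv)
    ((aestronglyMeasurable_qMeas_iff hw).2 hF)
  have h2 := integral_qMeas (μ := μ) hw' (desc F hinv)
    ((aestronglyMeasurable_qMeas_iff hw').2 hF)
  simp only [desc_pr] at h1 h2
  rw [← h1, ← h2, qMeas_congr hw hw']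

theorem three_fourths_le_im {τ : ℍ} (hτ : τ ∈ 𝒟) : 1 / 2 ≤ τ.im ^ 3 := by
  have h1 := three_le_four_mul_im_sq_of_mem_fd hτ
  have h2 := τ.im_pos
  have h3 : 43 / 50 ≤ τ.im := by nlinarith
  have h4 : (43 / 50 : ℝ) ^ 3 ≤ τ.im ^ 3 := by gcongr
  norm_num at h4
  linarith

open Classical in
/-- integrand over the strip -/
noncomputable def stripF (M : ℕ) (s : ℝ) (f : ℍ → ℂ) (τ : ℍ) : ℂ :=
  if Win M τ then ((τ.im ^ s : ℝ) : ℂ) * f τ else 0

theorem measurableSet_Win (M : ℕ) : MeasurableSet {τ : ℍ | Win M τ} := by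
  unfold Win
  have h : Measurable (fun τ : ℍ => τ.re) := UpperHalfPlane.continuous_re.measurable
  exact (measurableSet_le measurable_const h).inter (measurableSet_lt h measurable_const)

open Classical in
theorem measurable_stripF (M : ℕ) (s : ℝ) {f : ℍ → ℂ} (hf : Measurable f) :
    Measurable (stripF M s f) := by
  unfold stripF
  have him : Measurable (fun τ : ℍ => τ.im) := UpperHalfPlane.continuous_im.measurable
  refine Measurable.ite (measurableSet_Win M) ?_ measurable_const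
  exact (Complex.measurable_ofReal.comp (him.pow_const s)).mul hf

theorem winSum_norm (M : ℕ) (s : ℝ) (τ : ℍ) (ψ : SL(2, ZMod M) → ℂ) (γ : SL(2, ℤ)) :
    winSum M s τ (fun g => (‖ψ g‖ : ℂ)) γ = (‖winSum M s τ ψ γ‖ : ℂ) := by
  unfold winSum
  split_ifs
  · rw [norm_mul, Complex.norm_real, Real.norm_of_nonneg (Real.rpow_nonneg (γ • τ).im_pos.le _)]
    push_cast
    rfl
  · simp

section main

variable {M : ℕ} [NeZero M] {ψ : SL(2, ZMod M) → ℍ → ℂ}

omit [NeZero M] in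
theorem stripF_smul (hinv : ∀ g (γ : SL(2, ℤ)) τ, ψ g (γ • τ) = ψ (g * red M γ) τ) (s : ℝ)
    (γ : SL(2, ℤ)) (τ : ℍ) :
    stripF M s (ψ 1) (γ • τ) = winSum M s τ (fun g => ψ g τ) γ := by
  unfold stripF winSum
  rw [hinv, one_mul]

theorem sum_norm_le {B : ℝ} (hB : ∀ g τ, τ ∈ 𝒟 → ‖ψ g τ‖ * τ.im ^ 3 ≤ B) {τ : ℍ} (hτ : τ ∈ 𝒟) :
    τ.im ^ 3 * ∑ g, ‖ψ g τ‖ ≤ Fintype.card SL(2, ZMod M) * B := by
  rw [Finset.mul_sum]
  refine (Finset.sum_le_sum fun g _ => ?_).trans (by simp : ∑ _g : SL(2, ZMod M), B ≤ _)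
  rw [mul_comm]
  exact hB g τ hτ

/-- **Unfolding**. -/
theorem unfold_bound (hinv : ∀ g (γ : SL(2, ℤ)) τ, ψ g (γ • τ) = ψ (g * red M γ) τ)
    (htor : ∀ u g τ, ψ (tor u * g) τ = ψ g τ) (hmeas : ∀ g, Measurable (ψ g))
    (hdec : ∃ B, ∀ g τ, τ ∈ 𝒟 → ‖ψ g τ‖ * τ.im ^ 3 ≤ B)
    (h0 : ∫ τ, (wD τ).toReal • ∑ g, ψ g τ = 0) :
    ∃ C : ℝ, ∀ s : ℝ, 1 < s → s ≤ 2 → Integrable (stripF M s (ψ 1)) ∧
      ‖∫ τ, stripF M s (ψ 1) τ‖ ≤ C := by
  obtain ⟨C, hC0, hC⟩ := eisenstein_bound M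
  obtain ⟨B, hB⟩ := hdec
  set N : ℝ := (Fintype.card SL(2, ZMod M) : ℝ) with hN
  have hsum := fun τ (hτ : τ ∈ 𝒟) => sum_norm_le hB hτ
  have hB0 : 0 ≤ N * B := by
    have h1 := hsum _ I_mem_fd
    refine le_trans ?_ h1
    positivity
  have hsum2 : ∀ τ ∈ 𝒟, ∑ g, ‖ψ g τ‖ ≤ 2 * (N * B) := by
    intro τ hτ
    have h1 := hsum τ hτ
    have h2 := three_fourths_le_im hτ
    have h3 : 0 ≤ ∑ g, ‖ψ g τ‖ := Finset.sum_nonneg fun _ _ => norm_nonneg _
    nlinarith
  refine ⟨(∫ τ : ℍ, (wD τ).toReal) * (C * (N * B)), fun s hs hs2 => ?_⟩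
  have hKM : 0 ≤ KM M s := by
    unfold KM
    have := J_nonneg s
    have := J_nonneg (s - 1 / 2)
    positivity
  have hz := one_le_zM M hs
  -- summability and bounds
  have hmain := fun τ (hτ : τ ∈ 𝒟) => hC s hs hs2 τ hτ (fun g => ψ g τ) (fun u g => htor u g τ)
  have hnorm : ∀ τ ∈ 𝒟, Summable (fun γ => ‖winSum M s τ (fun g => ψ g τ) γ‖) ∧
      ∑' γ, ‖winSum M s τ (fun g => ψ g τ) γ‖ ≤ KM M s * (2 * (N * B)) + C * (N * B) := by
    intro τ hτ
    obtain ⟨a1, a2⟩ := hC s hs hs2 τ hτ (fun g => (‖ψ g τ‖ : ℂ)) (fun u g => by rw [htor u g τ])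
    have e1 : winSum M s τ (fun g => (‖ψ g τ‖ : ℂ))
        = fun γ => ((‖winSum M s τ (fun g => ψ g τ) γ‖ : ℝ) : ℂ) :=
      funext fun γ => winSum_norm M s τ _ γ
    rw [e1] at a1 a2
    have a3 := Complex.summable_ofReal.1 a1
    refine ⟨a3, ?_⟩
    rw [← Complex.ofReal_tsum] at a2
    simp only [Complex.norm_real, norm_norm] at a2
    have a4 : ∑ g, (‖ψ g τ‖ : ℂ) = ((∑ g, ‖ψ g τ‖ : ℝ) : ℂ) := by push_cast; rfl
    rw [a4, ← Complex.ofReal_mul, ← Complex.ofReal_mul, ← Complex.ofReal_sub, Complex.norm_real]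
      at a2
    have a5 := (abs_sub_le_iff.1 a2).1
    have a6 : 0 ≤ ∑' γ, ‖winSum M s τ (fun g => ψ g τ) γ‖ := tsum_nonneg fun _ => norm_nonneg _
    have a7 := hsum2 τ hτ
    have a8 : C * τ.im ^ 3 * ∑ g, ‖ψ g τ‖ ≤ C * (N * B) := by
      rw [mul_assoc]
      exact mul_le_mul_of_nonneg_left (hsum τ hτ) hC0
    nlinarith [mul_le_mul_of_nonneg_left a7 hKM]
  -- integrability
  have hFm := measurable_stripF M s (hmeas 1)
  have hint : Integrable (stripF M s (ψ 1)) := by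
    refine ⟨hFm.aestronglyMeasurable, ?_⟩
    unfold HasFiniteIntegral
    rw [← isWeight_wD.lintegral_unfold hFm.enorm.aemeasurable]
    have hb : ∀ τ : ℍ, wD τ * ∑' γ : SL(2, ℤ), ‖stripF M s (ψ 1) (γ • τ)‖ₑ
        ≤ wD τ * ENNReal.ofReal (KM M s * (2 * (N * B)) + C * (N * B)) := by
      intro τ
      by_cases hτ : τ ∈ 𝒟
      · gcongr
        simp_rw [stripF_smul hinv]
        obtain ⟨b1, b2⟩ := hnorm τ hτ
        have : ∑' γ : SL(2, ℤ), ‖winSum M s τ (fun g => ψ g τ) γ‖ₑ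
            = ENNReal.ofReal (∑' γ, ‖winSum M s τ (fun g => ψ g τ) γ‖) := by
          rw [ENNReal.ofReal_tsum_of_nonneg (fun _ => norm_nonneg _) b1]
          simp_rw [ofReal_norm]
        rw [this]
        exact ENNReal.ofReal_le_ofReal b2
      · rw [wD_eq_zero hτ]; simp
    refine lt_of_le_of_lt (lintegral_mono hb) ?_
    rw [lintegral_mul_const _ isWeight_wD.meas]
    refine ENNReal.mul_lt_top ?_ ENNReal.ofReal_lt_top
    refine lt_of_le_of_lt (lintegral_mono (g := (𝒟 : Set ℍ).indicator 1) fun τ => ?_) ?_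
    · by_cases hτ : τ ∈ 𝒟
      · rw [Set.indicator_of_mem hτ]; exact isWeight_wD.le_one τ
      · rw [wD_eq_zero hτ]; exact zero_le
    · rw [lintegral_indicator_one isClosed_fd.measurableSet]
      exact Petersson.volume_fd_lt_top
  refine ⟨hint, ?_⟩
  -- unfolding
  have hunf : ∫ τ, stripF M s (ψ 1) τ
      = ∫ τ, (wD τ).toReal • ∑' γ : SL(2, ℤ), winSum M s τ (fun g => ψ g τ) γ := by
    rw [← integral_periodize isWeight_wD hint,
      integral_qMeas isWeight_wD _ (aestronglyMeasurable_periodize isWeight_wD hint.1)]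
    refine integral_congr_ae (Filter.Eventually.of_forall fun τ => ?_)
    simp only [periodize_pr, stripF_smul hinv]
  have hPm : Measurable (fun τ : ℍ => ∑' γ : SL(2, ℤ), winSum M s τ (fun g => ψ g τ) γ) := by
    simp_rw [← stripF_smul hinv]
    exact Measurable.tsum fun γ => hFm.comp (measurable_const_smul γ)
  have hSm : Measurable (fun τ : ℍ => ∑ g, ψ g τ) := Finset.measurable_sum _ fun g _ => hmeas g
  have i1 : Integrable (fun τ => (wD τ).toReal • ((zM M s : ℂ) *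
      ∑' γ : SL(2, ℤ), winSum M s τ (fun g => ψ g τ) γ)) := by
    refine integrable_wD_smul (hPm.const_mul _)
      (B := ‖(zM M s : ℂ)‖ * (KM M s * (2 * (N * B)) + C * (N * B))) fun τ hτ => ?_
    rw [norm_mul]
    refine mul_le_mul_of_nonneg_left ?_ (norm_nonneg _)
    obtain ⟨b1, b2⟩ := hnorm τ hτ
    exact (norm_tsum_le_tsum_norm b1).trans b2
  have i2 : Integrable (fun τ => (wD τ).toReal • ((KM M s : ℂ) * ∑ g, ψ g τ)) := by
    refine integrable_wD_smul (hSm.const_mul _) (B := ‖(KM M s : ℂ)‖ * (2 * (N * B)))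
      fun τ hτ => ?_
    rw [norm_mul]
    refine mul_le_mul_of_nonneg_left ?_ (norm_nonneg _)
    exact (norm_sum_le _ _).trans (hsum2 τ hτ)
  have hz1 : ‖(zM M s : ℂ) * ∫ τ, stripF M s (ψ 1) τ‖
      ≤ (∫ τ : ℍ, (wD τ).toReal) * (C * (N * B)) := by
    have e1 : (zM M s : ℂ) * ∫ τ, stripF M s (ψ 1) τ
        = ∫ τ, (wD τ).toReal • ((zM M s : ℂ) *
          ∑' γ : SL(2, ℤ), winSum M s τ (fun g => ψ g τ) γ - (KM M s : ℂ) * ∑ g, ψ g τ) := by
      simp_rw [smul_sub]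
      rw [integral_sub i1 i2]
      have e2 : ∫ τ, (wD τ).toReal • ((KM M s : ℂ) * ∑ g, ψ g τ) = 0 := by
        simp_rw [← mul_smul_comm]
        rw [integral_const_mul, h0, mul_zero]
      rw [e2, sub_zero]
      simp_rw [← mul_smul_comm]
      rw [integral_const_mul, hunf]
    rw [e1]
    refine norm_integral_wD_smul_le fun τ hτ => ?_
    refine (hmain τ hτ).2.trans ?_
    rw [mul_assoc]
    exact mul_le_mul_of_nonneg_left (hsum τ hτ) hC0
  rw [norm_mul, Complex.norm_real, Real.norm_of_nonneg (by linarith)] at hz1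
  have := norm_nonneg (∫ τ, stripF M s (ψ 1) τ)
  nlinarith

end main

end Fermat.Agent.LT.H5
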