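import Fermat.Agent.LT.J.PeriodPhi
import Fermat.Agent.LT.H5.Unfold
import Fermat.Agent.LT.H5.Mats
import Fermat.Agent.LT.H5.FC

/-!
LT piece H5 (helper74): the family of functions on the upper half plane attached to a `PhiSys`
and the bound for the strip integrals.
-/

set_option autoImplicit false

open Matrix MeasureTheory
open UpperHalfPlane hiding I
open scoped MatrixGroups ENNReal Modular

noncomputable section

namespace Fermat.Agent.LT.H5

open Fermat.LT Fermat.Agent.LT.J Fermat.Agent.LT.B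

theorem redG_slEO (M : ℕ) (γ : SL(2, ℤ)) : redG M (slEO γ) = slM M (red M γ) := by
  apply Units.ext
  ext i j : 1
  rw [redG_apply, slEO_apply]
  change _ = algebraMap (ZMod M) (QE (ZMod M)) ((γ i j : ℤ) : ZMod M)
  rw [map_intCast, map_intCast]

theorem slM_eq (M : ℕ) (g : SL(2, ZMod M)) : slM M g = zG M (SpecialLinearGroup.toGL g) := rfl

theorem gsc_eq {A : Type*} [CommRing A] (u : Aˣ) :
    gsc u = Matrix.GeneralLinearGroup.scalar (Fin 2) u := by
  apply Units.ext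
  rw [gsc_val]
  ext i j
  fin_cases i <;> fin_cases j <;> simp [Matrix.GeneralLinearGroup.scalar]

theorem gdg_uM (M : ℕ) (u : (ZMod M)ˣ) : (gdg (uM M u) : GM M) = zG M (gdg u) := by
  apply Units.ext
  ext i j : 1
  rw [zG_apply, gdg_val, gdg_val]
  fin_cases i <;> fin_cases j <;> simp [uM_val]

section

variable {M : ℕ} [NeZero M] (P : PhiSys M) (s : GM M)

/-- the family -/
def psiF (g : SL(2, ZMod M)) (τ : ℍ) : ℂ :=
  ∑ δ : (ZMod M)ˣ, P.Φ (emb (τ, 0)) ((slM M g)⁻¹ * (gdg (uM M δ) * s))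

omit [NeZero M] in
theorem Phi_smul (γ : SL(2, ℤ)) (w : H3) (x : GM M) :
    P.Φ (slEO γ • w) x = P.Φ w ((slM M (red M γ))⁻¹ * x) := by
  rw [← P.inv (slEO γ) w, redG_slEO, mul_inv_cancel_left]

theorem psiF_inv (g : SL(2, ZMod M)) (γ : SL(2, ℤ)) (τ : ℍ) :
    psiF P s g (γ • τ) = psiF P s (g * red M γ) τ := by
  unfold psiF
  refine Finset.sum_congr rfl fun δ _ => ?_
  have h : emb (γ • τ, 0) = slEO γ • emb (τ, 0) := (emb_smul γ (τ, 0)).symm
  rw [h, Phi_smul, map_mul, _root_.mul_inv_rev, mul_assoc]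

theorem psiF_tor (u : (ZMod M)ˣ) (g : SL(2, ZMod M)) (τ : ℍ) :
    psiF P s (tor u * g) τ = psiF P s g τ := by
  unfold psiF
  rw [← Equiv.sum_comp (Equiv.mulLeft (u * u)) (fun δ : (ZMod M)ˣ =>
    P.Φ (emb (τ, 0)) ((slM M g)⁻¹ * (gdg (uM M δ) * s)))]
  refine Finset.sum_congr rfl fun δ _ => ?_
  rw [Equiv.coe_mulLeft, map_mul, _root_.mul_inv_rev]
  have h := tor_inv_mul_gdg M u δ
  have h2 : (slM M g)⁻¹ * (slM M (tor u))⁻¹ * (gdg (uM M δ) * s)
      = (slM M g)⁻¹ * (gdg (uM M (u * u * δ)) * s)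
        * Matrix.GeneralLinearGroup.scalar (Fin 2) (uM M u⁻¹) := by
    rw [← gsc_eq, mul_assoc ((slM M g)⁻¹), ← mul_assoc ((slM M (tor u))⁻¹), h]
    have hc : ∀ x : GM M, gsc (uM M u⁻¹) * x = x * gsc (uM M u⁻¹) := by
      intro x
      rw [gsc_eq]
      exact (Matrix.GeneralLinearGroup.scalar_commute _ x)
    rw [hc, mul_assoc, mul_assoc, mul_assoc, hc s]
    simp only [mul_assoc]
  rw [h2, P.cent]

theorem continuous_emb0 : Continuous (fun τ : ℍ => emb (τ, 0)) :=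
  continuous_emb.comp (continuous_id.prodMk continuous_const)

theorem measurable_psiF (g : SL(2, ZMod M)) : Measurable (psiF P s g) := by
  unfold psiF
  refine Finset.measurable_sum _ fun δ _ => ?_
  exact ((P.cont _).comp continuous_emb0).measurable

theorem psiF_dec (hdec : ∃ B, ∀ (w : H3) (s : GM M), ‖P.Φ w s‖ * w.t ^ 3 ≤ B) :
    ∃ B, ∀ g τ, τ ∈ 𝒟 → ‖psiF P s g τ‖ * τ.im ^ 3 ≤ B := by
  obtain ⟨B, hB⟩ := hdec
  refine ⟨∑ _δ : (ZMod M)ˣ, B, fun g τ _ => ?_⟩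
  unfold psiF
  have h3 : 0 ≤ τ.im ^ 3 := pow_nonneg τ.im_pos.le _
  refine (mul_le_mul_of_nonneg_right (norm_sum_le _ _) h3).trans ?_
  rw [Finset.sum_mul]
  refine Finset.sum_le_sum fun δ _ => ?_
  have := hB (emb (τ, 0)) ((slM M g)⁻¹ * (gdg (uM M δ) * s))
  rwa [emb_zero_t] at this

/-- `SL₂ × units → GL₂` -/
theorem sum_GL2 {E : Type*} [AddCommMonoid E] [Fintype (GL (Fin 2) (ZMod M))]
    (f : GL (Fin 2) (ZMod M) → E) :
    ∑ k, f k = ∑ g : SL(2, ZMod M), ∑ δ : (ZMod M)ˣ,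
      f ((SpecialLinearGroup.toGL g)⁻¹ * gdg δ) := by
  rw [← Fintype.sum_prod_type' (f := fun (g : SL(2, ZMod M)) (δ : (ZMod M)ˣ) =>
      f ((SpecialLinearGroup.toGL g)⁻¹ * gdg δ))]
  have hdet : ∀ δ : (ZMod M)ˣ, (gdg δ).det = δ := by
    intro δ
    apply Units.ext
    change (gdg δ).1.det = _
    rw [gdg_val, det_fin_two]
    simp
  have hdetS : ∀ g : SL(2, ZMod M), (SpecialLinearGroup.toGL g).det = 1 := by
    intro g
    apply Units.ext
    exact g.2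
  symm
  refine Fintype.sum_bijective (fun p : SL(2, ZMod M) × (ZMod M)ˣ =>
    (SpecialLinearGroup.toGL p.1)⁻¹ * gdg p.2) ⟨?_, ?_⟩ _ _ (fun p => rfl)
  · rintro ⟨g, δ⟩ ⟨g', δ'⟩ h
    simp only at h
    have h1 := congrArg Matrix.GeneralLinearGroup.det h
    rw [map_mul, map_mul, map_inv, map_inv, hdetS, hdetS, hdet, hdet, inv_one, one_mul, one_mul]
      at h1
    subst h1
    have h2 := mul_right_cancel h
    have h3 := inv_injective h2
    have h4 : g = g' := by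
      apply Subtype.ext
      exact congrArg Units.val h3
    rw [h4]
  · intro k
    have hk : ((gdg k.det : GL (Fin 2) (ZMod M)) * k⁻¹).1.det = 1 := by
      have h1 : ((gdg k.det : GL (Fin 2) (ZMod M)) * k⁻¹).det = 1 := by
        rw [map_mul, map_inv, hdet, mul_inv_cancel]
      exact congrArg Units.val h1
    refine ⟨(⟨((gdg k.det : GL (Fin 2) (ZMod M)) * k⁻¹).1, hk⟩, k.det), ?_⟩
    simp only
    have h5 : SpecialLinearGroup.toGL (⟨((gdg k.det : GL (Fin 2) (ZMod M)) * k⁻¹).1, hk⟩ :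
        SL(2, ZMod M)) = gdg k.det * k⁻¹ := Units.ext rfl
    rw [h5, _root_.mul_inv_rev, inv_inv, mul_assoc, inv_mul_cancel, mul_one]

theorem sum_psiF [Fintype (GL (Fin 2) (ZMod M))] (τ : ℍ) :
    ∑ g, psiF P s g τ = ∑ k : GL (Fin 2) (ZMod M), P.Φ (emb (τ, 0)) (zG M k * s) := by
  rw [sum_GL2]
  unfold psiF
  refine Finset.sum_congr rfl fun g _ => Finset.sum_congr rfl fun δ _ => ?_
  rw [map_mul, map_inv, ← slM_eq, ← gdg_uM, mul_assoc]

/-- **Bound for the strip integrals.** -/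
theorem psiF_bound [Fintype (GL (Fin 2) (ZMod M))]
    (hdec : ∃ B, ∀ (w : H3) (s : GM M), ‖P.Φ w s‖ * w.t ^ 3 ≤ B)
    (hper : ∫ τ : ℍ, ((wD τ).toReal : ℂ) *
      ∑ k : GL (Fin 2) (ZMod M), P.Φ (emb (τ, 0)) (zG M k * s) = 0) :
    ∃ C : ℝ, ∀ σ : ℝ, 1 < σ → σ ≤ 2 → Integrable (stripF M σ (psiF P s 1)) ∧
      ‖∫ τ, stripF M σ (psiF P s 1) τ‖ ≤ C := by
  refine unfold_bound (psiF_inv P s) (psiF_tor P s) (measurable_psiF P s) (psiF_dec P s hdec) ?_
  rw [← hper]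
  refine integral_congr_ae (Filter.Eventually.of_forall fun τ => ?_)
  simp only [Complex.real_smul]
  rw [sum_psiF]

end

end Fermat.Agent.LT.H5
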