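import Fermat.Agent.LT.H5.FinalCore
import Fermat.Agent.LT.H5.AsaiEnd
import Fermat.Agent.LT.H5.ROneTr
import Fermat.Agent.LT.H.ROne
import Fermat.Agent.LT.J.ThetaJ

/-!
LT piece H5 (helper74): `PeriodNe R` from the arithmetic input `AsaiIn R` (densities).
-/

set_option autoImplicit false

open Matrix MeasureTheory Set NumberField Filter Topology
open UpperHalfPlane hiding I
open scoped MatrixGroups ENNReal Modular

noncomputable section

namespace Fermat.Agent.LT.H5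

open Fermat.LT Fermat.Agent.LT.J Fermat.Agent.LT.J.QE Fermat.Agent.LT.B Fermat.Agent.LT.H.Bessel
open Fermat.Agent.LT.H.Local Fermat.Agent.LT.K Fermat.Agent.LT.D

/-- arithmetic input of the Asai argument: values of `lam` at the primes outside a finite set
and densities. -/
def AsaiIn (R : Octa) : Prop :=
  ∀ (D : Datum R.K) (M : ℕ) [NeZero M] (lam : Pl R.K → ℝ) (Φ : X D → ℂ),
    Top.LevelDvd D M → Top.EForm D lam Φ → Top.Compat R D lam → ∀ (E : Eis3 D)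
    (lamE : EO → ℝ), (∀ (π : EO) (hπ : Prime π), lamE π = lam (E.plc π hπ)) →
    ∀ (ϖ : ℕ → EO), (∀ p : ℕ, p.Prime → p % 3 = 1 → QE.nm (ϖ p) = p) → ∀ (T₀ : Finset ℕ),
    ∃ (T : Finset ℕ) (A1 A2 : Set ℕ), T₀ ⊆ T ∧ (∀ p : ℕ, p.Prime → p ∣ M → p ∈ T) ∧
      (∀ p ∈ A1, p.Prime ∧ p % 3 = 1 ∧ p ∉ T ∧ lamE (ϖ p) = lamE (star (ϖ p)) ∧
        lamE (ϖ p) ^ 2 = 4) ∧
      (∀ p ∈ A2, p.Prime ∧ p % 3 = 2 ∧ p ∉ T ∧ lamE (p : EO) = 2) ∧
      (∀ p : ℕ, p.Prime → p % 3 = 2 → p ∉ T → p ∉ A2 → lamE (p : EO) = 0) ∧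
      Tendsto (fun s : ℝ => (∑' p : A1, ((p : ℕ) : ℝ) ^ (-s)) / Real.log (1 / (s - 1)))
        (𝓝[>] 1) (𝓝 (1 / 24)) ∧
      Tendsto (fun s : ℝ => (∑' p : A2, ((p : ℕ) : ℝ) ^ (-s)) / Real.log (1 / (s - 1)))
        (𝓝[>] 1) (𝓝 (1 / 4))

open Classical in
theorem periodNe_of {R : Octa} (hA : AsaiIn R) : Top.PeriodNe R := by
  intro D M hM0 lam Φ hlev hΦ hcomp E P hB
  have hFin : Fintype (GL (Fin 2) (ZMod M)) := Fintype.ofFinite _
  -- the eigenvalues as functions on `EO`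
  set lamE : EO → ℝ := fun π => if h : Prime π then lam (E.plc π h) else 0 with hlamEdef
  have hlamE : ∀ (π : EO) (hπ : Prime π), lamE π = lam (E.plc π hπ) := by
    intro π hπ
    rw [hlamEdef]
    exact dif_pos hπ
  -- the split primes
  have hex : ∀ p : ℕ, ∃ π : EO, p.Prime → p % 3 = 1 → QE.nm π = (p : ℤ) := by
    intro p
    by_cases h : p.Prime ∧ p % 3 = 1
    · obtain ⟨π, hπ⟩ := exists_nm_eq h.1 h.2
      exact ⟨π, fun _ _ => hπ⟩
    · exact ⟨0, fun h1 h2 => absurd ⟨h1, h2⟩ h⟩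
  choose ϖ hϖ using hex
  -- (R1)
  obtain ⟨S₀, C₀, hS₀, hR⟩ := H.R1 hΦ
  obtain ⟨T₀, hT₀⟩ := r1_transfer' E (lam := lam) (S₀ := S₀)
    (fun w hw => abs_lam_le hΦ (by
      by_contra hne
      exact hw (hS₀ w hne))) (C := C₀) hR hϖ hlamE
  obtain ⟨T, A1, A2, hTT, hTM, hA1, hA2, hA3, D1, D2⟩ :=
    hA D M lam Φ hlev hΦ hcomp E lamE hlamE ϖ hϖ T₀
  obtain ⟨C', hC'⟩ := hT₀ T hTT
  -- the combined eigenvalue functions
  let l : ℕ → ℝ := fun p => if p % 3 = 1 then lamE (ϖ p) else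
    if p = 3 then lamE (⟨1, 2⟩ : EO) else lamE (p : EO)
  let l' : ℕ → ℝ := fun p => lamE (star (ϖ p))
  have l1 : ∀ p : ℕ, p % 3 = 1 → l p = lamE (ϖ p) := fun p h => if_pos h
  have l2 : ∀ p : ℕ, p % 3 = 2 → l p = lamE (p : EO) := fun p h => by
    have h1 : ¬ p % 3 = 1 := by omega
    have h3 : ¬ p = 3 := by rintro rfl; simp at h
    change (if p % 3 = 1 then _ else _) = _
    rw [if_neg h1, if_neg h3]
  have l3 : l 3 = lamE (⟨1, 2⟩ : EO) := by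
    change (if 3 % 3 = 1 then _ else _) = _
    rw [if_neg (by norm_num), if_pos rfl]
  obtain ⟨s₀, hs₀⟩ := period_ne_of_unbounded hB lamE hlamE ϖ hϖ (by
    intro a a0 a1 amul abad asplit ainert athree
    refine asai_end (l := l) (l' := l') a0 a1 amul abad ?_ ?_ ?_ ?_ ?_ ?_ T hTM ?_ A1 A2 ?_ ?_ ?_
      D1 D2
    · intro p hp hpM h3 k
      rw [l1 p h3]
      exact asplit p hp hpM h3 k
    · intro p hp hpM h3 k
      rw [l2 p h3]
      exact ainert p hp hpM h3 k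
    · intro h3 k
      rw [l3]
      exact athree h3 k
    · intro p hp hpM h3
      rw [l1 p h3]
      exact ⟨abs_lamE_split E hΦ hlev hlamE hp hpM (hϖ p hp h3),
        abs_lamE_split E hΦ hlev hlamE hp hpM (by rw [nm_star]; exact hϖ p hp h3)⟩
    · intro p hp hpM h3
      rw [l2 p h3]
      exact abs_lamE_inert E hΦ hlev hlamE hp hpM h3
    · intro h3
      rw [l3]
      exact abs_lamE_three E hΦ hlev hlamE h3
    · refine ⟨C', fun s hs => ?_⟩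
      have e : (fun p : {p : ℕ // p.Prime ∧ p % 3 = 1 ∧ p ∉ T} =>
          S (l p) (l p) (((p : ℕ) : ℝ) ^ (-s)) + S (l' p) (l' p) (((p : ℕ) : ℝ) ^ (-s)))
          = fun p : {p : ℕ // p.Prime ∧ p % 3 = 1 ∧ p ∉ T} =>
          S (lamE (ϖ p)) (lamE (ϖ p)) (((p : ℕ) : ℝ) ^ (-s)) +
          S (lamE (star (ϖ p))) (lamE (star (ϖ p))) (((p : ℕ) : ℝ) ^ (-s)) := by
        funext p
        rw [l1 p p.2.2.1]
      rw [e]
      exact hC' s hs
    · intro p hp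
      obtain ⟨h1, h2, h3, h4, h5⟩ := hA1 p hp
      rw [l1 p h2]
      exact ⟨h1, h2, h3, h4, h5⟩
    · intro p hp
      obtain ⟨h1, h2, h3, h4⟩ := hA2 p hp
      rw [l2 p h2]
      exact ⟨h1, h2, h3, h4⟩
    · intro p h1 h2 h3 h4
      rw [l2 p h2]
      exact hA3 p h1 h2 h3 h4)
  exact ⟨s₀, wD, hFin, isWeight_wD, hs₀⟩

end Fermat.Agent.LT.H5
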