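import Fermat.Agent.LT.H5.Coef
import Fermat.Agent.LT.H5.Mult

/-!
LT piece H5 (helper74): non-vanishing of the Asai period, from the unboundedness of the series.
-/

set_option autoImplicit false

open Matrix MeasureTheory Set NumberField
open UpperHalfPlane hiding I
open scoped MatrixGroups ENNReal Modular

noncomputable section

namespace Fermat.Agent.LT.H5

open Fermat.LT Fermat.Agent.LT.J Fermat.Agent.LT.J.QE Fermat.Agent.LT.B Fermat.Agent.LT.H.Bessel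
open Fermat.Agent.LT.H.Local

variable {M : ℕ} [NeZero M] {P : PhiSys M}
variable {F : Type} [Field F] [NumberField F] {D : Datum F} {E : Eis3 D} {lam : Pl F → ℝ}

theorem AData.cA_one_ne (hB : BridgeOut E M lam P) {α : EO → GM M → ℂ} (h : AData P α) :
    cA α 1 1 ≠ 0 := by
  rw [cA_of_unit α 1 1 (by rw [Units.val_one, map_one])]
  rw [inv_one, map_one, one_mul]
  obtain ⟨t, ht, h1⟩ := hB.ne
  rw [h.eq] at h1
  exact left_ne_zero_of_mul h1

theorem period_ne_of_unbounded [Fintype (GL (Fin 2) (ZMod M))] (hB : BridgeOut E M lam P)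
    (lamE : EO → ℝ) (hlamE : ∀ (π : EO) (hπ : Prime π), lamE π = lam (E.plc π hπ))
    (ϖ : ℕ → EO) (hϖ : ∀ p : ℕ, p.Prime → p % 3 = 1 → QE.nm (ϖ p) = p)
    (hend : ∀ a : ℕ → ℝ, a 0 = 0 → a 1 = 1 →
      (∀ m n, Nat.Coprime m n → a (m * n) = a m * a n) →
      (∀ p, p.Prime → p ∣ M → ∀ k, a (p ^ (k + 1)) = 0) →
      (∀ p, p.Prime → ¬ p ∣ M → p % 3 = 1 → ∀ k,
        a (p ^ k) = U (lamE (ϖ p)) k * U (lamE (star (ϖ p))) k) →
      (∀ p, p.Prime → ¬ p ∣ M → p % 3 = 2 → ∀ k, a (p ^ k) = U (lamE (p : EO)) k) →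
      (¬ 3 ∣ M → ∀ k, a (3 ^ k) = U (lamE (⟨1, 2⟩ : EO)) (2 * k)) →
      (∀ s ∈ Ioc (1 : ℝ) 2, Summable fun n : ℕ => ‖a n‖ * (n : ℝ) ^ (-s)) ∧
        ∀ C : ℝ, ∃ s ∈ Ioc (1 : ℝ) 2, C < ∑' n : ℕ, a n * (n : ℝ) ^ (-s)) :
    ∃ s₀ : GM M, ∫ τ : ℍ, ((wD τ).toReal : ℂ) *
        ∑ k : GL (Fin 2) (ZMod M), P.Φ (emb (τ, 0)) (zG M k * s₀) ≠ 0 := by
  classical
  by_contra hper
  push Not at hper
  obtain ⟨α, hα⟩ := exists_aData P hB.cusp
  obtain ⟨a, a0, a1, amul, abad, asplit, ainert, athree, hA⟩ :=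
    exists_mult (M := M) (cA α 1) lamE (fun m => hα.cA_neg 1 m)
      (fun π hπ hd m hm hmM hdm => by
        rw [hlamE π hπ]; exact hα.cA_hecke_of_not_dvd hB 1 hπ hd hm hmM hdm)
      (fun π hπ hd m hm hmM => by
        rw [hlamE π hπ]; exact hα.cA_hecke_of_dvd hB 1 hπ hd hm hmM) ϖ hϖ
  obtain ⟨hsum, hunb⟩ := hend a a0 a1 amul abad asplit ainert athree
  have hne := hα.cA_one_ne hB
  obtain ⟨B, hBd⟩ := hB.decay 3
  obtain ⟨C, hC⟩ := hα.fcData.series_bounded ⟨B, fun w s => by rw [mul_comm]; exact hBd w s⟩ hper 1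
  -- identification of the coefficients
  have hcoef : ∀ n : ℕ, isoC (fun (n : ℤ) s => α (n : EO) s) 1 (n : ℤ) = cA α 1 1 * a n := by
    intro n
    by_cases hn : Nat.Coprime n M
    · rw [isoC_eq α 1 hn]
      rcases Nat.eq_zero_or_pos n with rfl | hpos
      · rw [a0]
        have hz : ((0 : ℕ) : EO) = 0 := Nat.cast_zero
        have : cA α 1 ((0 : ℕ) : EO) = 0 := by
          rw [hz]
          unfold cA
          split_ifs
          · exact hα.zero _
          · rfl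
        rw [this]
        simp
      · exact hA n hpos.ne' hn
    · rw [isoC_eq_zero _ _ hn]
      have han : a n = 0 := by
        rcases Nat.eq_zero_or_pos n with rfl | hpos
        · exact a0
        obtain ⟨p, hp, hpn, hpM⟩ := Nat.Prime.not_coprime_iff_dvd.1 hn
        obtain ⟨k, m, hmn, rfl⟩ := Nat.exists_eq_pow_mul_and_not_dvd hpos.ne' p hp.ne_one
        have hk : k ≠ 0 := by
          rintro rfl
          rw [pow_zero, one_mul] at hpn
          exact hmn hpn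
        obtain ⟨j, rfl⟩ := Nat.exists_eq_succ_of_ne_zero hk
        rw [amul _ _ (Nat.Coprime.pow_left _ ((Nat.Prime.coprime_iff_not_dvd hp).2 hmn)),
          abad p hp hpM, zero_mul]
      rw [han]
      simp
  have hC' : ∀ s ∈ Ioc (1 : ℝ) 2, ‖cA α 1 1‖ * (∑' n : ℕ, a n * (n : ℝ) ^ (-s)) ≤ C := by
    intro s hs
    have h1 : Summable fun n : ℕ => ‖isoC (fun (n : ℤ) s => α (n : EO) s) 1 (n : ℤ)‖ *
        (n : ℝ) ^ (-s) := by
      refine ((hsum s hs).mul_left ‖cA α 1 1‖).congr fun n => ?_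
      rw [hcoef, norm_mul, Complex.norm_real]
      ring
    have h2 := hC s hs.1 hs.2 h1
    have h3 : ∑' n : ℕ, isoC (fun (n : ℤ) s => α (n : EO) s) 1 (n : ℤ) *
        (((n : ℝ) ^ (-s) : ℝ) : ℂ) = cA α 1 1 * ((∑' n : ℕ, a n * (n : ℝ) ^ (-s) : ℝ) : ℂ) := by
      rw [Complex.ofReal_tsum, ← tsum_mul_left]
      refine tsum_congr fun n => ?_
      rw [hcoef]
      push_cast
      ring
    rw [h3, norm_mul, Complex.norm_real, Real.norm_eq_abs] at h2
    exact (mul_le_mul_of_nonneg_left (le_abs_self _) (norm_nonneg _)).trans h2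
  have hpos : 0 < ‖cA α 1 1‖ := norm_pos_iff.2 hne
  obtain ⟨s, hs, hlt⟩ := hunb (C / ‖cA α 1 1‖)
  have := hC' s hs
  rw [div_lt_iff₀ hpos] at hlt
  linarith [mul_comm (∑' n : ℕ, a n * (n : ℝ) ^ (-s)) ‖cA α 1 1‖]

end Fermat.Agent.LT.H5
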