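import Fermat.Agent.LT.H.Whittaker

/-!
LT piece H5 (helper74): Mellin transform of series of Bessel functions; pointwise Fourier series.
-/

open Real Set MeasureTheory Filter
open Fermat.Agent.LT.H.Bessel

namespace Fermat.Agent.LT.H5

/-! ### Fourier series at a point -/

theorem fourier_zero {P : ℝ} (hP : 0 < P) {B : ℝ → ℂ} (hB : Continuous B)
    (hper : Function.Periodic B P)
    (hs : Summable fun n : ℤ => ∫ v in (0 : ℝ)..P,
      Complex.exp (-(2 * π * Complex.I * n * v / P)) * B v) :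
    B 0 = (1 / P : ℝ) * ∑' n : ℤ, ∫ v in (0 : ℝ)..P,
      Complex.exp (-(2 * π * Complex.I * n * v / P)) * B v := by
  have : Fact (0 < P) := ⟨hP⟩
  let f : C(AddCircle P, ℂ) := ⟨hper.lift, by
    rw [continuous_coinduced_dom]
    exact hB⟩
  have hc : ∀ n : ℤ, fourierCoeff f n = (1 / P : ℝ) * ∫ v in (0 : ℝ)..P,
      Complex.exp (-(2 * π * Complex.I * n * v / P)) * B v := by
    intro n
    rw [fourierCoeff_eq_intervalIntegral _ n 0, zero_add, Complex.real_smul]
    congr 1
    refine intervalIntegral.integral_congr fun v _ => ?_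
    simp only [fourier_coe_apply, smul_eq_mul]
    congr 2
    push_cast
    ring
  have hsum : Summable (fourierCoeff f) := by
    refine (hs.mul_left ((1 / P : ℝ) : ℂ)).congr fun n => ?_
    rw [hc]
  have h := (has_pointwise_sum_fourier_series_of_summable hsum (0 : AddCircle P)).tsum_eq
  have e0 : f (0 : AddCircle P) = B 0 := by
    have : (0 : AddCircle P) = ((0 : ℝ) : AddCircle P) := by simp
    rw [this]
    exact Function.Periodic.lift_coe hper 0
  rw [← e0, ← h, ← tsum_mul_left]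
  refine tsum_congr fun n => ?_
  rw [hc]
  simp

/-! ### Mellin transform of `K0` -/

theorem K0_le_exp {a x : ℝ} (ha : 0 < a) (hx : a ≤ x) : K0 x ≤ exp (-(x - a)) * K0 a := by
  rw [K0_eq_Mo, K0_eq_Mo]
  exact Mo_le 0 ha hx

theorem continuousOn_K0 : ContinuousOn K0 (Ioi 0) := fun _ hx =>
  (hasDerivAt_K0 hx).continuousAt.continuousWithinAt

theorem integrableOn_rpow_K0 {s : ℝ} (hs : 1 < s) :
    IntegrableOn (fun y : ℝ => y ^ (s - 1) * K0 y) (Ioi 0) := by
  have hcont : ContinuousOn (fun y : ℝ => y ^ (s - 1) * K0 y) (Ioi 0) := by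
    refine ContinuousOn.mul ?_ continuousOn_K0
    exact fun y hy => (continuousAt_rpow_const y _ (Or.inl (ne_of_gt hy))).continuousWithinAt
  rw [← Ioc_union_Ioi_eq_Ioi (zero_le_one (α := ℝ))]
  refine IntegrableOn.union ?_ ?_
  · obtain ⟨C, hC, h⟩ := exists_K0_le (ε := 1 / 2) (by norm_num)
    have h1 : IntegrableOn (fun y : ℝ => C * y ^ (s - 3 / 2)) (Ioc 0 1) := by
      have := (intervalIntegral.intervalIntegrable_rpow' (a := 0) (b := 1) (r := s - 3 / 2)
        (by linarith)).1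
      exact this.const_mul C
    refine h1.mono' ((hcont.mono fun y hy => hy.1).aestronglyMeasurable measurableSet_Ioc) ?_
    refine (ae_restrict_iff' measurableSet_Ioc).2 (Eventually.of_forall fun y hy => ?_)
    have hy0 := hy.1
    rw [norm_of_nonneg (mul_nonneg (rpow_nonneg hy0.le _) (K0_pos hy0).le)]
    calc y ^ (s - 1) * K0 y ≤ y ^ (s - 1) * (C * y ^ (-(1 / 2 : ℝ))) :=
          mul_le_mul_of_nonneg_left (h y hy0) (rpow_nonneg hy0.le _)
      _ = C * y ^ (s - 3 / 2) := by
          rw [mul_left_comm, ← rpow_add hy0]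
          congr 2
          ring
  · have h2 : IntegrableOn (fun y : ℝ => y ^ (s - 1) * exp (-y)) (Ioi 0) := by
      have := Real.GammaIntegral_convergent (s := s) (by linarith)
      refine this.congr_fun (fun y _ => ?_) measurableSet_Ioi
      simp only
      ring
    have h3 : IntegrableOn (fun y : ℝ => (exp 1 * K0 1) * (y ^ (s - 1) * exp (-y))) (Ioi 1) :=
      Integrable.const_mul (h2.mono_set (Ioi_subset_Ioi zero_le_one)) (exp 1 * K0 1)
    have hsub : Ioi (1 : ℝ) ⊆ Ioi 0 := Ioi_subset_Ioi zero_le_one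
    have h5 := (hcont.mono hsub).aestronglyMeasurable (μ := volume) measurableSet_Ioi
    refine h3.mono' h5 ?_
    refine (ae_restrict_iff' measurableSet_Ioi).2 (Eventually.of_forall fun y hy => ?_)
    have hy1 : (1 : ℝ) < y := hy
    have hy0 : 0 < y := by linarith
    rw [norm_of_nonneg (mul_nonneg (rpow_nonneg hy0.le _) (K0_pos hy0).le)]
    have h4 := K0_le_exp one_pos hy1.le
    calc y ^ (s - 1) * K0 y ≤ y ^ (s - 1) * (exp (-(y - 1)) * K0 1) :=
          mul_le_mul_of_nonneg_left h4 (rpow_nonneg hy0.le _)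
      _ = _ := by
          rw [show -(y - 1) = 1 + -y by ring, exp_add]
          ring

/-- the Mellin transform of `K0` -/
noncomputable def kap (s : ℝ) : ℝ := ∫ y in Ioi (0 : ℝ), y ^ (s - 1) * K0 y

theorem mellin_K0 {s c : ℝ} (hs : 1 < s) (hc : 0 < c) :
    IntegrableOn (fun y : ℝ => y ^ (s - 1) * K0 (c * y)) (Ioi 0) ∧
      ∫ y in Ioi (0 : ℝ), y ^ (s - 1) * K0 (c * y) = c ^ (-s) * kap s := by
  have e : ∀ y ∈ Ioi (0 : ℝ), y ^ (s - 1) * K0 (c * y)
      = c ^ (1 - s) * ((fun y : ℝ => y ^ (s - 1) * K0 y) (c * y)) := by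
    intro y hy
    have hy0 : 0 < y := hy
    simp only
    rw [mul_rpow hc.le hy0.le, ← mul_assoc, ← mul_assoc, ← rpow_add hc]
    have : (1 - s + (s - 1)) = 0 := by ring
    rw [this, rpow_zero, one_mul]
  constructor
  · have h1 : IntegrableOn (fun y : ℝ => (fun y : ℝ => y ^ (s - 1) * K0 y) (c * y)) (Ioi 0) := by
      have := (integrableOn_Ioi_comp_mul_left_iff (fun y : ℝ => y ^ (s - 1) * K0 y) 0 hc).2
        (by simpa using integrableOn_rpow_K0 hs)
      exact this
    have h2 : IntegrableOn (fun y : ℝ => c ^ (1 - s) *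
        ((fun y : ℝ => y ^ (s - 1) * K0 y) (c * y))) (Ioi 0) := h1.const_mul (c ^ (1 - s))
    exact h2.congr_fun (fun y hy => (e y hy).symm) measurableSet_Ioi
  · rw [setIntegral_congr_fun measurableSet_Ioi e, integral_const_mul,
      integral_comp_mul_left_Ioi (fun y : ℝ => y ^ (s - 1) * K0 y) 0 hc, mul_zero, smul_eq_mul,
      ← mul_assoc]
    congr 1
    rw [show 1 - s = -s + 1 by ring, rpow_add hc, rpow_one, mul_assoc, mul_inv_cancel₀ hc.ne',
      mul_one]

theorem kap_lower : ∃ κ : ℝ, 0 < κ ∧ ∀ s : ℝ, 1 < s → κ ≤ kap s := by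
  refine ⟨∫ y in Icc (1 : ℝ) 2, K0 y, ?_, fun s hs => ?_⟩
  · have hcont : ContinuousOn K0 (Icc 1 2) := continuousOn_K0.mono fun y hy =>
      lt_of_lt_of_le one_pos hy.1
    rw [integral_Icc_eq_integral_Ioc, ← intervalIntegral.integral_of_le one_le_two]
    refine intervalIntegral.intervalIntegral_pos_of_pos_on ?_ (fun y hy => ?_) one_lt_two
    · exact (hcont.intervalIntegrable_of_Icc one_le_two)
    · exact K0_pos (by linarith [hy.1])
  · unfold kap
    have hi := integrableOn_rpow_K0 hs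
    have hcont : ContinuousOn K0 (Icc 1 2) := continuousOn_K0.mono fun y hy =>
      lt_of_lt_of_le one_pos hy.1
    calc ∫ y in Icc (1 : ℝ) 2, K0 y ≤ ∫ y in Icc (1 : ℝ) 2, y ^ (s - 1) * K0 y := by
          refine setIntegral_mono_on (hcont.integrableOn_Icc)
            (hi.mono_set fun y hy => lt_of_lt_of_le one_pos hy.1) measurableSet_Icc fun y hy => ?_
          have h1 : 1 ≤ y ^ (s - 1) := one_le_rpow hy.1 (by linarith)
          have h2 := (K0_pos (lt_of_lt_of_le one_pos hy.1)).le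
          nlinarith
      _ ≤ ∫ y in Ioi (0 : ℝ), y ^ (s - 1) * K0 y := by
          refine setIntegral_mono_set hi ?_ (Eventually.of_forall fun y hy => ?_)
          · refine (ae_restrict_iff' measurableSet_Ioi).2 (Eventually.of_forall fun y hy => ?_)
            exact mul_nonneg (rpow_nonneg (le_of_lt hy) _) (K0_pos hy).le
          · exact lt_of_lt_of_le one_pos hy.1

/-- Mellin transform of a series of Whittaker functions. -/
theorem mellin_series {s c : ℝ} (hs : 1 < s) (hc : 0 < c) {γ : ℕ → ℂ} (h0 : γ 0 = 0)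
    (hsum : Summable fun n : ℕ => ‖γ n‖ * (n : ℝ) ^ (-s)) :
    ∫ y in Ioi (0 : ℝ), ((y ^ (s - 2) : ℝ) : ℂ) * ∑' n : ℕ, γ n * (Wh (c * n) y : ℂ)
      = ((c ^ (-s) * kap s : ℝ) : ℂ) * ∑' n : ℕ, γ n * (((n : ℝ) ^ (-s) : ℝ) : ℂ) := by
  let F : ℕ → ℝ → ℂ := fun n y => γ n * ((y ^ (s - 1) * K0 (c * n * y) : ℝ) : ℂ)
  have hF : ∀ n, IntegrableOn (F n) (Ioi 0) ∧
      ∫ y in Ioi (0 : ℝ), F n y = γ n * (((c * n) ^ (-s) * kap s : ℝ) : ℂ) ∧
      ∫ y in Ioi (0 : ℝ), ‖F n y‖ = ‖γ n‖ * ((c * n) ^ (-s) * kap s) := by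
    intro n
    rcases Nat.eq_zero_or_pos n with hn | hn
    · subst hn
      simp [F, h0]
    · have hn' : (0 : ℝ) < c * n := by positivity
      obtain ⟨a1, a2⟩ := mellin_K0 hs hn'
      refine ⟨a1.ofReal.const_mul _, ?_, ?_⟩
      · simp only [F]
        rw [integral_const_mul, integral_complex_ofReal, a2]
      · have : ∀ y ∈ Ioi (0 : ℝ), ‖F n y‖ = ‖γ n‖ * (y ^ (s - 1) * K0 (c * n * y)) := by
          intro y hy
          have hy0 : 0 < y := hy
          simp only [F]
          rw [norm_mul, Complex.norm_real, Real.norm_of_nonneg]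
          exact mul_nonneg (rpow_nonneg hy0.le _) (K0_pos (by positivity)).le
        rw [setIntegral_congr_fun measurableSet_Ioi this, integral_const_mul, a2]
  have hsc : ∀ n : ℕ, ((c * n) ^ (-s) * kap s) = (c ^ (-s) * kap s) * (n : ℝ) ^ (-s) := by
    intro n
    rw [mul_rpow hc.le (Nat.cast_nonneg _)]
    ring
  have h1 : Summable fun n => ∫ y in Ioi (0 : ℝ), ‖F n y‖ := by
    refine (hsum.mul_left (c ^ (-s) * kap s)).congr fun n => ?_
    rw [(hF n).2.2, hsc]
    ring
  have h2 := (hasSum_integral_of_summable_integral_norm (fun n => (hF n).1) h1).tsum_eq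
  have e1 : ∀ y ∈ Ioi (0 : ℝ), ((y ^ (s - 2) : ℝ) : ℂ) * ∑' n : ℕ, γ n * (Wh (c * n) y : ℂ)
      = ∑' n, F n y := by
    intro y hy
    have hy0 : 0 < y := hy
    rw [← tsum_mul_left]
    refine tsum_congr fun n => ?_
    simp only [F, Wh]
    have : y ^ (s - 1) = y ^ (s - 2) * y := by
      rw [show s - 1 = (s - 2) + 1 by ring, rpow_add hy0, rpow_one]
    rw [this]
    push_cast
    ring
  rw [setIntegral_congr_fun measurableSet_Ioi e1, ← h2, ← tsum_mul_left]
  refine tsum_congr fun n => ?_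
  rw [(hF n).2.1, hsc]
  push_cast
  ring

end Fermat.Agent.LT.H5
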