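import Fermat.Agent.LT.H5.Epstein

/-!
LT piece H5 (helper74): the bijection between the elements `γ ≡ g` of `SL₂(ℤ)` with
`Re γτ ∈ [0, M)` and the coprime rows `≡ row g`.
-/

open Matrix UpperHalfPlane ModularGroup
open scoped MatrixGroups Modular

namespace Fermat.Agent.LT.H5

/-- reduction modulo `M` -/
abbrev red (M : ℕ) : SL(2, ℤ) →* SL(2, ZMod M) :=
  SpecialLinearGroup.map (Int.castRingHom (ZMod M))

/-- unipotent matrix -/
def un {R : Type*} [CommRing R] (n : R) : SL(2, R) := ⟨!![1, n; 0, 1], by simp [det_fin_two]⟩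

theorem un_val {R : Type*} [CommRing R] (n : R) :
    ((un n : SL(2, R)) : Matrix (Fin 2) (Fin 2) R) = !![1, n; 0, 1] := rfl

theorem un_zero {R : Type*} [CommRing R] : (un 0 : SL(2, R)) = 1 := by
  apply Subtype.ext
  change !![1, 0; 0, 1] = (1 : Matrix (Fin 2) (Fin 2) R)
  rw [Matrix.one_fin_two]

theorem SL2_ext {R : Type*} [CommRing R] {A B : SL(2, R)} (h00 : A 0 0 = B 0 0)
    (h01 : A 0 1 = B 0 1) (h10 : A 1 0 = B 1 0) (h11 : A 1 1 = B 1 1) : A = B := by
  ext i j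
  fin_cases i <;> fin_cases j
  · exact h00
  · exact h01
  · exact h10
  · exact h11

theorem un_mul_apply {R : Type*} [CommRing R] (n : R) (A : SL(2, R)) :
    (un n * A) 0 0 = A 0 0 + n * A 1 0 ∧ (un n * A) 0 1 = A 0 1 + n * A 1 1 ∧
    (un n * A) 1 0 = A 1 0 ∧ (un n * A) 1 1 = A 1 1 := by
  change (!![1, n; 0, 1] * A.1) 0 0 = _ ∧ (!![1, n; 0, 1] * A.1) 0 1 = _ ∧
    (!![1, n; 0, 1] * A.1) 1 0 = _ ∧ (!![1, n; 0, 1] * A.1) 1 1 = _
  simp [Matrix.mul_apply, Fin.sum_univ_two]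

theorem det_eq {R : Type*} [CommRing R] (A : SL(2, R)) : A 0 0 * A 1 1 - A 0 1 * A 1 0 = 1 := by
  have := A.2
  rwa [det_fin_two] at this

theorem eq_un_mul {R : Type*} [CommRing R] {A B : SL(2, R)} (h0 : A 1 0 = B 1 0)
    (h1 : A 1 1 = B 1 1) : B = un (A 0 0 * B 0 1 - B 0 0 * A 0 1) * A := by
  obtain ⟨e1, e2, e3, e4⟩ := un_mul_apply (A 0 0 * B 0 1 - B 0 0 * A 0 1) A
  have dA := det_eq A
  have dB := det_eq B
  rw [← h0, ← h1] at dB
  refine SL2_ext ?_ ?_ ?_ ?_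
  · rw [e1]
    linear_combination A 0 0 * dB - B 0 0 * dA
  · rw [e2]
    linear_combination A 0 1 * dB - B 0 1 * dA
  · rw [e3, h0]
  · rw [e4, h1]

theorem un_eq_T (n : ℤ) : (un n : SL(2, ℤ)) = T ^ n := by
  ext i j
  rw [coe_T_zpow]
  rfl

theorem red_apply (M : ℕ) (γ : SL(2, ℤ)) (i j : Fin 2) : red M γ i j = ((γ i j : ℤ) : ZMod M) := rfl

theorem red_un (M : ℕ) (n : ℤ) : red M (un n) = un (n : ZMod M) := by
  refine SL2_ext ?_ ?_ ?_ ?_ <;> rw [red_apply, un_val, un_val] <;> simp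

theorem un_injective {R : Type*} [CommRing R] {a b : R} (h : (un a : SL(2, R)) = un b) : a = b := by
  have := congrArg (fun A : SL(2, R) => A 0 1) h
  simp only [un_val] at this
  simpa using this

/-- the window -/
def Win (M : ℕ) (τ : ℍ) : Prop := 0 ≤ τ.re ∧ τ.re < M

theorem row_bijOn (M : ℕ) [NeZero M] (g : SL(2, ZMod M)) (τ : ℍ) :
    Set.BijOn (fun γ : SL(2, ℤ) => ((γ 1 0, γ 1 1) : ℤ × ℤ)) {γ | red M γ = g ∧ Win M (γ • τ)}
      {v : ℤ × ℤ | IsCoprime v.1 v.2 ∧ (v.1 : ZMod M) = g 1 0 ∧ (v.2 : ZMod M) = g 1 1} := by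
  have hM : (0 : ℝ) < M := by exact_mod_cast Nat.pos_of_ne_zero (NeZero.ne M)
  refine ⟨?_, ?_, ?_⟩
  · rintro γ ⟨h, -⟩
    refine ⟨⟨-γ 0 1, γ 0 0, ?_⟩, ?_, ?_⟩
    · have := det_eq γ
      linear_combination this
    · rw [← h]; rfl
    · rw [← h]; rfl
  · rintro γ ⟨h, hw⟩ γ' ⟨h', hw'⟩ he
    have e0 : γ 1 0 = γ' 1 0 := congrArg Prod.fst he
    have e1 : γ 1 1 = γ' 1 1 := congrArg Prod.snd he
    have e2 := eq_un_mul e0 e1
    set n := γ 0 0 * γ' 0 1 - γ' 0 0 * γ 0 1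
    have h3 : (n : ZMod M) = 0 := by
      have h4 := congrArg (red M) e2
      rw [map_mul, h, h', red_un] at h4
      have h5 : (un (n : ZMod M) : SL(2, ZMod M)) = un 0 := by
        rw [un_zero]
        rw [eq_comm, mul_eq_right] at h4
        exact h4
      exact un_injective h5
    rw [un_eq_T] at e2
    have h7 : (γ' • τ).re = (γ • τ).re + n := by
      rw [e2, mul_smul, re_T_zpow_smul]
    obtain ⟨k, hk⟩ := (ZMod.intCast_zmod_eq_zero_iff_dvd n M).1 h3
    have h8 : k = 0 := by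
      have h9 : ((n : ℤ) : ℝ) = M * k := by rw [hk]; push_cast; ring
      have h10 : (M : ℝ) * k < M * 1 := by
        have := hw'.2
        have := hw.1
        linarith
      have h11 : (M : ℝ) * (-1) < M * k := by
        have := hw'.1
        have := hw.2
        linarith
      have h12 : (k : ℝ) < 1 := lt_of_mul_lt_mul_left h10 hM.le
      have h13 : (-1 : ℝ) < k := lt_of_mul_lt_mul_left h11 hM.le
      have h14 : k < 1 := by exact_mod_cast h12
      have h15 : -1 < k := by exact_mod_cast h13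
      omega
    rw [h8, mul_zero] at hk
    rw [e2, hk]
    simp
  · rintro v ⟨hc, h0, h1⟩
    obtain ⟨γ₀, -, hγ₀⟩ := bottom_row_surj (R := ℤ) (a := ![v.1, v.2]) (by simpa using hc)
    have r0 : γ₀ 1 0 = v.1 := by
      have := congrFun hγ₀ 0
      simpa using this
    have r1 : γ₀ 1 1 = v.2 := by
      have := congrFun hγ₀ 1
      simpa using this
    have e := eq_un_mul (A := red M γ₀) (B := g) (by rw [red_apply, r0, h0])
      (by rw [red_apply, r1, h1])
    obtain ⟨k, hk⟩ := ZMod.intCast_surjective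
      (red M γ₀ 0 0 * g 0 1 - g 0 0 * red M γ₀ 0 1)
    rw [← hk, ← red_un, ← map_mul] at e
    set γ₁ : SL(2, ℤ) := un k * γ₀ with hγ₁
    let j : ℤ := -⌊(γ₁ • τ).re / M⌋
    refine ⟨un (M * j) * γ₁, ⟨?_, ?_⟩, ?_⟩
    · rw [map_mul, red_un, ← e]
      have : (un (((M : ℤ) * j : ℤ) : ZMod M) : SL(2, ZMod M)) = 1 := by
        rw [← un_zero]
        congr 1
        simp
      rw [this, one_mul]
    · rw [un_eq_T, mul_smul]
      unfold Win
      rw [re_T_zpow_smul]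
      have f1 := Int.floor_le ((γ₁ • τ).re / M)
      have f2 := Int.lt_floor_add_one ((γ₁ • τ).re / M)
      rw [le_div_iff₀ hM] at f1
      rw [div_lt_iff₀ hM] at f2
      simp only [j]
      push_cast
      constructor <;> nlinarith
    · obtain ⟨-, -, e3, e4⟩ := un_mul_apply ((M : ℤ) * j) γ₁
      obtain ⟨-, -, e5, e6⟩ := un_mul_apply k γ₀
      exact Prod.ext (by simp only; rw [e3, hγ₁, e5, r0]) (by simp only; rw [e4, hγ₁, e6, r1])

end Fermat.Agent.LT.H5
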