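import Fermat.Agent.LT.H5.Unfold

/-!
LT piece H5 (helper74): the strip integral in coordinates.
-/

open UpperHalfPlane MeasureTheory Set

namespace Fermat.Agent.LT.H5

theorem measurePreserving_coe :
    MeasurePreserving UpperHalfPlane.coe (volume.comap UpperHalfPlane.coe)
      (volume.restrict (range UpperHalfPlane.coe)) :=
  ⟨measurable_coe, by rw [measurableEmbedding_coe.map_comap]⟩

theorem range_coe_eq : range UpperHalfPlane.coe
    = Complex.measurableEquivRealProd ⁻¹' (univ ×ˢ Ioi (0 : ℝ)) := by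
  ext z
  simp only [mem_range, mem_preimage, Complex.measurableEquivRealProd_apply, mem_prod, mem_univ,
    true_and, mem_Ioi]
  constructor
  · rintro ⟨τ, rfl⟩
    exact τ.im_pos
  · intro h
    exact ⟨⟨z, h⟩, rfl⟩

/-- integrals over the upper half plane in coordinates -/
theorem integral_uhp (f : ℝ → ℝ → ℂ) :
    (Integrable (fun τ : ℍ => f τ.re τ.im) ↔
      Integrable (fun p : ℝ × ℝ => ((p.2 ^ (-2 : ℝ) : ℝ) : ℂ) * f p.1 p.2)
        (volume.prod (volume.restrict (Ioi 0)))) ∧
    ∫ τ : ℍ, f τ.re τ.im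
      = ∫ p : ℝ × ℝ, ((p.2 ^ (-2 : ℝ) : ℝ) : ℂ) * f p.1 p.2
          ∂(volume.prod (volume.restrict (Ioi 0))) := by
  have hm : Measurable (fun z : ℍ => ((1 / NNReal.mk z.im z.im_pos.le : NNReal) ^ 2)) := by
    have : Measurable (fun τ : ℍ => τ.im) := UpperHalfPlane.continuous_im.measurable
    have h2 : Measurable (fun τ : ℍ => NNReal.mk τ.im τ.im_pos.le) := this.subtype_mk
    exact (measurable_const.div h2).pow_const 2
  let G : ℝ × ℝ → ℂ := fun p => ((p.2 ^ (-2 : ℝ) : ℝ) : ℂ) * f p.1 p.2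
  have hG : ∀ τ : ℍ, ((1 / NNReal.mk τ.im τ.im_pos.le : NNReal) ^ 2) • f τ.re τ.im
      = G (Complex.measurableEquivRealProd (τ : ℂ)) := by
    intro τ
    simp only [G, Complex.measurableEquivRealProd_apply]
    rw [NNReal.smul_def, Complex.real_smul]
    have h1 : (((1 / NNReal.mk τ.im τ.im_pos.le : NNReal) ^ 2 : NNReal) : ℝ)
        = (τ.im : ℝ) ^ (-2 : ℝ) := by
      push_cast
      rw [Real.rpow_neg τ.im_pos.le, one_div, inv_pow]
      norm_num
    rw [h1]
    rfl
  have hprod : (volume.prod (volume.restrict (Ioi 0)) : Measure (ℝ × ℝ))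
      = volume.restrict (univ ×ˢ Ioi (0 : ℝ)) := by
    rw [Measure.volume_eq_prod, ← Measure.prod_restrict, Measure.restrict_univ]
  have hemb := Complex.measurableEquivRealProd.measurableEmbedding
  have hpres := Complex.volume_preserving_equiv_real_prod.restrict_preimage_emb hemb
    (univ ×ˢ Ioi (0 : ℝ))
  rw [← range_coe_eq] at hpres
  have hcomp := measurePreserving_coe
  constructor
  · rw [UpperHalfPlane.volume_def, integrable_withDensity_iff_integrable_smul hm]
    simp_rw [hG]
    rw [hprod, ← hpres.integrable_comp_emb hemb, ← hcomp.integrable_comp_emb measurableEmbedding_coe]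
    rfl
  · rw [UpperHalfPlane.volume_def, integral_withDensity_eq_integral_smul hm]
    simp_rw [hG]
    rw [hprod, ← hpres.integral_comp hemb, ← hcomp.integral_comp measurableEmbedding_coe]

open Classical in
/-- the strip integral in coordinates -/
theorem integral_strip {M : ℕ} {s : ℝ} {f : ℝ → ℝ → ℂ}
    (hint : Integrable (stripF M s (fun τ => f τ.re τ.im))) :
    ∫ τ, stripF M s (fun τ => f τ.re τ.im) τ
      = ∫ y in Ioi (0 : ℝ), ((y ^ (s - 2) : ℝ) : ℂ) * ∫ x in Ico (0 : ℝ) M, f x y := by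
  let g : ℝ → ℝ → ℂ := fun x y => if 0 ≤ x ∧ x < M then ((y ^ s : ℝ) : ℂ) * f x y else 0
  have e : stripF M s (fun τ => f τ.re τ.im) = fun τ => g τ.re τ.im := by
    funext τ
    by_cases h : 0 ≤ τ.re ∧ τ.re < M
    · exact (if_pos h).trans (if_pos h).symm
    · exact (if_neg h).trans (if_neg h).symm
  rw [e] at hint ⊢
  obtain ⟨h1, h2⟩ := integral_uhp g
  rw [h1] at hint
  rw [h2, integral_prod_symm _ hint]
  refine setIntegral_congr_fun measurableSet_Ioi fun y hy => ?_
  have hy0 : (0 : ℝ) < y := hy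
  simp only
  rw [← integral_const_mul, ← integral_indicator measurableSet_Ico]
  refine integral_congr_ae (Filter.Eventually.of_forall fun x => ?_)
  simp only [g]
  by_cases hx : 0 ≤ x ∧ x < M
  · rw [if_pos hx, indicator_of_mem (show x ∈ Ico (0 : ℝ) M from hx), ← mul_assoc,
      ← Complex.ofReal_mul, ← Real.rpow_add hy0]
    congr 3
    ring
  · rw [if_neg hx, indicator_of_notMem (show x ∉ Ico (0 : ℝ) M from hx), mul_zero]

end Fermat.Agent.LT.H5
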