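import Fermat.Agent.LT.H5.Family
import Fermat.Agent.LT.H5.Strip
import Fermat.Agent.LT.H5.Mellin

/-!
LT piece H5 (helper74): the series `∑_{(n, M) = 1} A(n) n^{-s}` is bounded near `s = 1` if all the
periods vanish.
-/

set_option autoImplicit false

open Matrix MeasureTheory Set
open UpperHalfPlane hiding I
open scoped MatrixGroups ENNReal Modular

noncomputable section

namespace Fermat.Agent.LT.H5

open Fermat.LT Fermat.Agent.LT.J Fermat.Agent.LT.B Fermat.Agent.LT.H.Bessel

/-! ### One-dimensional Fourier series -/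

section fourier

variable {M : ℕ} [NeZero M] {H : ℂ → ℂ}

/-- horizontal average -/
def hav (M : ℕ) (H : ℂ → ℂ) (b : ℝ) : ℂ := ∫ a in (0 : ℝ)..1, H (M * (a + b * om))

omit [NeZero M] in
theorem continuous_hav (hH : Continuous H) : Continuous (hav M H) := by
  unfold hav
  refine intervalIntegral.continuous_parametric_intervalIntegral_of_continuous' ?_ 0 1
  refine hH.comp ?_
  fun_prop

omit [NeZero M] in
theorem periodic_hav (hper : ∀ (z : ℂ) (β : EO), H (z + M * toC β) = H z) :
    Function.Periodic (hav M H) 1 := by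
  intro b
  unfold hav
  refine intervalIntegral.integral_congr fun a _ => ?_
  rw [← hper (M * (a + b * om)) (⟨0, 1⟩ : EO)]
  congr 1
  rw [toC_apply]
  push_cast
  simp
  ring

theorem two_re_nu_int (n : ℤ) (a b : ℝ) :
    2 * (nu M (n : EO) * (M * (a + b * om))).re = n * b := by
  have hM : (M : ℝ) ≠ 0 := by exact_mod_cast NeZero.ne M
  have h3 := sqrt3_pos
  have e : nu M (n : EO) * (M * (a + b * om))
      = ((n : ℂ) * (M * (a + b * om))) / (((M : ℝ) : ℂ) * (Real.sqrt 3 * Complex.I)) := by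
    unfold nu
    rw [map_intCast]
    push_cast
    ring
  rw [e, two_re_div _ _ hM]
  have h4 : ((n : ℂ) * (M * (a + b * om))).im = n * (M * (b * (Real.sqrt 3 / 2))) := by
    have : ((n : ℂ) * (M * (a + b * om))) = ((n : ℝ) * (M : ℝ) : ℝ) * (a + b * om) := by
      push_cast; ring
    rw [this, Complex.im_ofReal_mul]
    simp
    ring
  rw [h4]
  field_simp

theorem fc_int (n : ℤ) : fc M H (n : EO) = ∫ b in (0 : ℝ)..1,
    Complex.exp (-(2 * Real.pi * Complex.I * n * b / (1 : ℝ))) * hav M H b := by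
  unfold fc hav
  refine intervalIntegral.integral_congr fun b _ => ?_
  rw [← intervalIntegral.integral_const_mul]
  refine intervalIntegral.integral_congr fun a _ => ?_
  rw [two_re_nu_int]
  congr 2
  push_cast
  ring

/-- value of the horizontal average as the sum of the Fourier coefficients -/
theorem integral_horizontal (hH : Continuous H)
    (hper : ∀ (z : ℂ) (β : EO), H (z + M * toC β) = H z)
    (hs : Summable fun n : ℤ => fc M H (n : EO)) :
    ∫ x in Ico (0 : ℝ) M, H x = M * ∑' n : ℤ, fc M H (n : EO) := by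
  have hM : (0 : ℝ) < M := by exact_mod_cast Nat.pos_of_ne_zero (NeZero.ne M)
  have h1 := fourier_zero one_pos (continuous_hav (M := M) hH) (periodic_hav hper)
    (by simpa only [fc_int] using hs)
  have h2 : ∫ x in Ico (0 : ℝ) M, H x = M * hav M H 0 := by
    rw [integral_Ico_eq_integral_Ioo, ← integral_Ioc_eq_integral_Ioo,
      ← intervalIntegral.integral_of_le hM.le]
    unfold hav
    have h3 := intervalIntegral.smul_integral_comp_mul_left (fun x : ℝ => H x) (a := 0) (b := 1)
      (M : ℝ)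
    rw [mul_zero, mul_one] at h3
    rw [← h3, Complex.real_smul]
    push_cast
    congr 1
    refine intervalIntegral.integral_congr fun a _ => ?_
    simp
  rw [h2, h1]
  simp only [fc_int]
  simp

end fourier

/-! ### Fourier data -/

/-- the basic frequency `4π / (M √3)` -/
def cM (M : ℕ) : ℝ := 4 * Real.pi / (M * Real.sqrt 3)

theorem cM_pos (M : ℕ) [NeZero M] : 0 < cM M := by
  have hM : (0 : ℝ) < M := by exact_mod_cast Nat.pos_of_ne_zero (NeZero.ne M)
  unfold cM
  have := Real.pi_pos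
  have := sqrt3_pos
  positivity

/-- `b ω` -/
def wb {M : ℕ} (b : ZMod M) : QE (ZMod M) := ⟨0, b⟩

/-- Fourier data of a `PhiSys` at the integral frequencies -/
structure FCData {M : ℕ} (P : PhiSys M) (α : ℤ → GM M → ℂ) : Prop where
  zero : ∀ s, α 0 s = 0
  eq : ∀ (n : ℤ) (s : GM M) (t : ℝ) (ht : 0 < t),
    fc M (fun z => P.Φ (H3.mk z t ht) s) (n : EO) = α n s * (Wh (cM M * |(n : ℝ)|) t : ℂ)
  un : ∀ (n b : ℤ) (s : GM M), α n (gun (wb (b : ZMod M)) * s)
    = Complex.exp (-(2 * Real.pi * Complex.I * n * b / M)) * α n s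
  neg : ∀ (n : ℤ) (s : GM M), α (-n) (gdg (-1) * s) = α n s

section data

variable {M : ℕ} [NeZero M] {P : PhiSys M} {α : ℤ → GM M → ℂ}

omit [NeZero M] in
theorem Phi_mk_continuous (P : PhiSys M) {t : ℝ} (ht : 0 < t) (s : GM M) :
    Continuous fun z => P.Φ (H3.mk z t ht) s :=
  (P.cont s).comp (H3.continuous_iff.2 ⟨continuous_id, continuous_const⟩)

theorem glC_gun (b : EO) (z : ℂ) {t : ℝ} (ht : 0 < t) :
    (gun b : GL (Fin 2) EO) • H3.mk z t ht = H3.mk (z + toC b) t ht := by
  have e : ∀ i j, (glC (gun b)) i j = toC ((gun b : GL (Fin 2) EO).1 i j) := fun i j => rfl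
  have h00 : glC (gun b) 0 0 = 1 := by rw [e, gun_val]; simp
  have h01 : glC (gun b) 0 1 = toC b := by rw [e, gun_val]; simp
  have h10 : glC (gun b) 1 0 = 0 := by rw [e, gun_val]; simp
  have h11 : glC (gun b) 1 1 = 1 := by rw [e, gun_val]; simp
  have hden : H3.den (glC (gun b)) (H3.mk z t ht) = 1 := by
    rw [H3.den, h10, h11]; simp
  refine H3.ext ?_ ?_
  · rw [glEO_smul, H3.smul_z, hden, h00, h01, h10, h11]
    simp [H3.z, H3.mk]
  · rw [glEO_smul, H3.smul_t, hden, norm_det_glC]
    simp [H3.t, H3.mk]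

omit [NeZero M] in
theorem Phi_periodic (P : PhiSys M) {t : ℝ} (ht : 0 < t) (s : GM M) (z : ℂ) (β : EO) :
    P.Φ (H3.mk (z + M * toC β) t ht) s = P.Φ (H3.mk z t ht) s := by
  have h1 : (M : ℂ) * toC β = toC ((M : EO) * β) := by rw [map_mul, map_natCast]
  rw [h1, ← glC_gun]
  have h2 : redG M (gun ((M : EO) * β)) = 1 := by
    apply Units.ext
    ext i j : 1
    rw [redG_apply, gun_val]
    fin_cases i <;> fin_cases j
    · simp
    · ext
      · simp
      · simp
    · simp
    · simp
  conv_lhs => rw [show s = redG M (gun ((M : EO) * β)) * s by rw [h2, one_mul]]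
  exact P.inv _ _ _

/-- linear growth of the coefficients -/
theorem FCData.growth (hF : FCData P α) : ∃ C : ℝ, 0 ≤ C ∧ ∀ (n : ℤ) (s : GM M),
    ‖α n s‖ ≤ C * |(n : ℝ)| := by
  obtain ⟨B, hB⟩ := P.bdd
  have hK := K0_pos (cM_pos M)
  have hB0 : 0 ≤ B := (norm_nonneg _).trans (hB (H3.mk 0 1 one_pos) 1)
  refine ⟨B / K0 (cM M), by positivity, fun n s => ?_⟩
  rcases eq_or_ne n 0 with hn | hn
  · subst hn
    rw [hF.zero]
    simp
  · have hn' : (0 : ℝ) < |(n : ℝ)| := abs_pos.2 (by exact_mod_cast hn)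
    have ht : 0 < |(n : ℝ)|⁻¹ := inv_pos.2 hn'
    have h1 := hF.eq n s _ ht
    have h2 : ‖fc M (fun z => P.Φ (H3.mk z _ ht) s) (n : EO)‖ ≤ B := by
      unfold fc
      have h3 : ∀ b : ℝ, ‖∫ a in (0 : ℝ)..1, Complex.exp (-(2 * Real.pi * Complex.I *
          ((2 * (nu M (n : EO) * (M * (a + b * om))).re : ℝ) : ℂ))) *
          P.Φ (H3.mk (M * (a + b * om)) _ ht) s‖ ≤ B := by
        intro b
        have := intervalIntegral.norm_integral_le_of_norm_le_const (a := (0 : ℝ)) (b := 1)
          (f := fun a : ℝ => Complex.exp (-(2 * Real.pi * Complex.I *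
          ((2 * (nu M (n : EO) * (M * (a + b * om))).re : ℝ) : ℂ))) *
          P.Φ (H3.mk (M * (a + b * om)) _ ht) s) (C := B) (fun a _ => ?_)
        · simpa using this
        · rw [norm_mul]
          have h5 : ‖Complex.exp (-(2 * Real.pi * Complex.I *
            ((2 * (nu M (n : EO) * (M * (a + b * om))).re : ℝ) : ℂ)))‖ = 1 := by
            rw [show -(2 * Real.pi * Complex.I *
              ((2 * (nu M (n : EO) * (M * (a + b * om))).re : ℝ) : ℂ))
              = ((-(2 * Real.pi * (2 * (nu M (n : EO) * (M * (a + b * om))).re)) : ℝ) : ℂ)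
                * Complex.I by push_cast; ring]
            exact Complex.norm_exp_ofReal_mul_I _
          rw [h5, one_mul]
          exact hB _ _
      have := intervalIntegral.norm_integral_le_of_norm_le_const (a := (0 : ℝ)) (b := 1)
        (C := B) (fun b _ => h3 b)
      simpa using this
    rw [h1, norm_mul, Complex.norm_real, Wh, mul_assoc (cM M), mul_inv_cancel₀ hn'.ne', mul_one,
      Real.norm_of_nonneg (by positivity)] at h2
    rw [div_mul_eq_mul_div, le_div_iff₀ hK]
    calc ‖α n s‖ * K0 (cM M) = (‖α n s‖ * (|(n : ℝ)|⁻¹ * K0 (cM M))) * |(n : ℝ)| := by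
          field_simp
      _ ≤ B * |(n : ℝ)| := mul_le_mul_of_nonneg_right h2 hn'.le

/-- summability of series of Whittaker functions with coefficients of linear growth -/
theorem summable_Wh {γ : ℤ → ℂ} {C : ℝ} (hγ : ∀ n : ℤ, ‖γ n‖ ≤ C * |(n : ℝ)|) {c y : ℝ}
    (hc : 0 < c) (hy : 0 < y) : Summable fun n : ℤ => γ n * (Wh (c * |(n : ℝ)|) y : ℂ) := by
  have hcy : 0 < c * y := mul_pos hc hy
  have hC0 : 0 ≤ C := by
    have := (norm_nonneg _).trans (hγ 1)
    simpa using this
  -- majorant
  have h1 : Summable fun n : ℕ => (n : ℝ) * Real.exp (-(c * y) * n) := by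
    have := Real.summable_pow_mul_exp_neg_nat_mul 1 hcy
    simpa using this
  have h2 : Summable fun n : ℤ => |(n : ℝ)| * Real.exp (-(c * y) * |(n : ℝ)|) := by
    refine Summable.of_nat_of_neg ?_ ?_
    · simpa using h1
    · simpa using h1
  have h3 : Summable fun n : ℤ => (C * y * (Real.exp (c * y) * K0 (c * y))) *
      (|(n : ℝ)| * Real.exp (-(c * y) * |(n : ℝ)|)) := h2.mul_left _
  refine Summable.of_norm_bounded h3 fun n => ?_
  rcases eq_or_ne n 0 with hn | hn
  · subst hn
    have h0 := hγ 0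
    simp only [Int.cast_zero, abs_zero, mul_zero, norm_le_zero_iff] at h0
    rw [h0]
    simp
  · have hn1 : (1 : ℝ) ≤ |(n : ℝ)| := by
      have : 1 ≤ |n| := Int.one_le_abs hn
      exact_mod_cast this
    have hx : c * y ≤ c * |(n : ℝ)| * y := by nlinarith
    have h4 := K0_le_exp hcy hx
    rw [norm_mul, Complex.norm_real, Wh, norm_mul, Real.norm_of_nonneg hy.le,
      Real.norm_of_nonneg (K0_pos (by positivity)).le]
    have h5 := hγ n
    have h6 : 0 ≤ y * K0 (c * |(n : ℝ)| * y) :=
      mul_nonneg hy.le (K0_pos (by positivity)).le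
    calc ‖γ n‖ * (y * K0 (c * |(n : ℝ)| * y))
        ≤ (C * |(n : ℝ)|) * (y * (Real.exp (-(c * |(n : ℝ)| * y - c * y)) * K0 (c * y))) := by
          gcongr
      _ = _ := by
          rw [show -(c * |(n : ℝ)| * y - c * y) = c * y + -(c * y) * |(n : ℝ)| by ring,
            Real.exp_add]
          ring

end data

end Fermat.Agent.LT.H5
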