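import Mathlib

/-!
LT piece H5 (helper74): comparison of sums over `ℤ` with integrals, and the profile
`G r v = (1 + v²)^(-r)`.
-/

open Real Set MeasureTheory Filter intervalIntegral

namespace Fermat.Agent.LT.H5

/-- `|∑ h(n) - ∫ h| ≤ ∫ |h'|`. -/
theorem sum_sub_integral {h h' : ℝ → ℝ} (hd : ∀ x, HasDerivAt h (h' x) x) (hi : Integrable h)
    (hi' : Integrable h') :
    Summable (fun n : ℤ => h n) ∧ |∑' n : ℤ, h n - ∫ x, h x| ≤ ∫ x, |h' x| := by
  have hcont : Continuous h := continuous_iff_continuousAt.2 fun x => (hd x).continuousAt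
  have key : ∀ n : ℤ, |h n - ∫ x in (0 : ℝ) + n..0 + n + 1, h x|
      ≤ ∫ x in (0 : ℝ) + n..0 + n + 1, |h' x| := by
    intro n
    rw [zero_add]
    have hc : (∫ x in (n : ℝ)..n + 1, h n) = h n := by simp
    have hle : (n : ℝ) ≤ n + 1 := by linarith
    have h1 : h n - ∫ x in (n : ℝ)..n + 1, h x = ∫ x in (n : ℝ)..n + 1, (h n - h x) := by
      rw [integral_sub (by simp) (hcont.intervalIntegrable _ _), hc]
    rw [h1]
    have h2 : ∀ x ∈ Icc (n : ℝ) (n + 1), |h n - h x| ≤ ∫ u in (n : ℝ)..n + 1, |h' u| := by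
      intro x hx
      have h3 : ∫ u in (n : ℝ)..x, h' u = h x - h n :=
        integral_eq_sub_of_hasDerivAt (fun u _ => hd u) hi'.intervalIntegrable
      rw [abs_sub_comm, ← h3]
      refine (abs_integral_le_integral_abs hx.1).trans ?_
      exact integral_mono_interval le_rfl hx.1 hx.2
        (Eventually.of_forall fun u => abs_nonneg _) hi'.abs.intervalIntegrable
    have h4 : |∫ x in (n : ℝ)..n + 1, (h n - h x)|
        ≤ (∫ u in (n : ℝ)..n + 1, |h' u|) * |(n : ℝ) + 1 - n| := by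
      rw [← Real.norm_eq_abs]
      refine intervalIntegral.norm_integral_le_of_norm_le_const (fun x hx => ?_)
      rw [uIoc_of_le hle] at hx
      exact h2 x ⟨hx.1.le, hx.2⟩
    simpa using h4
  have s1 := hi.hasSum_intervalIntegral 0
  have s2 := hi'.abs.hasSum_intervalIntegral 0
  have s3 : Summable (fun n : ℤ => h n - ∫ x in (0 : ℝ) + n..0 + n + 1, h x) :=
    Summable.of_norm_bounded s2.summable key
  have s4 : Summable (fun n : ℤ => h n) := by
    have := s3.add s1.summable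
    refine this.congr fun n => ?_
    ring
  refine ⟨s4, ?_⟩
  rw [← s1.tsum_eq, ← s4.tsum_sub s1.summable, ← s2.tsum_eq]
  have := norm_tsum_le_tsum_norm (f := fun n : ℤ => h n - ∫ x in (0 : ℝ) + n..0 + n + 1, h x)
    (s3.norm)
  refine this.trans ?_
  exact Summable.tsum_le_tsum key s3.norm s2.summable

/-- the profile -/
noncomputable def G (r v : ℝ) : ℝ := (1 + v ^ 2) ^ (-r)

/-- derivative of the profile -/
noncomputable def G' (r v : ℝ) : ℝ := -r * (2 * v) * (1 + v ^ 2) ^ (-r - 1)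

/-- total mass of the profile -/
noncomputable def J (r : ℝ) : ℝ := ∫ v, G r v

theorem one_le_base (v : ℝ) : 1 ≤ 1 + v ^ 2 := by nlinarith [sq_nonneg v]

theorem base_pos (v : ℝ) : 0 < 1 + v ^ 2 := by nlinarith [sq_nonneg v]

theorem G_pos (r v : ℝ) : 0 < G r v := rpow_pos_of_pos (base_pos v) _

theorem hasDerivAt_G (r v : ℝ) : HasDerivAt (G r) (G' r v) v := by
  have h1 : HasDerivAt (fun v : ℝ => 1 + v ^ 2) (2 * v) v := by
    simpa using (hasDerivAt_pow 2 v).const_add 1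
  have h2 := h1.rpow_const (p := -r) (Or.inl (base_pos v).ne')
  unfold G G'
  convert h2 using 1
  ring

theorem continuous_G (r : ℝ) : Continuous (G r) :=
  continuous_iff_continuousAt.2 fun v => (hasDerivAt_G r v).continuousAt

theorem continuous_G' (r : ℝ) : Continuous (G' r) := by
  unfold G'
  refine Continuous.mul (by fun_prop) ?_
  exact Continuous.rpow_const (by fun_prop) fun v => Or.inl (base_pos v).ne'

theorem integrable_G {r : ℝ} (hr : 1 / 2 < r) : Integrable (G r) := by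
  have h := integrable_rpow_neg_one_add_norm_sq (E := ℝ) (μ := volume) (r := 2 * r)
    (by simp; linarith)
  refine h.congr (Eventually.of_forall fun v => ?_)
  simp only [Real.norm_eq_abs, sq_abs, G]
  congr 1
  ring

theorem abs_le_rpow (v : ℝ) {r : ℝ} (hr : 1 / 2 ≤ r) : |v| ≤ (1 + v ^ 2) ^ r := by
  have h1 : |v| ≤ (1 + v ^ 2) ^ (1 / 2 : ℝ) := by
    rw [← sqrt_eq_rpow]
    exact abs_le_sqrt (by nlinarith)
  exact h1.trans (rpow_le_rpow_of_exponent_le (one_le_base v) hr)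

theorem abs_G'_le (r v : ℝ) (hr : 1 / 2 ≤ r) : |G' r v| ≤ 2 * r * (1 + v ^ 2)⁻¹ := by
  have hb := base_pos v
  unfold G'
  rw [abs_mul, abs_mul, abs_neg, abs_of_nonneg (by linarith : (0 : ℝ) ≤ r), abs_mul, abs_two,
    abs_of_pos (rpow_pos_of_pos hb _), sub_eq_add_neg, rpow_add hb, rpow_neg_one, rpow_neg hb.le]
  have h1 := abs_le_rpow v hr
  have h2 : 0 < (1 + v ^ 2) ^ r := rpow_pos_of_pos hb _
  have h3 : |v| * ((1 + v ^ 2) ^ r)⁻¹ ≤ 1 := by
    rw [← div_eq_mul_inv]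
    exact (div_le_one h2).2 h1
  have h4 : 0 < (1 + v ^ 2)⁻¹ := inv_pos.2 hb
  calc r * (2 * |v|) * (((1 + v ^ 2) ^ r)⁻¹ * (1 + v ^ 2)⁻¹)
      = (|v| * ((1 + v ^ 2) ^ r)⁻¹) * (2 * r * (1 + v ^ 2)⁻¹) := by ring
    _ ≤ 1 * (2 * r * (1 + v ^ 2)⁻¹) := by
        refine mul_le_mul_of_nonneg_right h3 ?_
        positivity
    _ = _ := one_mul _

theorem integrable_G' {r : ℝ} (hr : 1 / 2 ≤ r) : Integrable (G' r) := by
  refine (integrable_inv_one_add_sq.const_mul (2 * r)).mono'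
    (continuous_G' r).aestronglyMeasurable (Eventually.of_forall fun v => ?_)
  exact abs_G'_le r v hr

theorem integral_abs_G'_le {r : ℝ} (hr : 1 / 2 ≤ r) : ∫ v, |G' r v| ≤ 2 * r * π := by
  have h := integral_mono (integrable_G' hr).abs (integrable_inv_one_add_sq.const_mul (2 * r))
    (fun v => abs_G'_le r v hr)
  refine h.trans ?_
  rw [MeasureTheory.integral_const_mul, integral_univ_inv_one_add_sq]

theorem J_nonneg (r : ℝ) : 0 ≤ J r := integral_nonneg fun v => (G_pos r v).le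

theorem G_le_inv {r : ℝ} (hr : 1 ≤ r) (v : ℝ) : G r v ≤ (1 + v ^ 2)⁻¹ := by
  unfold G
  rw [← rpow_neg_one]
  exact rpow_le_rpow_of_exponent_le (one_le_base v) (by linarith)

theorem J_le_pi {r : ℝ} (hr : 1 ≤ r) : J r ≤ π := by
  unfold J
  rw [← integral_univ_inv_one_add_sq]
  exact integral_mono (integrable_G (by linarith)) integrable_inv_one_add_sq
    (fun v => G_le_inv hr v)

/-- comparison for the profile -/
theorem profile {r α β : ℝ} (hr : 1 / 2 < r) (hα : 0 < α) :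
    Summable (fun n : ℤ => G r (α * n + β)) ∧
      |∑' n : ℤ, G r (α * n + β) - α⁻¹ * J r| ≤ 2 * r * π := by
  have hd : ∀ x : ℝ, HasDerivAt (fun x => G r (α * x + β)) (α * G' r (α * x + β)) x := by
    intro x
    have h1 : HasDerivAt (fun x : ℝ => α * x + β) α x := by
      simpa using ((hasDerivAt_id x).const_mul α).add_const β
    have h2 := (hasDerivAt_G r (α * x + β)).comp x h1
    rw [mul_comm]
    exact h2
  have hi : Integrable (fun x => G r (α * x + β)) := by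
    have := (integrable_G hr).comp_add_right β
    exact this.comp_mul_left' hα.ne'
  have hi' : Integrable (fun x => α * G' r (α * x + β)) := by
    have := (integrable_G' hr.le).comp_add_right β
    exact (this.comp_mul_left' hα.ne').const_mul α
  have e1 : ∫ x, G r (α * x + β) = α⁻¹ * J r := by
    have h1 := Measure.integral_comp_mul_left (fun x => G r (x + β)) α
    rw [h1, integral_add_right_eq_self (fun x => G r x) β, abs_of_pos (inv_pos.2 hα), smul_eq_mul]
    rfl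
  have e2 : ∫ x, |α * G' r (α * x + β)| = ∫ x, |G' r x| := by
    have h1 := Measure.integral_comp_mul_left (fun x => |G' r (x + β)|) α
    have h2 := integral_add_right_eq_self (fun x => |G' r x|) β (μ := volume)
    simp_rw [abs_mul, MeasureTheory.integral_const_mul]
    rw [h1, h2, abs_of_pos (inv_pos.2 hα), abs_of_pos hα, smul_eq_mul, ← mul_assoc,
      mul_inv_cancel₀ hα.ne', one_mul]
  obtain ⟨h1, h2⟩ := sum_sub_integral hd hi hi'
  refine ⟨h1, ?_⟩
  rw [e1, e2] at h2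
  exact h2.trans (integral_abs_G'_le hr.le)

theorem sq_add_rpow {w : ℝ} (hw : 0 < w) (u s : ℝ) :
    (u ^ 2 + w ^ 2) ^ (-s) = w ^ (-2 * s) * G s (u / w) := by
  unfold G
  have h1 : u ^ 2 + w ^ 2 = w ^ 2 * (1 + (u / w) ^ 2) := by
    field_simp
    ring
  rw [h1, mul_rpow (by positivity) (base_pos _).le]
  congr 1
  rw [← rpow_natCast w 2, ← rpow_mul hw.le]
  congr 1
  push_cast
  ring

/-- the row sums -/
theorem row {s w M a : ℝ} (hs : 1 / 2 < s) (hw : 0 < w) (hM : 0 < M) :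
    Summable (fun n : ℤ => ((a + M * n) ^ 2 + w ^ 2) ^ (-s)) ∧
      |∑' n : ℤ, ((a + M * n) ^ 2 + w ^ 2) ^ (-s) - w ^ (1 - 2 * s) * (J s / M)|
        ≤ 2 * s * π * w ^ (-2 * s) := by
  have e : ∀ n : ℤ, ((a + M * n) ^ 2 + w ^ 2) ^ (-s)
      = w ^ (-2 * s) * G s ((M / w) * n + a / w) := by
    intro n
    rw [sq_add_rpow hw]
    congr 2
    field_simp
    ring
  obtain ⟨h1, h2⟩ := profile (r := s) (α := M / w) (β := a / w) hs (by positivity)
  simp_rw [e]
  refine ⟨h1.mul_left _, ?_⟩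
  rw [tsum_mul_left]
  have e2 : w ^ (1 - 2 * s) * (J s / M) = w ^ (-2 * s) * ((M / w)⁻¹ * J s) := by
    have : w ^ (1 - 2 * s) = w ^ (-2 * s) * w := by
      rw [show 1 - 2 * s = -2 * s + 1 by ring, rpow_add hw, rpow_one]
    rw [this, inv_div]
    field_simp
  rw [e2, ← mul_sub, abs_mul, abs_of_pos (rpow_pos_of_pos hw _), mul_comm]
  exact mul_le_mul_of_nonneg_right h2 (rpow_pos_of_pos hw _).le

/-- the quadratic form `|c τ + d|² / y` with `y = η²` -/
noncomputable def Nf (x η c d : ℝ) : ℝ := ((d + c * x) / η) ^ 2 + (η * c) ^ 2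

theorem Nf_nonneg (x η c d : ℝ) : 0 ≤ Nf x η c d := by
  unfold Nf; positivity

theorem sqrt_rpow_G (p r : ℝ) : (√(1 + p ^ 2)) ^ (-2 * r) = G r p := by
  unfold G
  rw [sqrt_eq_rpow, ← rpow_mul (base_pos p).le]
  congr 1
  ring

theorem sqrt_rpow_G' (p s : ℝ) : (√(1 + p ^ 2)) ^ (1 - 2 * s) = G (s - 1 / 2) p := by
  rw [← sqrt_rpow_G]
  congr 1
  ring

section smooth

variable {M x η s : ℝ}

/-- the row sums of the smoothed form -/
theorem smooth_row (hM : 0 < M) (hη : 0 < η) (hs : 1 < s) (c d : ℝ) :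
    Summable (fun n : ℤ => (1 + Nf x η c (d + M * n)) ^ (-s)) ∧
      |∑' n : ℤ, (1 + Nf x η c (d + M * n)) ^ (-s) - G (s - 1 / 2) (η * c) * (J s * η / M)|
        ≤ 2 * s * π * G s (η * c) := by
  have hw : 0 < √(1 + (η * c) ^ 2) := sqrt_pos.2 (base_pos _)
  obtain ⟨h1, h2⟩ := row (s := s) (w := √(1 + (η * c) ^ 2)) (M := M / η) (a := (d + c * x) / η)
    (by linarith) hw (by positivity)
  have e : ∀ n : ℤ, 1 + Nf x η c (d + M * n)
      = ((d + c * x) / η + M / η * n) ^ 2 + (√(1 + (η * c) ^ 2)) ^ 2 := by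
    intro n
    rw [sq_sqrt (base_pos _).le]
    unfold Nf
    have : (d + M * n + c * x) / η = (d + c * x) / η + M / η * n := by field_simp; ring
    rw [this]
    ring
  simp_rw [e]
  refine ⟨h1, ?_⟩
  rw [sqrt_rpow_G', sqrt_rpow_G] at h2
  have e2 : J s * η / M = J s / (M / η) := by field_simp
  rw [e2]
  exact h2

/-- the smoothed Epstein zeta function is a function of `s` up to `O(η)`. -/
theorem smooth (hM : 1 ≤ M) (hη : 1 / 2 ≤ η) (hs : 1 < s) (hs2 : s ≤ 2) (c₀ d₀ : ℝ) :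
    Summable (fun p : ℤ × ℤ => (1 + Nf x η (c₀ + M * p.1) (d₀ + M * p.2)) ^ (-s)) ∧
      |∑' p : ℤ × ℤ, (1 + Nf x η (c₀ + M * p.1) (d₀ + M * p.2)) ^ (-s)
        - J s * J (s - 1 / 2) / M ^ 2| ≤ 51 * π ^ 2 * η := by
  have hM0 : 0 < M := by linarith
  have hη0 : 0 < η := by linarith
  have hrow := fun m : ℤ => smooth_row (x := x) hM0 hη0 hs (c₀ + M * m) d₀
  obtain ⟨p1, p2⟩ := profile (r := s - 1 / 2) (α := η * M) (β := η * c₀) (by linarith) (by positivity)
  obtain ⟨q1, q2⟩ := profile (r := s) (α := η * M) (β := η * c₀) (by linarith) (by positivity)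
  have e : ∀ m : ℤ, η * (c₀ + M * m) = η * M * m + η * c₀ := fun m => by ring
  simp_rw [e] at hrow
  have t1 : Summable (fun m : ℤ => G (s - 1 / 2) (η * M * m + η * c₀) * (J s * η / M)) :=
    p1.mul_right _
  have t2 : Summable (fun m : ℤ => 2 * s * π * G s (η * M * m + η * c₀)) := q1.mul_left _
  have t3 : Summable (fun m : ℤ => ∑' n : ℤ, (1 + Nf x η (c₀ + M * m) (d₀ + M * n)) ^ (-s)
      - G (s - 1 / 2) (η * M * m + η * c₀) * (J s * η / M)) :=
    Summable.of_norm_bounded t2 fun m => (hrow m).2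
  have t4 : Summable (fun m : ℤ => ∑' n : ℤ, (1 + Nf x η (c₀ + M * m) (d₀ + M * n)) ^ (-s)) := by
    refine (t3.add t1).congr fun m => ?_
    ring
  have hnn : ∀ p : ℤ × ℤ, 0 ≤ (1 + Nf x η (c₀ + M * p.1) (d₀ + M * p.2)) ^ (-s) := fun p =>
    rpow_nonneg (by have := Nf_nonneg x η (c₀ + M * p.1) (d₀ + M * p.2); linarith) _
  have t5 : Summable (fun p : ℤ × ℤ => (1 + Nf x η (c₀ + M * p.1) (d₀ + M * p.2)) ^ (-s)) :=
    (summable_prod_of_nonneg hnn).2 ⟨fun m => (hrow m).1, t4⟩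
  refine ⟨t5, ?_⟩
  rw [t5.tsum_prod' (fun m => (hrow m).1)]
  have hJ0 := J_nonneg s
  have hJ1 := J_le_pi hs.le
  have hpi := pi_pos
  have b1 : |∑' m : ℤ, ∑' n : ℤ, (1 + Nf x η (c₀ + M * m) (d₀ + M * n)) ^ (-s)
      - ∑' m : ℤ, G (s - 1 / 2) (η * M * m + η * c₀) * (J s * η / M)| ≤ 24 * π ^ 2 := by
    rw [← t4.tsum_sub t1]
    refine (norm_tsum_le_tsum_norm t3.norm).trans ?_
    refine (Summable.tsum_le_tsum (fun m => (hrow m).2) t3.norm t2).trans ?_
    rw [tsum_mul_left]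
    have hq := (abs_sub_le_iff.1 q2).1
    have h1 : (η * M)⁻¹ * J s ≤ 2 * π := by
      have : (η * M)⁻¹ ≤ 2 := by
        rw [inv_le_comm₀ (by positivity) (by norm_num)]
        nlinarith
      nlinarith [inv_pos.2 (show 0 < η * M by positivity)]
    have h2 : ∑' m : ℤ, G s (η * M * m + η * c₀) ≤ 6 * π := by nlinarith
    have h3 : 0 ≤ ∑' m : ℤ, G s (η * M * m + η * c₀) := tsum_nonneg fun m => (G_pos _ _).le
    calc 2 * s * π * ∑' m : ℤ, G s (η * M * m + η * c₀)
        ≤ 2 * 2 * π * (6 * π) := by gcongr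
      _ = 24 * π ^ 2 := by ring
  have b2 : |∑' m : ℤ, G (s - 1 / 2) (η * M * m + η * c₀) * (J s * η / M)
      - J s * J (s - 1 / 2) / M ^ 2| ≤ 3 * π ^ 2 * η := by
    rw [tsum_mul_right]
    have h1 : J s * J (s - 1 / 2) / M ^ 2 = (η * M)⁻¹ * J (s - 1 / 2) * (J s * η / M) := by
      field_simp
    rw [h1, ← sub_mul, abs_mul, abs_of_nonneg (show 0 ≤ J s * η / M by positivity)]
    have h2 : J s * η / M ≤ π * η := by
      rw [div_le_iff₀ hM0]
      have : J s * η ≤ π * η := by gcongr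
      nlinarith [mul_pos hpi hη0]
    have h3 : 0 ≤ 2 * (s - 1 / 2) * π := by
      have : 0 < s - 1 / 2 := by linarith
      positivity
    calc _ ≤ (2 * (s - 1 / 2) * π) * (π * η) := mul_le_mul p2 h2 (by positivity) h3
      _ ≤ (2 * (2 - 1 / 2) * π) * (π * η) := by gcongr
      _ = _ := by ring
  have b3 := abs_sub_le (∑' m : ℤ, ∑' n : ℤ, (1 + Nf x η (c₀ + M * m) (d₀ + M * n)) ^ (-s))
    (∑' m : ℤ, G (s - 1 / 2) (η * M * m + η * c₀) * (J s * η / M)) (J s * J (s - 1 / 2) / M ^ 2)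
  nlinarith [sq_nonneg π]

end smooth

end Fermat.Agent.LT.H5
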